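import Fermat.Agent.AL.Newform

/-!
# The trivial bound `|a_p| < p + 1`
-/

set_option autoImplicit false

open UpperHalfPlane hiding I
open ModularForm Complex Filter Topology Matrix.SpecialLinearGroup Asymptotics
open ModularFormClass Fermat.Agent.MFLib
open scoped MatrixGroups Manifold

namespace Fermat.Agent.AL

noncomputable section

variable {N p : ℕ} {f : ℍ → ℂ} {M : M2}

/-- A continuous invariant function vanishing at the cusps attains its maximum if it is positive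
somewhere. -/
lemma exists_max_of_invariant {Γ : Subgroup SL(2, ℤ)} [Γ.FiniteIndex] {φ : ℍ → ℝ}
    (hc : Continuous φ) (hinf : ∀ γ : SL(2, ℤ), Tendsto (fun τ : ℍ => φ (γ • τ)) atImInfty (𝓝 0))
    (hinv : ∀ γ ∈ Γ, ∀ τ : ℍ, φ (γ • τ) = φ τ) {τ₁ : ℍ} (h1 : 0 < φ τ₁) :
    ∃ τ₀, ∀ τ, φ τ ≤ φ τ₀ := by
  classical
  have key : ∀ (γ : SL(2, ℤ)) (τ : ℍ), φ τ = φ (((QuotientGroup.mk γ : SL(2, ℤ) ⧸ Γ).out)⁻¹ • (γ • τ)) := by
    intro γ τ
    obtain ⟨g, hg⟩ := QuotientGroup.mk_out_eq_mul Γ γ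
    have hg' : (QuotientGroup.mk γ : SL(2, ℤ) ⧸ Γ).out = γ * g := hg
    rw [hg', mul_inv_rev, mul_smul, inv_smul_smul, hinv _ (Γ.inv_mem g.2)]
  have hY : ∀ q : SL(2, ℤ) ⧸ Γ, ∃ Y : ℝ, ∀ w : ℍ, Y ≤ w.im → φ ((q.out)⁻¹ • w) < φ τ₁ := by
    intro q
    have h2 := (hinf (q.out)⁻¹).eventually (gt_mem_nhds h1)
    rw [atImInfty, eventually_comap, eventually_atTop] at h2
    obtain ⟨Y, hY⟩ := h2
    exact ⟨Y, fun w hw => hY w.im hw w rfl⟩
  choose Y hY using hY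
  obtain ⟨Y₀, hY₀⟩ : ∃ Y₀ : ℝ, ∀ q, Y q ≤ Y₀ := by
    obtain ⟨Y₀, hY₀⟩ := (Set.finite_range Y).bddAbove
    exact ⟨Y₀, fun q => hY₀ ⟨q, rfl⟩⟩
  have hbig : ∀ (q : SL(2, ℤ) ⧸ Γ) (w : ℍ), Y₀ < w.im → φ ((q.out)⁻¹ • w) < φ τ₁ :=
    fun q w hw => hY q w ((hY₀ q).trans hw.le)
  obtain ⟨γ₁, hγ₁⟩ := ModularGroup.exists_smul_mem_fd τ₁
  have hw₁ : (γ₁ • τ₁) ∈ ModularGroup.truncatedFundamentalDomain Y₀ := by
    refine ⟨hγ₁, ?_⟩
    by_contra hlt
    push Not at hlt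
    have := hbig (QuotientGroup.mk γ₁) _ hlt
    rw [← key] at this
    exact lt_irrefl _ this
  have hmax : ∀ q : SL(2, ℤ) ⧸ Γ, ∃ x : ℍ, ∀ w ∈ ModularGroup.truncatedFundamentalDomain Y₀,
      φ ((q.out)⁻¹ • w) ≤ φ ((q.out)⁻¹ • x) := by
    intro q
    have hcont : Continuous fun w : ℍ => φ ((q.out)⁻¹ • w) := by
      simp only [ModularGroup.sl_moeb]
      fun_prop
    obtain ⟨x, -, hx⟩ := (ModularGroup.isCompact_truncatedFundamentalDomain Y₀).exists_isMaxOn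
      ⟨_, hw₁⟩ hcont.continuousOn
    exact ⟨x, fun w hw => hx hw⟩
  choose x hx using hmax
  obtain ⟨q₀, -, hq₀⟩ := Finset.exists_max_image (Finset.univ : Finset (SL(2, ℤ) ⧸ Γ))
    (fun q => φ ((q.out)⁻¹ • x q)) ⟨((1 : SL(2, ℤ)) : SL(2, ℤ) ⧸ Γ), Finset.mem_univ _⟩
  have hin : ∀ (τ : ℍ) (γ : SL(2, ℤ)), γ • τ ∈ ModularGroup.truncatedFundamentalDomain Y₀ →
      φ τ ≤ φ ((q₀.out)⁻¹ • x q₀) := by
    intro τ γ h
    rw [key γ τ]
    exact (hx _ _ h).trans (hq₀ _ (Finset.mem_univ _))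
  refine ⟨(q₀.out)⁻¹ • x q₀, fun τ => ?_⟩
  obtain ⟨γ, hγ⟩ := ModularGroup.exists_smul_mem_fd τ
  by_cases hle : (γ • τ).im ≤ Y₀
  · exact hin τ γ ⟨hγ, hle⟩
  · push Not at hle
    have := hbig (QuotientGroup.mk γ) _ hle
    rw [← key] at this
    exact this.le.trans (hin τ₁ γ₁ hw₁)

/-- the invariant norm in weight two -/
def nm (f : ℍ → ℂ) (τ : ℍ) : ℝ := ‖f τ‖ * τ.im

lemma nm_nonneg (f : ℍ → ℂ) (τ : ℍ) : 0 ≤ nm f τ := mul_nonneg (norm_nonneg _) τ.im_pos.le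

lemma nm_sl (hM : 0 < M.det) (f : ℍ → ℂ) (τ : ℍ) : nm (sl 2 M f) τ = nm f (toGL M • τ) := by
  have hd : ((toGL M).det : ℝ) = M.det := det_toGL hM.ne'
  have hdpos : (0 : ℝ) < (toGL M).det.val := by rw [hd]; exact_mod_cast hM
  have hσ : σ (toGL M) = .refl ℝ ℂ := by rw [UpperHalfPlane.σ, if_pos hdpos]
  rw [nm, nm, sl, ModularForm.slash_apply, hσ, im_smul_eq_div_normSq, Complex.normSq_eq_norm_sq]
  simp only [ContinuousAlgEquiv.refl_apply]
  rw [show (2 : ℤ) - 1 = 1 by norm_num, zpow_one, norm_mul, norm_mul, norm_zpow]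
  have h1 : ‖((|(toGL M).det.val| : ℝ) : ℂ)‖ = |(toGL M).det.val| := by
    rw [Complex.norm_real, Real.norm_eq_abs, abs_abs]
  rw [h1, zpow_neg]
  field_simp

lemma nm_sum_le {ι : Type*} (s : Finset ι) (F : ι → ℍ → ℂ) (τ : ℍ) :
    nm (∑ i ∈ s, F i) τ ≤ ∑ i ∈ s, nm (F i) τ := by
  simp only [nm, Finset.sum_apply]
  rw [← Finset.sum_mul]
  exact mul_le_mul_of_nonneg_right (norm_sum_le _ _) τ.im_pos.le

lemma nm_smul (c : ℂ) (f : ℍ → ℂ) (τ : ℍ) : nm (c • f) τ = ‖c‖ * nm f τ := by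
  rw [nm, nm, Pi.smul_apply, smul_eq_mul, norm_mul, mul_assoc]

variable {Γ : Subgroup SL(2, ℤ)} [Γ.FiniteIndex]

lemma tendsto_nm (hf : IsCF Γ 2 f) (γ : SL(2, ℤ)) :
    Tendsto (fun τ : ℍ => nm f (γ • τ)) atImInfty (𝓝 0) := by
  obtain ⟨M, hM, hMΓ⟩ := IsMF.exists_T_pow_mem Γ
  have hM' : (0 : ℝ) < M := by exact_mod_cast hM
  have h2 : (f ∣[(2 : ℤ)] γ) =O[atImInfty] fun τ ↦ Real.exp (-2 * Real.pi * τ.im / M) :=
    (hf.zero_cusps γ).exp_decay_atImInfty hM' (IsMF.exists_periodic Γ rfl hf.toIsMF M hMΓ γ)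
      (hf.toHB.slash γ).holo (hf.bdd γ)
  have h3 : (fun τ : ℍ => nm f (γ • τ)) = fun τ => nm (f ∣[(2 : ℤ)] γ) τ := by
    funext τ
    rw [← sl_SL, nm_sl (by rw [γ.det_coe]; exact one_pos), toGL_SL]
    rfl
  rw [h3]
  have h4 : (fun τ : ℍ => nm (f ∣[(2 : ℤ)] γ) τ) =O[atImInfty]
      fun τ : ℍ => Real.exp (-2 * Real.pi * τ.im / M) * τ.im :=
    h2.norm_left.mul (isBigO_refl (fun τ : ℍ => τ.im) atImInfty)
  refine h4.trans_tendsto ?_
  have hc : (0 : ℝ) < 2 * Real.pi / M := by positivity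
  have h5 : Tendsto (fun y : ℝ => Real.exp (-2 * Real.pi * y / M) * y) atTop (𝓝 0) := by
    have h6 := Real.tendsto_pow_mul_exp_neg_atTop_nhds_zero 1
    have h7 : Tendsto (fun y : ℝ => (2 * Real.pi / M) * y) atTop atTop :=
      tendsto_id.const_mul_atTop hc
    have h8 := (h6.comp h7).const_mul (2 * Real.pi / M)⁻¹
    rw [mul_zero] at h8
    refine h8.congr fun y => ?_
    simp only [Function.comp_apply, pow_one]
    have h9 : -(2 * Real.pi / M * y) = -2 * Real.pi * y / M := by ring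
    rw [h9, mul_assoc, mul_comm y, ← mul_assoc, inv_mul_cancel₀ hc.ne', one_mul]
  exact h5.comp tendsto_comap

lemma continuous_nm (hf : MDiff f) : Continuous (nm f) :=
  (hf.continuous.norm).mul UpperHalfPlane.continuous_im

/-- **The trivial bound** for eigenvalues of `T_p`. -/
theorem norm_eigenvalue_lt (hf : IsCF Γ 2 f) (hf0 : f ≠ 0) (hp : p.Prime) {c : ℂ}
    (h : heckeT 2 p f = c • f) : ‖c‖ < p + 1 := by
  obtain ⟨τ₁, hτ₁⟩ := Function.ne_iff.mp hf0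
  have hpos : 0 < nm f τ₁ := mul_pos (norm_pos_iff.mpr hτ₁) τ₁.im_pos
  obtain ⟨τ₀, hτ₀⟩ := exists_max_of_invariant (continuous_nm hf.holo) (tendsto_nm hf)
    (fun γ hγ τ => by
      have := nm_sl (M := (γ : M2)) (by rw [γ.det_coe]; exact one_pos) f τ
      rw [sl_SL, hf.slash γ hγ, toGL_SL] at this
      exact this.symm) hpos
  set B := nm f τ₀ with hB
  have hBpos : 0 < B := hpos.trans_le (hτ₀ τ₁)
  by_contra hcon
  push Not at hcon
  have hdet : ∀ x, 0 < (dl p x).det := fun x => by rw [det_dl]; exact_mod_cast hp.pos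
  -- all the neighbours of a maximal point are maximal
  have hstep : ∀ τ : ℍ, nm f τ = B → nm f (toGL (dl p none) • τ) = B := by
    intro τ hτ
    have h1 : ‖c‖ * B ≤ ∑ x : Option (Fin p), nm f (toGL (dl p x) • τ) := by
      rw [← hτ, ← nm_smul, ← h, heckeT_eq_sum hp.ne_zero]
      refine (nm_sum_le _ _ _).trans (le_of_eq ?_)
      exact Finset.sum_congr rfl fun x _ => nm_sl (hdet x) f τ
    rw [Fintype.sum_option] at h1
    have h2 : ∑ j : Fin p, nm f (toGL (dl p (some j)) • τ) ≤ p * B := by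
      have := Finset.sum_le_card_nsmul (Finset.univ : Finset (Fin p))
        (fun j => nm f (toGL (dl p (some j)) • τ)) B (fun j _ => hτ₀ _)
      simpa using this
    have h3 : ((p : ℝ) + 1) * B ≤ ‖c‖ * B := mul_le_mul_of_nonneg_right hcon hBpos.le
    exact le_antisymm (hτ₀ _) (by linarith)
  have hseq : ∀ n : ℕ, ∃ τ : ℍ, nm f τ = B ∧ τ.im = (p : ℝ) ^ n * τ₀.im := by
    intro n
    induction n with
    | zero => exact ⟨τ₀, rfl, by simp⟩
    | succ n ih =>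
      obtain ⟨τ, h1, h2⟩ := ih
      refine ⟨_, hstep τ h1, ?_⟩
      have h3 : toGL (dl p none) = heckeDiagMatrix p := (heckeDiagMatrix_eq_toGL hp.ne_zero).symm
      have h4 := congrArg Complex.im (coe_heckeDiagMatrix_smul hp.ne_zero τ)
      rw [h3]
      simp only [Complex.mul_im, Complex.natCast_re, Complex.natCast_im, zero_mul, add_zero,
        UpperHalfPlane.coe_im] at h4
      rw [h4, h2, pow_succ]
      ring
  have ht := tendsto_nm hf 1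
  simp only [one_smul] at ht
  have h2 := ht.eventually (gt_mem_nhds hBpos)
  rw [atImInfty, eventually_comap, eventually_atTop] at h2
  obtain ⟨Y, hY⟩ := h2
  have h5 : Tendsto (fun n : ℕ => (p : ℝ) ^ n * τ₀.im) atTop atTop :=
    (tendsto_pow_atTop_atTop_of_one_lt (by exact_mod_cast hp.one_lt)).atTop_mul_const τ₀.im_pos
  obtain ⟨n, hn⟩ := (h5.eventually_ge_atTop Y).exists
  obtain ⟨τ, hτ1, hτ2⟩ := hseq n
  have := hY τ.im (by rw [hτ2]; exact hn) τ rfl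
  rw [hτ1] at this
  exact lt_irrefl _ this

end

end Fermat.Agent.AL
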