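import Fermat.Agent.AL.Hecke
import Fermat.Prelude.Def_ModularForm_HeckeOperatorForms

/-!
# Function level cusp forms, representatives, degeneracy maps
-/

set_option autoImplicit false
set_option linter.style.haveILetI false

open UpperHalfPlane ModularForm Complex Filter Topology Matrix.SpecialLinearGroup
open scoped MatrixGroups Manifold

namespace Fermat.Agent.AL

noncomputable section

variable {k : ℤ} {M : M2} {f g : ℍ → ℂ}

/-- Sum over representatives of cosets: invariance. -/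
theorem sum_reps_slash {Γ' Γ : Subgroup SL(2, ℤ)} {ι : Type*} [Fintype ι] (r : ι → SL(2, ℤ))
    (hr : ∀ i, r i ∈ Γ) (hinj : ∀ i j, r i * (r j)⁻¹ ∈ Γ' → i = j)
    (hsurj : ∀ γ ∈ Γ, ∃ i, γ * (r i)⁻¹ ∈ Γ') (hf : ∀ γ ∈ Γ', f ∣[k] γ = f)
    {γ : SL(2, ℤ)} (hγ : γ ∈ Γ) : (∑ i, f ∣[k] (r i)) ∣[k] γ = ∑ i, f ∣[k] (r i) := by
  choose σ hσ using fun i => hsurj (r i * γ) (Γ.mul_mem (hr i) hγ)
  have hσi : Function.Injective σ := by
    intro i j hij
    apply hinj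
    have h1 := hσ i
    have h2 := hσ j
    rw [← hij] at h2
    have h3 := Γ'.mul_mem h1 (Γ'.inv_mem h2)
    convert h3 using 1
    group
  have hbij : Function.Bijective σ := Finite.injective_iff_bijective.mp hσi
  rw [MFLib.sum_slash_SL, ← (Equiv.ofBijective σ hbij).sum_comp (fun i => f ∣[k] (r i))]
  refine Finset.sum_congr rfl fun i _ => ?_
  rw [Equiv.ofBijective_apply, ← SlashAction.slash_mul]
  have h4 : r i * γ = (r i * γ * (r (σ i))⁻¹) * r (σ i) := by group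
  rw [h4, SlashAction.slash_mul, hf _ (hσ i)]

/-- The subgroup `Γ⁰(N)`. -/
def GammaUp (N : ℤ) : Subgroup SL(2, ℤ) where
  carrier := {γ | N ∣ γ 0 1}
  mul_mem' := by
    intro a b ha hb
    simp only [Set.mem_ofPred_eq] at *
    rw [Matrix.SpecialLinearGroup.coe_mul, Matrix.mul_apply, Fin.sum_univ_two]
    exact dvd_add (Dvd.dvd.mul_left hb _) (Dvd.dvd.mul_right ha _)
  one_mem' := by simp
  inv_mem' := by
    intro a ha
    simp only [Set.mem_ofPred_eq] at *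
    rw [Matrix.SpecialLinearGroup.SL2_inv_expl]
    simpa using ha

lemma mem_GammaUp {N : ℤ} {γ : SL(2, ℤ)} : γ ∈ GammaUp N ↔ N ∣ γ 0 1 := Iff.rfl

lemma mem_Gamma0_iff {N : ℕ} {γ : SL(2, ℤ)} :
    γ ∈ CongruenceSubgroup.Gamma0 N ↔ (N : ℤ) ∣ γ 1 0 := by
  rw [CongruenceSubgroup.Gamma0_mem, ZMod.intCast_zmod_eq_zero_iff_dvd]

lemma isCF_iff {N : ℕ} : MFLib.IsCF (CongruenceSubgroup.Gamma0 N) k f ↔
    HC k f ∧ ∀ M : M2, M.det = 1 → (N : ℤ) ∣ M 1 0 → sl k M f = f := by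
  constructor
  · intro h
    refine ⟨HC.of_isCF h, fun M hM hN => ?_⟩
    have := h.slash ⟨M, hM⟩ (mem_Gamma0_iff.mpr hN)
    rwa [← sl_SL (k := k) (f := f) ⟨M, hM⟩] at this
  · rintro ⟨h, h'⟩
    refine ⟨⟨h.hb, fun γ hγ => ?_⟩, h.zero⟩
    rw [← sl_SL]
    exact h' _ γ.det_coe (mem_Gamma0_iff.mp hγ)

/-- `V_d` raises the level. -/
theorem isCF_V {N d : ℕ} (hd : d ≠ 0) (hf : MFLib.IsCF (CongruenceSubgroup.Gamma0 N) k f) :
    MFLib.IsCF (CongruenceSubgroup.Gamma0 (d * N)) k (sl k !![(d : ℤ), 0; 0, 1] f) := by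
  rw [isCF_iff] at hf ⊢
  refine ⟨hf.1.sl _, fun M hM hN => ?_⟩
  have hd' : (d : ℤ) ≠ 0 := by exact_mod_cast hd
  have hD : (!![(d : ℤ), 0; 0, 1] : M2).det ≠ 0 := by simpa [Matrix.det_fin_two_of] using hd
  obtain ⟨e, he⟩ := hN
  push_cast at he
  have hdet := hM
  rw [Matrix.det_fin_two] at hdet
  set M' : M2 := !![M 0 0, d * M 0 1; N * e, M 1 1] with hM'
  have h1 : M'.det = 1 := by
    rw [hM', Matrix.det_fin_two_of]
    rw [he] at hdet
    linear_combination hdet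
  have h2 : !![(d : ℤ), 0; 0, 1] * M = M' * !![(d : ℤ), 0; 0, 1] := by
    apply mat_ext
    · simp [hM', Matrix.mul_apply, Fin.sum_univ_two]; ring
    · simp [hM', Matrix.mul_apply, Fin.sum_univ_two]
    · simp [hM', Matrix.mul_apply, Fin.sum_univ_two, he]; ring
    · simp [hM', Matrix.mul_apply, Fin.sum_univ_two]
  rw [← sl_mul hD (by rw [hM]; exact one_ne_zero), h2, sl_mul (by rw [h1]; exact one_ne_zero) hD,
    hf.2 M' h1 (by simp [hM'])]

/-- A form of level `N` is a form of every level divisible by `N`. -/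
lemma isCF_mono {N N' : ℕ} (h : N ∣ N') (hf : MFLib.IsCF (CongruenceSubgroup.Gamma0 N) k f) :
    MFLib.IsCF (CongruenceSubgroup.Gamma0 N') k f := by
  rw [isCF_iff] at hf ⊢
  exact ⟨hf.1, fun M hM hN => hf.2 M hM ((Int.natCast_dvd_natCast.mpr h).trans hN)⟩

lemma isCF_heckeU {N p : ℕ} (hN : N ≠ 0) (hp : p ∣ N)
    (hf : MFLib.IsCF (CongruenceSubgroup.Gamma0 N) k f) :
    MFLib.IsCF (CongruenceSubgroup.Gamma0 N) k (heckeU k p f) := by
  haveI : NeZero N := ⟨hN⟩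
  have := MFLib.IsCF.of_class (CuspForm.heckeULin k hp hf.toCuspForm)
  simpa using this

lemma isCF_heckeT {N p : ℕ} (hp : p.Prime) (hpN : ¬ p ∣ N)
    (hf : MFLib.IsCF (CongruenceSubgroup.Gamma0 N) k f) :
    MFLib.IsCF (CongruenceSubgroup.Gamma0 N) k (heckeT k p f) := by
  haveI : NeZero N := ⟨fun h => hpN (h ▸ dvd_zero p)⟩
  have := MFLib.IsCF.of_class (CuspForm.heckeTLin k hp hpN hf.toCuspForm)
  simpa using this

end

end Fermat.Agent.AL
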