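import Fermat.Agent.AL.Mat

/-!
# Hecke operators commute with classes of integral matrices
-/

set_option autoImplicit false

open UpperHalfPlane ModularForm Complex Filter Topology Matrix.SpecialLinearGroup
open scoped MatrixGroups Manifold

namespace Fermat.Agent.AL

noncomputable section

/-- The standard representatives for the Hecke operator `T_ℓ`. -/
def dl (l : ℕ) : Option (Fin l) → M2
  | none => !![(l : ℤ), 0; 0, 1]
  | some j => !![1, ((j : ℕ) : ℤ); 0, (l : ℤ)]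

variable {k : ℤ} {l : ℕ} {M M' : M2} {f g : ℍ → ℂ}

@[simp] lemma dl_one_zero (x : Option (Fin l)) : dl l x 1 0 = 0 := by
  cases x <;> simp [dl]

lemma det_dl (x : Option (Fin l)) : (dl l x).det = l := by
  cases x <;> simp [dl, Matrix.det_fin_two_of]

lemma det_dl_ne (hl : l ≠ 0) (x : Option (Fin l)) : (dl l x).det ≠ 0 := by
  rw [det_dl]; exact_mod_cast hl

lemma heckeU_eq_sum (hl : l ≠ 0) (f : ℍ → ℂ) :
    heckeU k l f = ∑ j : Fin l, sl k (dl l (some j)) f := by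
  rw [heckeU_def, ← Fin.sum_univ_eq_sum_range (fun j => f ∣[k] heckeMatrix l j)]
  refine Finset.sum_congr rfl fun j _ => ?_
  rw [heckeMatrix_eq_toGL hl]; rfl

lemma heckeT_eq_sum (hl : l ≠ 0) (f : ℍ → ℂ) :
    heckeT k l f = ∑ x : Option (Fin l), sl k (dl l x) f := by
  rw [heckeT_eq_heckeU_add, heckeU_eq_sum hl, Fintype.sum_option, add_comm,
    heckeDiagMatrix_eq_toGL hl]
  rfl

/-- the index of a residue class -/
lemma exists_fin (hl : 0 < l) (z : ℤ) : ∃ j : Fin l, (l : ℤ) ∣ z - ((j : ℕ) : ℤ) := by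
  have h0 : (0 : ℤ) < l := by exact_mod_cast hl
  have h1 : 0 ≤ z % l := Int.emod_nonneg _ h0.ne'
  have h2 : z % l < l := Int.emod_lt_of_pos _ h0
  refine ⟨⟨(z % l).toNat, ?_⟩, ?_⟩
  · omega
  · have : (((z % l).toNat : ℕ) : ℤ) = z % l := Int.toNat_of_nonneg h1
    simp only [this]
    exact ⟨z / l, by have := Int.emod_add_mul_ediv z l; linarith⟩

lemma exists_fin_solve (hl : l.Prime) {a : ℤ} (ha : ¬ (l : ℤ) ∣ a) (z : ℤ) :
    ∃ j : Fin l, (l : ℤ) ∣ z - ((j : ℕ) : ℤ) * a := by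
  have hco : IsCoprime (l : ℤ) a := (Nat.prime_iff_prime_int.mp hl).coprime_iff_not_dvd.mpr ha
  obtain ⟨u, v, huv⟩ := hco
  obtain ⟨j, hj⟩ := exists_fin hl.pos (z * v)
  refine ⟨j, ?_⟩
  have h1 : z - ((j : ℕ) : ℤ) * a = (z * v - ((j : ℕ) : ℤ)) * a + l * (z * u) := by
    linear_combination (-z) * huv
  rw [h1]
  exact dvd_add (Dvd.dvd.mul_right hj a) (dvd_mul_right _ _)

lemma fin_eq_of_dvd {i j : Fin l} (h : (l : ℤ) ∣ ((i : ℕ) : ℤ) - ((j : ℕ) : ℤ)) : i = j := by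
  have hi := i.2
  have hj := j.2
  have : ((i : ℕ) : ℤ) - ((j : ℕ) : ℤ) = 0 :=
    Int.eq_zero_of_abs_lt_dvd h (by rw [abs_lt]; omega)
  ext
  omega

lemma mat_ext {A B : M2} (h1 : A 0 0 = B 0 0) (h2 : A 0 1 = B 0 1) (h3 : A 1 0 = B 1 0)
    (h4 : A 1 1 = B 1 1) : A = B := by
  ext i j
  fin_cases i <;> fin_cases j <;> assumption

lemma some_mul_some {j j' : Fin l} (h : (l : ℤ) ∣ M 0 1 + j * M 1 1 - j' * (M 0 0 + j * M 1 0)) :
    ∃ M', dl l (some j) * M = M' * dl l (some j') := by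
  obtain ⟨e, he⟩ := h
  refine ⟨!![M 0 0 + j * M 1 0, e; l * M 1 0, M 1 1 - M 1 0 * j'], mat_ext ?_ ?_ ?_ ?_⟩
  · simp [dl, Matrix.mul_apply, Fin.sum_univ_two]
  · simp [dl, Matrix.mul_apply, Fin.sum_univ_two]
    linear_combination he
  · simp [dl, Matrix.mul_apply, Fin.sum_univ_two]
  · simp [dl, Matrix.mul_apply, Fin.sum_univ_two]
    ring

lemma exists_dl_mul (hl : l.Prime) (M : M2) (x : Option (Fin l)) :
    ∃ y M', dl l x * M = M' * dl l y := by
  cases x with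
  | some j =>
    by_cases h : (l : ℤ) ∣ M 0 0 + j * M 1 0
    · obtain ⟨e, he⟩ := h
      refine ⟨none, !![e, M 0 1 + j * M 1 1; M 1 0, l * M 1 1], mat_ext ?_ ?_ ?_ ?_⟩
      · simp [dl, Matrix.mul_apply, Fin.sum_univ_two]
        linear_combination he
      · simp [dl, Matrix.mul_apply, Fin.sum_univ_two]
      · simp [dl, Matrix.mul_apply, Fin.sum_univ_two]
        ring
      · simp [dl, Matrix.mul_apply, Fin.sum_univ_two]
    · obtain ⟨j', hj'⟩ := exists_fin_solve hl h (M 0 1 + j * M 1 1)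
      obtain ⟨M', hM'⟩ := some_mul_some hj'
      exact ⟨some j', M', hM'⟩
  | none =>
    by_cases h : (l : ℤ) ∣ M 1 0
    · obtain ⟨e, he⟩ := h
      refine ⟨none, !![M 0 0, l * M 0 1; e, M 1 1], mat_ext ?_ ?_ ?_ ?_⟩
      · simp [dl, Matrix.mul_apply, Fin.sum_univ_two]
        ring
      · simp [dl, Matrix.mul_apply, Fin.sum_univ_two]
      · simp [dl, Matrix.mul_apply, Fin.sum_univ_two]
        linear_combination he
      · simp [dl, Matrix.mul_apply, Fin.sum_univ_two]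
    · obtain ⟨j', e, he⟩ := exists_fin_solve hl h (M 1 1)
      refine ⟨some j', !![l * M 0 0, M 0 1 - M 0 0 * j'; M 1 0, e], mat_ext ?_ ?_ ?_ ?_⟩
      · simp [dl, Matrix.mul_apply, Fin.sum_univ_two]
      · simp [dl, Matrix.mul_apply, Fin.sum_univ_two]
        ring
      · simp [dl, Matrix.mul_apply, Fin.sum_univ_two]
      · simp [dl, Matrix.mul_apply, Fin.sum_univ_two]
        linear_combination he

lemma exists_dl_mul_some (hl : l.Prime) (hM : ¬ (l : ℤ) ∣ M.det) (hc : (l : ℤ) ∣ M 1 0) (j : Fin l) :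
    ∃ j' M', dl l (some j) * M = M' * dl l (some j') := by
  have ha : ¬ (l : ℤ) ∣ M 0 0 + j * M 1 0 := by
    intro h
    apply hM
    have h1 : (l : ℤ) ∣ M 0 0 := (dvd_add_left (Dvd.dvd.mul_left hc _)).mp h
    rw [Matrix.det_fin_two]
    exact dvd_sub (Dvd.dvd.mul_right h1 _) (Dvd.dvd.mul_left hc _)
  obtain ⟨j', hj'⟩ := exists_fin_solve hl ha (M 0 1 + j * M 1 1)
  obtain ⟨M', hM'⟩ := some_mul_some hj'
  exact ⟨j', M', hM'⟩

lemma det_eq_of_dl_mul (hl : l ≠ 0) {x y : Option (Fin l)} (h : dl l x * M = M' * dl l y) :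
    M'.det = M.det := by
  have h1 := congrArg Matrix.det h
  rw [Matrix.det_mul, Matrix.det_mul, det_dl, det_dl, mul_comm] at h1
  exact (mul_right_cancel₀ (by exact_mod_cast hl) h1).symm

/-- If `D • dl x = A * dl x'` with `A` integral, `ℓ ∤ D`, then `x = x'`. -/
lemma dl_inj_aux (hl : l.Prime) {D : ℤ} (hD : ¬ (l : ℤ) ∣ D) {A : M2} {x x' : Option (Fin l)}
    (h : D • dl l x = A * dl l x') : x = x' := by
  have hp := Nat.prime_iff_prime_int.mp hl
  have h2 : D • (dl l x * (dl l x').adjugate) = (l : ℤ) • A := by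
    rw [← Matrix.smul_mul, h, Matrix.mul_assoc, Matrix.mul_adjugate, det_dl, Matrix.mul_smul,
      Matrix.mul_one]
  have h3 : ∀ i j, (l : ℤ) ∣ (dl l x * (dl l x').adjugate) i j := by
    intro i j
    have h4 := congrFun (congrFun h2 i) j
    rw [Matrix.smul_apply, Matrix.smul_apply, smul_eq_mul, smul_eq_mul] at h4
    have h5 : (l : ℤ) ∣ D * (dl l x * (dl l x').adjugate) i j := ⟨_, h4⟩
    exact (hp.dvd_mul.mp h5).resolve_left hD
  cases x with
  | none =>
    cases x' with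
    | none => rfl
    | some j =>
      have := h3 1 1
      simp [dl, Matrix.adjugate_fin_two, Matrix.mul_apply, Fin.sum_univ_two] at this
      exact absurd (isUnit_of_dvd_one this) hp.not_isUnit
  | some i =>
    cases x' with
    | none =>
      have := h3 0 0
      simp [dl, Matrix.adjugate_fin_two, Matrix.mul_apply, Fin.sum_univ_two] at this
      exact absurd (isUnit_of_dvd_one this) hp.not_isUnit
    | some j =>
      have := h3 0 1
      simp [dl, Matrix.adjugate_fin_two, Matrix.mul_apply, Fin.sum_univ_two] at this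
      rw [fin_eq_of_dvd (i := i) (j := j)]
      have h6 : ((i : ℕ) : ℤ) - ((j : ℕ) : ℤ) = -((j : ℕ) : ℤ) + ((i : ℕ) : ℤ) := by ring
      rw [h6]; exact this

lemma dl_inj (hl : l.Prime) {D : ℤ} (hD : ¬ (l : ℤ) ∣ D) (hM : M.det ≠ 0) {M₁ M₂ : M2} (h2 : M₂.det = D)
    {x x' y : Option (Fin l)} (h : dl l x * M = M₁ * dl l y) (h' : dl l x' * M = M₂ * dl l y) :
    x = x' := by
  refine dl_inj_aux hl hD (A := M₁ * M₂.adjugate) ?_
  have h3 : M₂.adjugate * (dl l x' * M) = D • dl l y := by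
    rw [h', ← Matrix.mul_assoc, Matrix.adjugate_mul, h2, Matrix.smul_mul, Matrix.one_mul]
  have h4 : (D • dl l x) * M = (M₁ * M₂.adjugate * dl l x') * M := by
    rw [Matrix.smul_mul, h, ← Matrix.mul_smul, ← h3]
    simp only [Matrix.mul_assoc]
  have h5 := congrArg (· * M.adjugate) h4
  simp only [Matrix.mul_assoc, Matrix.mul_adjugate, Matrix.mul_smul, Matrix.mul_one] at h5
  have h6 := smul_right_injective M2 hM h5
  rw [h6]
  simp only [Matrix.mul_assoc]

/-- classes of matrices stable under conjugation by the Hecke representatives -/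
def Stab (l : ℕ) (W : Set M2) : Prop :=
  ∀ M ∈ W, ∀ M' x y, dl l x * M = M' * dl l y → M' ∈ W

theorem sl_heckeT (hl : l.Prime) {W : Set M2} (hW : Stab l W)
    (hf : ∀ M ∈ W, ∀ M' ∈ W, sl k M f = sl k M' f) (hM : M ∈ W) (hdet : ¬ (l : ℤ) ∣ M.det) :
    sl k M (heckeT k l f) = heckeT k l (sl k M f) := by
  have hl0 := hl.ne_zero
  have hM0 : M.det ≠ 0 := fun h => hdet (h ▸ dvd_zero _)
  choose σ A hA using fun x => exists_dl_mul hl M x
  have hinj : Function.Injective σ := by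
    intro x x' hxx
    have h1 := hA x
    have h2 := hA x'
    rw [← hxx] at h2
    exact dl_inj hl hdet hM0 (det_eq_of_dl_mul hl0 h2) h1 h2
  have hbij : Function.Bijective σ := Finite.injective_iff_bijective.mp hinj
  rw [heckeT_eq_sum hl0, heckeT_eq_sum hl0, sl_sum,
    ← (Equiv.ofBijective σ hbij).sum_comp (fun y => sl k (dl l y) (sl k M f))]
  refine Finset.sum_congr rfl fun x _ => ?_
  rw [Equiv.ofBijective_apply, ← sl_mul (det_dl_ne hl0 x) hM0, hA x,
    sl_mul (by rw [det_eq_of_dl_mul hl0 (hA x)]; exact hM0) (det_dl_ne hl0 _),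
    hf _ (hW M hM _ x _ (hA x)) _ hM]

/-- classes of matrices stable under conjugation by the representatives of `U_p` -/
def StabU (l : ℕ) (W : Set M2) : Prop :=
  ∀ M ∈ W, ∀ M' j j', dl l (some j) * M = M' * dl l (some j') → M' ∈ W

theorem sl_heckeU (hl : l.Prime) {W : Set M2} (hW : StabU l W)
    (hf : ∀ M ∈ W, ∀ M' ∈ W, sl k M f = sl k M' f) (hM : M ∈ W) (hdet : ¬ (l : ℤ) ∣ M.det)
    (hc : (l : ℤ) ∣ M 1 0) :
    sl k M (heckeU k l f) = heckeU k l (sl k M f) := by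
  have hl0 := hl.ne_zero
  have hM0 : M.det ≠ 0 := fun h => hdet (h ▸ dvd_zero _)
  choose σ A hA using fun x => exists_dl_mul_some hl hdet hc x
  have hinj : Function.Injective σ := by
    intro x x' hxx
    have h1 := hA x
    have h2 := hA x'
    rw [← hxx] at h2
    exact Option.some_injective _ (dl_inj hl hdet hM0 (det_eq_of_dl_mul hl0 h2) h1 h2)
  have hbij : Function.Bijective σ := Finite.injective_iff_bijective.mp hinj
  rw [heckeU_eq_sum hl0, heckeU_eq_sum hl0, sl_sum,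
    ← (Equiv.ofBijective σ hbij).sum_comp (fun y => sl k (dl l (some y)) (sl k M f))]
  refine Finset.sum_congr rfl fun x _ => ?_
  rw [Equiv.ofBijective_apply, ← sl_mul (det_dl_ne hl0 _) hM0, hA x,
    sl_mul (by rw [det_eq_of_dl_mul hl0 (hA x)]; exact hM0) (det_dl_ne hl0 _),
    hf _ (hW M hM _ _ _ (hA x)) _ hM]

lemma isCoprime_dl_zero_zero {m : ℤ} (hm : IsCoprime m l) (x : Option (Fin l)) :
    IsCoprime m (dl l x 0 0) := by
  cases x
  · simpa [dl] using hm
  · simpa [dl] using isCoprime_one_right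

lemma isCoprime_dl_one_one {m : ℤ} (hm : IsCoprime m l) (x : Option (Fin l)) :
    IsCoprime m (dl l x 1 1) := by
  cases x
  · simpa [dl] using isCoprime_one_right
  · simpa [dl] using hm

section entries

variable {m : ℤ} {x y : Option (Fin l)}

lemma entries (h : dl l x * M = M' * dl l y) :
    dl l x 0 0 * M 0 0 + dl l x 0 1 * M 1 0 = M' 0 0 * dl l y 0 0 ∧
    dl l x 0 0 * M 0 1 + dl l x 0 1 * M 1 1 = M' 0 0 * dl l y 0 1 + M' 0 1 * dl l y 1 1 ∧
    dl l x 1 1 * M 1 0 = M' 1 0 * dl l y 0 0 ∧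
    dl l x 1 1 * M 1 1 = M' 1 0 * dl l y 0 1 + M' 1 1 * dl l y 1 1 := by
  refine ⟨?_, ?_, ?_, ?_⟩
  · simpa [Matrix.mul_apply, Fin.sum_univ_two] using congrFun (congrFun h 0) 0
  · simpa [Matrix.mul_apply, Fin.sum_univ_two] using congrFun (congrFun h 0) 1
  · simpa [Matrix.mul_apply, Fin.sum_univ_two] using congrFun (congrFun h 1) 0
  · simpa [Matrix.mul_apply, Fin.sum_univ_two] using congrFun (congrFun h 1) 1

lemma dvd_c (h : dl l x * M = M' * dl l y) (hm : IsCoprime m l) : m ∣ M' 1 0 ↔ m ∣ M 1 0 := by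
  obtain ⟨-, -, h3, -⟩ := entries h
  constructor
  · intro hd
    refine (isCoprime_dl_one_one hm x).dvd_of_dvd_mul_left (z := M 1 0) ?_
    rw [h3]
    exact Dvd.dvd.mul_right hd _
  · intro hd
    refine (isCoprime_dl_zero_zero hm y).dvd_of_dvd_mul_right (y := M' 1 0) ?_
    rw [← h3]
    exact Dvd.dvd.mul_left hd _

lemma dvd_a (h : dl l x * M = M' * dl l y) (hm : IsCoprime m l) (hc : m ∣ M 1 0) (ha : m ∣ M 0 0) :
    m ∣ M' 0 0 := by
  obtain ⟨h1, -, -, -⟩ := entries h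
  refine (isCoprime_dl_zero_zero hm y).dvd_of_dvd_mul_right (y := M' 0 0) ?_
  rw [← h1]
  exact dvd_add (Dvd.dvd.mul_left ha _) (Dvd.dvd.mul_left hc _)

lemma dvd_d (h : dl l x * M = M' * dl l y) (hm : IsCoprime m l) (hc : m ∣ M 1 0) (hd : m ∣ M 1 1) :
    m ∣ M' 1 1 := by
  obtain ⟨-, -, -, h4⟩ := entries h
  have hc' := (dvd_c h hm).mpr hc
  refine (isCoprime_dl_one_one hm y).dvd_of_dvd_mul_right (y := M' 1 1) ?_
  have h5 : M' 1 1 * dl l y 1 1 = dl l x 1 1 * M 1 1 - M' 1 0 * dl l y 0 1 := by linarith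
  rw [h5]
  exact dvd_sub (Dvd.dvd.mul_left hd _) (Dvd.dvd.mul_right hc' _)

end entries

/-- The set of integral matrices of determinant `D`, with `Q ∣ a`, `R ∣ c`, `S ∣ d`. -/
def WW (D Q R S : ℤ) : Set M2 := {M | M.det = D ∧ Q ∣ M 0 0 ∧ R ∣ M 1 0 ∧ S ∣ M 1 1}

lemma stabU_WW (hl : l ≠ 0) {D Q R S : ℤ} (hQ : Q ∣ R) (hS : S ∣ R) : StabU l (WW D Q R S) := by
  rintro M ⟨h1, h2, h3, h4⟩ M' j j' h
  have hlZ : (l : ℤ) ≠ 0 := by exact_mod_cast hl
  obtain ⟨e1, -, e3, e4⟩ := entries h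
  simp [dl] at e1 e3 e4
  have e5 : M' 1 1 = M 1 1 - M 1 0 * (j' : ℕ) := by
    refine mul_left_cancel₀ hlZ ?_
    rw [← e3] at e4
    linear_combination -e4
  refine ⟨by rw [det_eq_of_dl_mul hl h, h1], ?_, ?_, ?_⟩
  · rw [← e1]
    exact dvd_add h2 (Dvd.dvd.mul_left (hQ.trans h3) _)
  · rw [← e3]
    exact Dvd.dvd.mul_left h3 _
  · rw [e5]
    exact dvd_sub h4 (Dvd.dvd.mul_right (hS.trans h3) _)

lemma stab_WW (hl : l ≠ 0) {D Q R S : ℤ} (hQ : Q ∣ R) (hS : S ∣ R) (hco : IsCoprime R l) :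
    Stab l (WW D Q R S) := by
  rintro M ⟨h1, h2, h3, h4⟩ M' x y h
  refine ⟨by rw [det_eq_of_dl_mul hl h, h1], ?_, (dvd_c h hco).mpr h3, ?_⟩
  · exact dvd_a h (hco.of_isCoprime_of_dvd_left hQ) (hQ.trans h3) h2
  · exact dvd_d h (hco.of_isCoprime_of_dvd_left hS) (hS.trans h3) h4

end

end Fermat.Agent.AL
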