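import Fermat.Agent.AL.Unique

/-!
# Uniqueness of the level of a newform: main theorem
-/

set_option autoImplicit false

open UpperHalfPlane ModularForm Complex Filter Topology Matrix.SpecialLinearGroup
open ModularFormClass Fermat.Agent.MFLib
open scoped MatrixGroups Manifold

namespace Fermat.Agent.AL

noncomputable section

variable {M N p a b M₀ N₀ : ℕ}

lemma qCoeff_zero_fun (n : ℕ) : qCoeff 0 n = 0 := by
  rw [qCoeff_eq]
  have : qe (0 : ℍ → ℂ) = 0 := QG.zero.qe_eq_zero.mpr rfl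
  rw [this]; simp

lemma ep_eq_of_heckeU {G : ℍ → ℂ} {u : ℂ} (hp : p.Prime) (h : heckeU 2 p G = u • G) :
    ep 2 p G = ((p : ℂ)⁻¹ * u) • sl 2 !![(p : ℤ), 0; 0, 1] G := by
  rw [ep, h, sl_smul (by simpa [Matrix.det_fin_two_of] using hp.pos), smul_smul]
  norm_num

lemma ep_eq_of_heckeU' {G : ℍ → ℂ} {u : ℂ} (hp : p.Prime)
    (h : heckeU 2 p G = u • G - sl 2 !![(p : ℤ), 0; 0, 1] G) :
    ep 2 p G = ((p : ℂ)⁻¹ * u) • sl 2 !![(p : ℤ), 0; 0, 1] G -
      (p : ℂ)⁻¹ • sl 2 !![(p : ℤ), 0; 0, 1] (sl 2 !![(p : ℤ), 0; 0, 1] G) := by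
  have hpos : 0 < (!![(p : ℤ), 0; 0, 1] : M2).det := by
    simpa [Matrix.det_fin_two_of] using hp.pos
  rw [ep, h, sl_sub, sl_smul hpos, smul_sub, smul_smul]
  norm_num

/-- The eigensystem of a newform of level `M` occurs only in levels divisible by `M`
(`p`-part, both newforms). -/
theorem level_aux (hp : p.Prime) (hM : M = p ^ a * M₀) (hN : N = p ^ b * N₀) (hM₀ : ¬ p ∣ M₀)
    (hN₀ : ¬ p ∣ N₀) (hba : b < a) {f : CuspForm (CongruenceSubgroup.Gamma0 M) 2}
    {h : CuspForm (CongruenceSubgroup.Gamma0 N) 2} (hf : f.IsNewform) (hh : h.IsNewform)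
    {S : Set ℕ} (hS : S.Finite)
    (hfh : ∀ l : ℕ, l.Prime → ¬ l ∣ M * N → l ∉ S → qCoeff f l = qCoeff h l) : False := by
  have hM00 : M₀ ≠ 0 := by rintro rfl; exact hM₀ (dvd_zero _)
  have hN00 : N₀ ≠ 0 := by rintro rfl; exact hN₀ (dvd_zero _)
  have hp0 := hp.ne_zero
  have hpC : (p : ℂ) ≠ 0 := by exact_mod_cast hp0
  have hM0 : NeZero M := ⟨by rw [hM]; exact mul_ne_zero (pow_ne_zero _ hp0) hM00⟩
  have hN0 : NeZero N := ⟨by rw [hN]; exact mul_ne_zero (pow_ne_zero _ hp0) hN00⟩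
  set R := M₀ * N₀ with hR
  have hR0 : R ≠ 0 := mul_ne_zero hM00 hN00
  have hpR : ¬ p ∣ R := fun h => (hp.dvd_mul.mp h).elim hM₀ hN₀
  set L := R.primeFactorsList with hL
  have hLp : ∀ q ∈ L, q.Prime ∧ q ≠ p := by
    intro q hq
    refine ⟨Nat.prime_of_mem_primeFactorsList hq, ?_⟩
    rintro rfl
    exact hpR (Nat.dvd_of_mem_primeFactorsList hq)
  have hLp' : ∀ q ∈ L, q.Prime := fun q hq => (hLp q hq).1
  have hL0 : ∀ q ∈ L, q ≠ 0 := fun q hq => (hLp' q hq).ne_zero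
  have hLa : ∀ c : ℕ, ∀ q ∈ L, q.Prime ∧ ¬ q ∣ p ^ c := fun c q hq => ⟨hLp' q hq, fun hd =>
    (hLp q hq).2 ((Nat.prime_dvd_prime_iff_eq (hLp' q hq) hp).mp ((hLp' q hq).dvd_of_dvd_pow hd))⟩
  -- comparison of coefficients
  have hcoef : ∀ n, (∀ q ∈ L, ¬ q ∣ n) → ¬ p ∣ n → qCoeff f n = qCoeff h n := by
    intro n h1 h2
    refine qCoeff_eq_of_almost_all (N := M * N) (mul_ne_zero (NeZero.ne M) (NeZero.ne N))
      (dvd_mul_right M N) (dvd_mul_left N M) hf.1 hh.1 hS hfh n fun q hq hqn => ?_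
    have hqp := Nat.prime_of_mem_primeFactors hq
    have hqd := Nat.dvd_of_mem_primeFactors hq
    have hqp' : q ≠ p := by rintro rfl; exact h2 hqn
    apply h1 q _ hqn
    rw [hL, Nat.mem_primeFactorsList hR0]
    refine ⟨hqp, ?_⟩
    rw [hM, hN] at hqd
    have hqpow : ∀ c, ¬ q ∣ p ^ c := fun c hd =>
      hqp' ((Nat.prime_dvd_prime_iff_eq hqp hp).mp (hqp.dvd_of_dvd_pow hd))
    rcases hqp.dvd_mul.mp hqd with h | h
    · rcases hqp.dvd_mul.mp h with h | h
      · exact absurd h (hqpow a)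
      · exact Dvd.dvd.mul_right h _
    · rcases hqp.dvd_mul.mp h with h | h
      · exact absurd h (hqpow b)
      · exact Dvd.dvd.mul_left h _
  have hcf : IsCF (CongruenceSubgroup.Gamma0 M) 2 (f : ℍ → ℂ) := IsCF.of_class f
  have hch : IsCF (CongruenceSubgroup.Gamma0 N) 2 (h : ℍ → ℂ) := IsCF.of_class h
  have hqf := QG_of_IsCF hcf
  have hqh := QG_of_IsCF hch
  set F := dep 2 L (f : ℍ → ℂ) with hF
  set H := dep 2 L (h : ℍ → ℂ) with hH
  have hQF : QG F := QG.dep hqf L hL0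
  have hQH : QG H := QG.dep hqh L hL0
  have hFcf : IsCF (CongruenceSubgroup.Gamma0 (p ^ a * lv R L)) 2 F :=
    isCF_dep_newform hp hM hR0 (dvd_mul_right _ _) f hLp'
  have hHcf : IsCF (CongruenceSubgroup.Gamma0 (p ^ b * lv R L)) 2 H :=
    isCF_dep_newform hp hN hR0 (dvd_mul_left _ _) h hLp'
  have hF1 : qCoeff F 1 = 1 := by
    rw [hF, qCoeff_dep hqf L hL0, if_neg, hf.1.qCoeff_one]
    rintro ⟨q, hq, hq1⟩
    exact (hLp' q hq).one_lt.ne' (Nat.dvd_one.mp hq1)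
  have hH1 : qCoeff H 1 = 1 := by
    rw [hH, qCoeff_dep hqh L hL0, if_neg, hh.1.qCoeff_one]
    rintro ⟨q, hq, hq1⟩
    exact (hLp' q hq).one_lt.ne' (Nat.dvd_one.mp hq1)
  -- `F` and `H` have the same `p`-depletion
  have hkey : F - ep 2 p F = H - ep 2 p H := by
    refine eq_of_qCoeff (hQF.sub (QG.ep hQF hp0)) (hQH.sub (QG.ep hQH hp0)) fun n => ?_
    rw [QG.qCoeff_sub hQF (QG.ep hQF hp0), QG.qCoeff_sub hQH (QG.ep hQH hp0), qCoeff_ep hQF hp0,
      qCoeff_ep hQH hp0]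
    by_cases hpn : p ∣ n
    · rw [if_pos hpn, if_pos hpn, sub_self, sub_self]
    · rw [if_neg hpn, if_neg hpn, sub_zero, sub_zero, hF, hH, qCoeff_dep hqf L hL0,
        qCoeff_dep hqh L hL0]
      by_cases hex : ∃ q ∈ L, q ∣ n
      · rw [if_pos hex, if_pos hex]
      · rw [if_neg hex, if_neg hex]
        push Not at hex
        exact hcoef n hex hpn
  have hdV : ∀ {G : ℍ → ℂ}, QG G → QG (sl 2 !![(p : ℤ), 0; 0, 1] G) := fun hG => QG.V hG hp0 2
  -- information on `h` at `p`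
  have hHu : 1 ≤ b → ∃ u : ℂ, ‖u‖ ≤ 1 ∧ heckeU 2 p H = u • H := by
    intro hb
    have hpN : p ∣ N := hN ▸ Dvd.dvd.mul_right (dvd_pow_self p (by omega)) _
    have hU : heckeU 2 p (h : ℍ → ℂ) = qCoeff h p • (h : ℍ → ℂ) := by
      have h1 := Eigen.heckeULin_eq_smul hh.1 hp hpN
      exact congrArg (fun F : CuspForm (CongruenceSubgroup.Gamma0 N) 2 => (F : ℍ → ℂ)) h1
    refine ⟨qCoeff h p, ?_, heckeU_dep hp hLp hqh hU⟩
    by_cases hp2 : p ^ 2 ∣ N
    · rw [newform_qCoeff_eq_zero hh hp hp2, norm_zero]; norm_num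
    · exact (sq_eq_one_norm ((newformBadPrimeCoeff N h hh p hp hpN).1 hp2)).le
  have hHu0 : b = 0 → heckeU 2 p H = qCoeff h p • H - sl 2 !![(p : ℤ), 0; 0, 1] H := by
    intro hb
    have hpN : ¬ p ∣ N := by rw [hN, hb, pow_zero, one_mul]; exact hN₀
    exact heckeU_dep' hp hLp hqh (heckeT_eq_of_normalized hh.1 hp hpN)
  rcases Nat.lt_or_ge a 2 with ha | ha
  · -- case `a = 1`, `b = 0`
    obtain rfl : a = 1 := by omega
    obtain rfl : b = 0 := by omega
    have hpM : p ∣ M := hM ▸ Dvd.dvd.mul_right (by simp) _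
    have hpM2 : ¬ p ^ 2 ∣ M := by
      rintro ⟨m, hm⟩
      apply hM₀
      refine ⟨m, Nat.eq_of_mul_eq_mul_left hp.pos ?_⟩
      rw [pow_one] at hM
      rw [← hM, hm]; ring
    set u := qCoeff f p with hu
    have hu2 : u ^ 2 = 1 := (newformBadPrimeCoeff M f hf p hp hpM).1 hpM2
    have hFU : heckeU 2 p F = u • F := by
      have h1 := Eigen.heckeULin_eq_smul hf.1 hp hpM
      exact heckeU_dep hp hLp hqf
        (congrArg (fun F : CuspForm (CongruenceSubgroup.Gamma0 M) 2 => (F : ℍ → ℂ)) h1)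
    obtain ⟨A, hA⟩ : ∃ A, A ∈ WS (p ^ 2 * lv R L) (p ^ 2) := by
      refine exists_WS (dvd_mul_right _ _) ?_
      rw [Nat.mul_div_cancel_left _ (pow_pos hp.pos 2)]
      exact Nat.Coprime.pow_left 2 ((Nat.Prime.coprime_iff_not_dvd hp).mpr
        (not_dvd_lv hp hpR fun q hq hd => (hLp q hq).2
          ((Nat.prime_dvd_prime_iff_eq hp (hLp' q hq)).mp hd).symm))
    have hApos := det_WS_pos (pow_ne_zero 2 hp0) hA
    -- `W F`
    have hWF1 : ∀ B ∈ WS (p ^ 1 * lv R L) (p ^ 1), sl 2 B F = (-u) • F := by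
      intro B hB
      have hd : M ∣ p ^ 1 * lv R L := hM ▸ mul_dvd_mul_left _
        ((dvd_mul_right M₀ N₀).trans (dvd_lv R L))
      have hB' : B ∈ WS M p := by
        have := WS_mono hd hB
        rwa [pow_one] at this
      have h1 := (newform_W_eq hf hp hpM hpM2 hB').1
      rw [hF, dep_W (N := p ^ 1 * R) (Q := p ^ 1) (dvd_mul_right _ _)
        (mul_ne_zero (pow_ne_zero _ hp0) hR0) (hLa 1)
        (by rw [lv_mul]; exact hB) (isCF_mono (hM ▸ mul_dvd_mul_left _ (dvd_mul_right M₀ N₀)) hcf), h1,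
        dep_smul L hL0]
    have e1 : sl 2 A F = (-u) • sl 2 !![(p : ℤ), 0; 0, 1] F := by
      obtain ⟨A', hA', h1⟩ := W_low (b := 1) (c := 2) hp (by norm_num) hA F
      rw [h1, hWF1 A' hA', sl_smul (by
        rw [Matrix.det_fin_two_of, mul_one, mul_zero, sub_zero]
        exact_mod_cast pow_pos hp.pos _)]
      simp
    have e2 : sl 2 A (sl 2 !![(p : ℤ), 0; 0, 1] F) = (-u) • F := by
      obtain ⟨A', hA', h1⟩ := W_V' (c := 1) hp hA F
      rw [h1, hWF1 A' hA']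
    have hinvH := (isCF_iff.mp hHcf).2
    rw [pow_zero, one_mul] at hinvH
    have hW0 : ∀ B ∈ WS (p ^ 0 * lv R L) (p ^ 0), sl 2 B H = H := by
      intro B hB
      obtain ⟨h1, -, h3, -⟩ := hB
      rw [pow_zero, one_mul] at h3
      rw [pow_zero] at h1
      exact hinvH B (by exact_mod_cast h1) h3
    have e3 : sl 2 A H = sl 2 !![((p ^ 2 : ℕ) : ℤ), 0; 0, 1] H := by
      obtain ⟨A', hA', h1⟩ := W_low (b := 0) (c := 2) hp (by norm_num) hA H
      rw [h1, hW0 A' hA']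
    have e4 : sl 2 A (sl 2 !![(p : ℤ), 0; 0, 1] H) = sl 2 !![(p : ℤ), 0; 0, 1] H := by
      obtain ⟨A', hA', h1⟩ := W_V' (c := 1) hp hA H
      obtain ⟨A'', hA'', h2⟩ := W_low (b := 0) (c := 1) hp (by norm_num) hA' H
      rw [h1, h2, hW0 A'' hA'']
      simp
    have e5 : sl 2 A (sl 2 !![(p : ℤ), 0; 0, 1] (sl 2 !![(p : ℤ), 0; 0, 1] H)) = H := by
      obtain ⟨A', hA', h1⟩ := W_V' (c := 1) hp hA (sl 2 !![(p : ℤ), 0; 0, 1] H)
      obtain ⟨A'', hA'', h2⟩ := W_V' (c := 0) hp hA' H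
      rw [h1, h2, hW0 A'' hA'']
    have hkey' := congrArg (sl 2 A) hkey
    rw [ep_eq_of_heckeU hp hFU, ep_eq_of_heckeU' hp (hHu0 rfl), sl_sub, sl_sub, sl_sub,
      sl_smul hApos, sl_smul hApos, sl_smul hApos, e1, e2, e3, e4, e5] at hkey'
    have hcof := congrArg (fun G => qCoeff G p) hkey'
    have hVF := hdV hQF
    have hVH := hdV hQH
    have hV2H := QG.V hQH (pow_ne_zero 2 hp0) 2
    have hFp : qCoeff F p = u := by
      have h1 := congrArg (fun G => qCoeff G 1) hFU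
      rw [qCoeff_heckeU hQF hp0, QG.qCoeff_smul hQF, hF1, one_mul, mul_one] at h1
      exact h1
    have hHp : qCoeff H p = qCoeff h p := by
      have h1 := congrArg (fun G => qCoeff G 1) (hHu0 rfl)
      rw [qCoeff_heckeU hQH hp0, QG.qCoeff_sub (hQH.smul _) hVH, QG.qCoeff_smul hQH, hH1, one_mul,
        mul_one, qCoeff_V_one hQH hp.one_lt, sub_zero] at h1
      exact h1
    have hpp : p / p = 1 := Nat.div_self hp.pos
    have hp2 : ¬ p ^ 2 ∣ p := by
      intro hd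
      have := Nat.le_of_dvd hp.pos hd
      nlinarith [hp.two_le]
    rw [QG.qCoeff_sub (hVF.smul _) ((hQF.smul _).smul _), QG.qCoeff_smul hVF,
      QG.qCoeff_smul (hQF.smul _), QG.qCoeff_smul hQF,
      QG.qCoeff_sub hV2H ((hVH.smul _).sub (hQH.smul _)), QG.qCoeff_sub (hVH.smul _) (hQH.smul _),
      QG.qCoeff_smul hVH, QG.qCoeff_smul hQH, qCoeff_V hQF hp0, if_pos dvd_rfl, hpp, hF1,
      qCoeff_V hQH (pow_ne_zero 2 hp0), if_neg hp2, qCoeff_V hQH hp0, if_pos dvd_rfl, hpp, hH1,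
      hFp, hHp] at hcof
    norm_num at hcof
    -- `a_p = u (p + 1)`
    have hp1 : (p : ℂ) - 1 ≠ 0 := by
      intro h0
      have h2 : (p : ℂ) = 1 := sub_eq_zero.mp h0
      exact hp.one_lt.ne' (by exact_mod_cast h2)
    have hap : qCoeff h p = u * (p + 1) := by
      have h3 : (p : ℂ) * (p : ℂ)⁻¹ = 1 := mul_inv_cancel₀ hpC
      refine mul_left_cancel₀ hp1 ?_
      linear_combination (p : ℂ) * hcof - u * hu2 - (u ^ 3 + qCoeff h p * (p - 1)) * h3
    have hpN : ¬ p ∣ N := by rw [hN, pow_zero, one_mul]; exact hN₀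
    have hlt := norm_eigenvalue_lt hch (fun h0 => hh.ne_zero (DFunLike.coe_injective h0)) hp
      (heckeT_eq_of_normalized hh.1 hp hpN)
    rw [hap, norm_mul, sq_eq_one_norm hu2, one_mul] at hlt
    have h4 : ‖(p : ℂ) + 1‖ = p + 1 := by
      have : (p : ℂ) + 1 = ((p + 1 : ℕ) : ℂ) := by push_cast; rfl
      rw [this, Complex.norm_natCast]; push_cast; rfl
    rw [h4] at hlt
    exact lt_irrefl _ hlt
  · -- case `a ≥ 2`
    have hpM2 : p ^ 2 ∣ M := hM ▸ Dvd.dvd.mul_right (pow_dvd_pow p ha) _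
    have hepF : ep 2 p F = 0 := by
      have h1 : heckeU 2 p (f : ℍ → ℂ) = (0 : ℂ) • (f : ℍ → ℂ) := by
        rw [newform_heckeU_eq_zero hf hp hpM2, zero_smul]
      rw [ep_eq_of_heckeU hp (heckeU_dep hp hLp hqf h1), mul_zero, zero_smul]
    rw [hepF, sub_zero] at hkey
    obtain ⟨A, hA⟩ : ∃ A, A ∈ WS (p ^ a * lv R L) (p ^ a) := by
      refine exists_WS (dvd_mul_right _ _) ?_
      rw [Nat.mul_div_cancel_left _ (pow_pos hp.pos a)]
      exact Nat.Coprime.pow_left a ((Nat.Prime.coprime_iff_not_dvd hp).mpr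
        (not_dvd_lv hp hpR fun q hq hd => (hLp q hq).2
          ((Nat.prime_dvd_prime_iff_eq hp (hLp' q hq)).mp hd).symm))
    have hApos := det_WS_pos (pow_ne_zero a hp0) hA
    obtain ⟨ε, hε, hWF⟩ := dep_newform_W hp hM hR0 (dvd_mul_right _ _) hf (hLa a) hA
    -- the first coefficient of `W F`
    have hε1 : qCoeff (sl 2 A F) 1 = ε := by
      rw [hF, hWF, ← hF, QG.qCoeff_smul hQF, hF1, mul_one]
    have hWH : qCoeff (sl 2 A H) 1 = 0 := qCoeff_W_one hp hba hA hHcf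
    have hWcf : ∀ {c : ℕ} {B : M2} {G : ℍ → ℂ}, B ∈ WS (p ^ c * lv R L) (p ^ c) →
        IsCF (CongruenceSubgroup.Gamma0 (p ^ c * lv R L)) 2 G → QG (sl 2 B G) := fun hB hG =>
      QG_of_IsCF (isCF_W (dvd_mul_right _ _) (pow_ne_zero _ hp0) hB hG)
    have hHa : IsCF (CongruenceSubgroup.Gamma0 (p ^ a * lv R L)) 2 H :=
      isCF_mono (mul_dvd_mul_right (pow_dvd_pow p hba.le) _) hHcf
    have hnorm1 := sq_eq_one_norm hε
    have hple : ‖(p : ℂ)⁻¹‖ ≤ 1 / 2 := by
      rw [norm_inv, Complex.norm_natCast, one_div]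
      exact inv_anti₀ (by norm_num) (by exact_mod_cast hp.two_le)
    rcases Nat.eq_zero_or_pos b with hb | hb
    · -- `b = 0`
      subst hb
      obtain ⟨a', rfl⟩ : ∃ a', a = a' + 2 := ⟨a - 2, by omega⟩
      obtain ⟨A', hA', h1⟩ := W_V' (c := a' + 1) hp hA H
      obtain ⟨A₂, hA₂, h2⟩ := W_V' (c := a' + 1) hp hA (sl 2 !![(p : ℤ), 0; 0, 1] H)
      obtain ⟨A₃, hA₃, h3⟩ := W_V' (c := a') hp hA₂ H
      have h4 : qCoeff (sl 2 A' H) 1 = 0 := qCoeff_W_one hp (by omega) hA' hHcf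
      have hc1 : IsCF (CongruenceSubgroup.Gamma0 (p ^ (a' + 1) * lv R L)) 2 H :=
        isCF_mono (mul_dvd_mul_right (pow_dvd_pow p (by omega)) _) hHcf
      have hc2 : IsCF (CongruenceSubgroup.Gamma0 (p ^ a' * lv R L)) 2 H :=
        isCF_mono (mul_dvd_mul_right (pow_dvd_pow p (by omega)) _) hHcf
      have h5 : ‖qCoeff (sl 2 A₃ H) 1‖ ≤ 1 := by
        rcases Nat.eq_zero_or_pos a' with ha' | ha'
        · subst ha'
          have : sl 2 A₃ H = H := by
            have hinvH := (isCF_iff.mp hHcf).2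
            obtain ⟨h1, -, h3, -⟩ := hA₃
            rw [pow_zero] at h1
            exact hinvH A₃ (by exact_mod_cast h1) h3
          rw [this, hH1, norm_one]
        · rw [qCoeff_W_one hp ha' hA₃ hHcf, norm_zero]
          norm_num
      have h6 := congrArg (fun G => qCoeff (sl 2 A G) 1) hkey
      have hq1 := hWcf hA hHa
      have hq2 := hWcf hA' hc1
      have hq3 := hWcf hA₃ hc2
      rw [ep_eq_of_heckeU' hp (hHu0 rfl), sl_sub, sl_sub, sl_smul hApos, sl_smul hApos, h1, h2, h3,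
        QG.qCoeff_sub hq1 ((hq2.smul _).sub (hq3.smul _)), QG.qCoeff_sub (hq2.smul _) (hq3.smul _),
        QG.qCoeff_smul hq2, QG.qCoeff_smul hq3, hε1, hWH, h4, mul_zero, zero_sub, zero_sub,
        neg_neg] at h6
      rw [h6, norm_mul] at hnorm1
      nlinarith [norm_nonneg (p : ℂ)⁻¹, norm_nonneg (qCoeff (sl 2 A₃ H) 1)]
    · -- `b ≥ 1`
      obtain ⟨u, hu, hHU⟩ := hHu hb
      obtain ⟨a', rfl⟩ : ∃ a', a = a' + 1 := ⟨a - 1, by omega⟩
      obtain ⟨A', hA', h1⟩ := W_V' (c := a') hp hA H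
      have hc1 : IsCF (CongruenceSubgroup.Gamma0 (p ^ a' * lv R L)) 2 H :=
        isCF_mono (mul_dvd_mul_right (pow_dvd_pow p (by omega)) _) hHcf
      have h5 : ‖qCoeff (sl 2 A' H) 1‖ ≤ 1 := by
        rcases Nat.lt_or_ge b a' with hb' | hb'
        · rw [qCoeff_W_one hp hb' hA' hHcf, norm_zero]
          norm_num
        · obtain rfl : b = a' := by omega
          obtain ⟨ε', hε', hWH'⟩ := dep_newform_W hp hN hR0 (dvd_mul_left _ _) hh (hLa b) hA'
          rw [hH, hWH', ← hH, QG.qCoeff_smul hQH, hH1, mul_one]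
          exact (sq_eq_one_norm hε').le
      have h6 := congrArg (fun G => qCoeff (sl 2 A G) 1) hkey
      have hq1 := hWcf hA hHa
      have hq2 := hWcf hA' hc1
      rw [ep_eq_of_heckeU hp hHU, sl_sub, sl_smul hApos, h1,
        QG.qCoeff_sub hq1 (hq2.smul _), QG.qCoeff_smul hq2, hε1, hWH, zero_sub] at h6
      rw [h6, norm_neg, norm_mul, norm_mul] at hnorm1
      have h7 : ‖(p : ℂ)⁻¹‖ * ‖u‖ ≤ 1 / 2 := by
        nlinarith [norm_nonneg (p : ℂ)⁻¹, norm_nonneg u]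
      nlinarith [norm_nonneg (qCoeff (sl 2 A' H) 1), mul_nonneg (norm_nonneg (p : ℂ)⁻¹) (norm_nonneg u)]

/-- If two newforms have the same eigenvalues at almost all primes, the level of the first divides
the level of the second. -/
theorem newform_level_dvd_newform [NeZero M] [NeZero N]
    {f : CuspForm (CongruenceSubgroup.Gamma0 M) 2}
    {h : CuspForm (CongruenceSubgroup.Gamma0 N) 2} (hf : f.IsNewform) (hh : h.IsNewform)
    {S : Set ℕ} (hS : S.Finite)
    (hfh : ∀ l : ℕ, l.Prime → ¬ l ∣ M * N → l ∉ S → qCoeff f l = qCoeff h l) : M ∣ N := by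
  rw [← Nat.factorization_le_iff_dvd (NeZero.ne M) (NeZero.ne N)]
  by_contra hcon
  rw [Finsupp.le_def] at hcon
  push Not at hcon
  obtain ⟨p, hp⟩ := hcon
  have hpp : p.Prime := by
    by_contra hnp
    rw [Nat.factorization_eq_zero_of_not_prime M hnp] at hp
    exact Nat.not_lt_zero _ hp
  exact level_aux (M := M) (N := N) (a := M.factorization p) (b := N.factorization p)
    (M₀ := M / p ^ M.factorization p) (N₀ := N / p ^ N.factorization p) hpp
    (Nat.ordProj_mul_ordCompl_eq_self M p).symm (Nat.ordProj_mul_ordCompl_eq_self N p).symm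
    (Nat.not_dvd_ordCompl hpp (NeZero.ne M)) (Nat.not_dvd_ordCompl hpp (NeZero.ne N)) hp hf hh hS hfh

/-- If the system of eigenvalues of a newform of level `M` occurs (at almost all primes) at level
`N`, then `M ∣ N`. -/
theorem newform_level_dvd [NeZero M] [NeZero N]
    {f : CuspForm (CongruenceSubgroup.Gamma0 M) 2}
    {h : CuspForm (CongruenceSubgroup.Gamma0 N) 2} (hf : f.IsNewform)
    (hh : h.IsNormalizedEigenform) {S : Set ℕ} (hS : S.Finite)
    (hfh : ∀ l : ℕ, l.Prime → ¬ l ∣ M * N → l ∉ S → qCoeff f l = qCoeff h l) : M ∣ N := by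
  obtain ⟨N', hN', g, hg, hgh⟩ := exists_newform N h hh
  have : NeZero N' := ⟨fun h0 => NeZero.ne N (by rw [h0] at hN'; exact Nat.eq_zero_of_zero_dvd hN')⟩
  refine (newform_level_dvd_newform hf hg (S := S ∪ {l | l ∣ N})
    (hS.union (Set.finite_Iic N |>.subset fun l hl =>
      Nat.le_of_dvd (Nat.pos_of_ne_zero (NeZero.ne N)) hl)) ?_).trans hN'
  intro l hl hlN hlS
  rw [Set.mem_union, not_or] at hlS
  have hlN2 : ¬ l ∣ N := hlS.2
  rw [hgh l hl hlN2]
  refine hfh l hl ?_ hlS.1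
  intro hd
  rcases hl.dvd_mul.mp hd with h | h
  · exact hlN (Dvd.dvd.mul_right h _)
  · exact hlN2 h

/-- Two newforms with the same eigenvalues at almost all primes have the same level. -/
theorem newform_level_unique [NeZero M] [NeZero N]
    {f : CuspForm (CongruenceSubgroup.Gamma0 M) 2}
    {h : CuspForm (CongruenceSubgroup.Gamma0 N) 2} (hf : f.IsNewform) (hh : h.IsNewform)
    {S : Set ℕ} (hS : S.Finite)
    (hfh : ∀ l : ℕ, l.Prime → ¬ l ∣ M * N → l ∉ S → qCoeff f l = qCoeff h l) : M = N :=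
  Nat.dvd_antisymm (newform_level_dvd_newform hf hh hS hfh)
    (newform_level_dvd_newform hh hf hS fun l hl hlN hlS =>
      (hfh l hl (by rwa [mul_comm] at hlN) hlS).symm)

/-- Two newforms of the same level with the same eigenvalues at almost all primes are equal. -/
theorem newform_unique [NeZero M] {f h : CuspForm (CongruenceSubgroup.Gamma0 M) 2}
    (hf : f.IsNewform) (hh : h.IsNewform) {S : Set ℕ} (hS : S.Finite)
    (hfh : ∀ l : ℕ, l.Prime → ¬ l ∣ M → l ∉ S → qCoeff f l = qCoeff h l) : f = h := by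
  have h1 := newform_eigenspace hf hS (IsCF.of_class h) (fun l hl hlM hlS => by
    rw [heckeT_eq_of_normalized hh.1 hl hlM, hfh l hl hlM hlS])
  rw [hh.1.qCoeff_one, one_smul] at h1
  exact (DFunLike.coe_injective h1).symm

end

end Fermat.Agent.AL
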