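import Mathlib
import Fermat.Agent.Eigen.Basic

/-!
# Lifting systems of eigenvalues
-/

set_option autoImplicit false

namespace Fermat.Agent.AL

/-- Systems of eigenvalues in the image of an equivariant map come from the source. -/
theorem lift_eigen {V W ι : Type*} [AddCommGroup V] [Module ℂ V] [AddCommGroup W] [Module ℂ W]
    [FiniteDimensional ℂ W] (T : ι → Module.End ℂ W) (T' : ι → Module.End ℂ V)
    (hcomm : ∀ i j, Commute (T i) (T j)) (π : W →ₗ[ℂ] V) (hπ : ∀ i w, π (T i w) = T' i (π w))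
    (χ : ι → ℂ) (w : W) (hw : π w ≠ 0) (h : ∀ i, T' i (π w) = χ i • π w) :
    ∃ w₀ : W, w₀ ≠ 0 ∧ ∀ i, T i w₀ = χ i • w₀ := by
  classical
  let P : ℕ → Prop := fun n => ∃ U : Submodule ℂ W, Module.finrank ℂ U = n ∧
    (∀ i, ∀ u ∈ U, T i u ∈ U) ∧ (∃ u ∈ U, π u = π w) ∧ (∀ u ∈ U, π u ∈ Submodule.span ℂ {π w})
  have hP : ∃ n, P n := by
    refine ⟨_, (Submodule.span ℂ {π w}).comap π, rfl, ?_, ⟨w, ?_, rfl⟩, fun u hu => hu⟩
    · intro i u hu
      rw [Submodule.mem_comap, Submodule.mem_span_singleton] at hu ⊢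
      obtain ⟨c, hc⟩ := hu
      refine ⟨c * χ i, ?_⟩
      rw [hπ, ← hc, map_smul, h, smul_smul]
    · rw [Submodule.mem_comap]
      exact Submodule.mem_span_singleton_self _
  obtain ⟨U, hUn, hUs, ⟨u, hu, hu'⟩, hUπ⟩ := Nat.find_spec hP
  have hmin : ∀ U' : Submodule ℂ W, U' ≤ U → (∀ i, ∀ u ∈ U', T i u ∈ U') →
      (∃ u ∈ U', π u = π w) → U' = U := by
    intro U' hle hs hu
    apply Submodule.eq_of_le_of_finrank_le hle
    rw [hUn]
    exact Nat.find_min' hP ⟨U', rfl, hs, hu, fun u hu => hUπ u (hle hu)⟩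
  have hUne : U ≠ ⊥ := by
    rintro rfl
    rw [Submodule.mem_bot] at hu
    rw [hu, map_zero] at hu'
    exact hw hu'.symm
  obtain ⟨y, hyU, hy0, hy⟩ := Eigen.exists_common_eigenvector (Set.range T) (by
    rintro _ ⟨i, rfl⟩ _ ⟨j, rfl⟩; exact hcomm i j) _ U le_rfl hUne (by
    rintro _ ⟨i, rfl⟩ w hw; exact hUs i w hw)
  refine ⟨y, hy0, fun i => ?_⟩
  obtain ⟨μ, hμ⟩ := hy (T i) ⟨i, rfl⟩
  by_cases hμχ : μ = χ i
  · rw [hμ, hμχ]
  exfalso
  -- the restriction of `T i - μ` to `U` is surjective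
  let S : W →ₗ[ℂ] W := T i - μ • 1
  have hS : ∀ x, S x = T i x - μ • x := fun x => rfl
  have hSU : ∀ x ∈ U, S x ∈ U := fun x hx => U.sub_mem (hUs i x hx) (U.smul_mem μ hx)
  have h1 : U.map S = U := by
    refine hmin _ (by rintro _ ⟨x, hx, rfl⟩; exact hSU x hx) ?_ ?_
    · rintro j _ ⟨x, hx, rfl⟩
      refine ⟨T j x, hUs j x hx, ?_⟩
      rw [hS, hS, map_sub, map_smul]
      have := congrArg (fun f : Module.End ℂ W => f x) (hcomm i j)
      simp only [Module.End.mul_apply] at this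
      rw [this]
    · have hne : χ i - μ ≠ 0 := sub_ne_zero.mpr (Ne.symm hμχ)
      refine ⟨(χ i - μ)⁻¹ • S u, ?_, ?_⟩
      · exact Submodule.smul_mem _ _ ⟨u, hu, rfl⟩
      · rw [map_smul, hS, map_sub, map_smul, hπ, hu', h, ← sub_smul, smul_smul,
          inv_mul_cancel₀ hne, one_smul]
  let S' : U →ₗ[ℂ] U := S.restrict hSU
  have h2 : Function.Surjective S' := by
    rintro ⟨z, hz⟩
    rw [← h1] at hz
    obtain ⟨x, hx, hxz⟩ := hz
    exact ⟨⟨x, hx⟩, Subtype.ext hxz⟩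
  have h3 : Function.Injective S' := LinearMap.injective_iff_surjective.mpr h2
  have h4 : S' ⟨y, hyU⟩ = 0 := by
    apply Subtype.ext
    change S y = 0
    rw [hS, hμ, sub_self]
  have h5 := h3 (h4.trans (map_zero S').symm)
  exact hy0 (congrArg Subtype.val h5)

end Fermat.Agent.AL
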