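import Fermat.Agent.AL.QCoeff

/-!
# The main lemma of Atkin–Lehner theory
-/

set_option autoImplicit false

open UpperHalfPlane ModularForm Complex Filter Topology Matrix.SpecialLinearGroup
open ModularFormClass Fermat.Agent.MFLib
open scoped MatrixGroups Manifold

namespace Fermat.Agent.AL

noncomputable section

variable {k : ℤ} {f g F X : ℍ → ℂ} {p N : ℕ}

lemma slash_sub (f g : ℍ → ℂ) (γ : SL(2, ℤ)) : (f - g) ∣[k] γ = f ∣[k] γ - g ∣[k] γ := by
  rw [sub_eq_add_neg, SlashAction.add_slash, SlashAction.neg_slash, ← sub_eq_add_neg]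

/-- averaging operator -/
def EE (k : ℤ) (N p : ℕ) (F : ℍ → ℂ) : ℍ → ℂ :=
  ((p : ℂ)⁻¹) • ∑ j : Fin p, F ∣[k] (ModularGroup.T ^ ((j : ℕ) * (N / p)))

/-- iterated depletion operator -/
def DD (k : ℤ) (N : ℕ) (L : List ℕ) (F : ℍ → ℂ) : ℍ → ℂ :=
  L.foldr (fun p h => h - EE k N p h) F

@[simp] lemma DD_nil : DD k N [] F = F := rfl
@[simp] lemma DD_cons (L : List ℕ) : DD k N (p :: L) F = DD k N L F - EE k N p (DD k N L F) := rfl

lemma EE_sub : EE k N p (f - g) = EE k N p f - EE k N p g := by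
  simp only [EE, slash_sub, Finset.sum_sub_distrib, smul_sub]

lemma EE_add : EE k N p (f + g) = EE k N p f + EE k N p g := by
  simp only [EE, SlashAction.add_slash, Finset.sum_add_distrib, smul_add]

lemma EE_smul (c : ℂ) : EE k N p (c • f) = c • EE k N p f := by
  simp only [EE, SL_smul_slash, ← Finset.smul_sum, smul_comm c]

lemma DD_sub (L : List ℕ) : DD k N L (f - g) = DD k N L f - DD k N L g := by
  induction L with
  | nil => rfl
  | cons p L ih => rw [DD_cons, DD_cons, DD_cons, ih, EE_sub]; abel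

lemma DD_smul (L : List ℕ) (c : ℂ) : DD k N L (c • f) = c • DD k N L f := by
  induction L with
  | nil => rfl
  | cons p L ih => rw [DD_cons, DD_cons, ih, EE_smul, smul_sub]

/-- slashes by `δ` commuting with every `T`-power `T^{jN/q}`, `q ∈ L` on a class of functions. -/
lemma DD_slash_comm {P : (ℍ → ℂ) → Prop} {δ : SL(2, ℤ)} {L : List ℕ}
    (hP : ∀ X, P X → ∀ q ∈ L, ∀ j : ℕ, P (X ∣[k] (ModularGroup.T ^ (j * (N / q)))))
    (hPs : ∀ X Y, P X → P Y → P (X - Y)) (hPa : ∀ X Y, P X → P Y → P (X + Y))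
    (hPc : ∀ X, P X → ∀ c : ℂ, P (c • X))
    (hc : ∀ X, P X → ∀ q ∈ L, ∀ j : ℕ, (X ∣[k] (ModularGroup.T ^ (j * (N / q)))) ∣[k] δ =
      (X ∣[k] δ) ∣[k] (ModularGroup.T ^ (j * (N / q)))) {X : ℍ → ℂ} (hX : P X) :
    P (DD k N L X) ∧ (DD k N L X) ∣[k] δ = DD k N L (X ∣[k] δ) := by
  have hsum : ∀ q ∈ L, ∀ Y, P Y → P (EE k N q Y) := by
    intro q hq Y hY
    have h0 : P 0 := by simpa using hPc Y hY 0
    rw [EE]
    refine hPc _ ?_ _
    exact Finset.sum_induction _ P hPa h0 fun j _ => hP Y hY q hq j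
  induction L with
  | nil => exact ⟨hX, rfl⟩
  | cons q L ih =>
    obtain ⟨h1, h2⟩ := ih (fun X hX q hq => hP X hX q (List.mem_cons_of_mem _ hq))
      (fun X hX q hq => hc X hX q (List.mem_cons_of_mem _ hq))
      (fun q hq => hsum q (List.mem_cons_of_mem _ hq))
    refine ⟨hPs _ _ h1 (hsum q List.mem_cons_self _ h1), ?_⟩
    rw [DD_cons, DD_cons, slash_sub, h2]
    congr 1
    rw [EE, SL_smul_slash, MFLib.sum_slash_SL, EE]
    congr 1
    refine Finset.sum_congr rfl fun j _ => ?_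
    rw [hc _ h1 q List.mem_cons_self, h2]

lemma T_pow_apply (m : ℕ) : ((ModularGroup.T ^ m : SL(2, ℤ)) : M2) = !![1, (m : ℤ); 0, 1] := by
  rw [← zpow_natCast, ModularGroup.coe_T_zpow]

lemma mem_Gamma_iff {N : ℕ} {γ : SL(2, ℤ)} : γ ∈ CongruenceSubgroup.Gamma N ↔
    (N : ℤ) ∣ γ 0 0 - 1 ∧ (N : ℤ) ∣ γ 0 1 ∧ (N : ℤ) ∣ γ 1 0 ∧ (N : ℤ) ∣ γ 1 1 - 1 := by
  rw [CongruenceSubgroup.Gamma_mem]
  simp only [← ZMod.intCast_zmod_eq_zero_iff_dvd]
  push_cast
  rw [sub_eq_zero, sub_eq_zero]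

lemma comm_mem {m m' : ℕ} (h : m.Coprime m') {γ δ : SL(2, ℤ)} (hγ : γ ∈ CongruenceSubgroup.Gamma m)
    (hδ : δ ∈ CongruenceSubgroup.Gamma m') :
    γ * δ * γ⁻¹ * δ⁻¹ ∈ CongruenceSubgroup.Gamma (m * m') := by
  have h1 : γ * δ * γ⁻¹ * δ⁻¹ ∈ CongruenceSubgroup.Gamma m := by
    have h2 := (CongruenceSubgroup.Gamma_normal m).conj_mem _
      ((CongruenceSubgroup.Gamma m).inv_mem hγ) δ
    have h3 := (CongruenceSubgroup.Gamma m).mul_mem hγ h2
    convert h3 using 1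
    group
  have h2 : γ * δ * γ⁻¹ * δ⁻¹ ∈ CongruenceSubgroup.Gamma m' := by
    have h2 := (CongruenceSubgroup.Gamma_normal m').conj_mem _ hδ γ
    exact (CongruenceSubgroup.Gamma m').mul_mem h2 ((CongruenceSubgroup.Gamma m').inv_mem hδ)
  rw [mem_Gamma_iff] at h1 h2 ⊢
  have hco : IsCoprime (m : ℤ) (m' : ℤ) := Nat.isCoprime_iff_coprime.mpr h
  push_cast
  exact ⟨hco.mul_dvd h1.1 h2.1, hco.mul_dvd h1.2.1 h2.2.1, hco.mul_dvd h1.2.2.1 h2.2.2.1,
    hco.mul_dvd h1.2.2.2 h2.2.2.2⟩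

/-- `Γ(N)`-invariant functions -/
def XN (k : ℤ) (N : ℕ) (X : ℍ → ℂ) : Prop := ∀ γ ∈ CongruenceSubgroup.Gamma N, X ∣[k] γ = X

lemma XN.slash (hX : XN k N X) (δ : SL(2, ℤ)) : XN k N (X ∣[k] δ) := by
  intro γ hγ
  have h1 : δ * γ = (δ * γ * δ⁻¹) * δ := by group
  rw [← SlashAction.slash_mul, h1, SlashAction.slash_mul,
    hX _ ((CongruenceSubgroup.Gamma_normal N).conj_mem _ hγ δ)]

lemma XN.sub {Y : ℍ → ℂ} (hX : XN k N X) (hY : XN k N Y) : XN k N (X - Y) := fun γ hγ => by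
  rw [slash_sub, hX γ hγ, hY γ hγ]

lemma XN.add {Y : ℍ → ℂ} (hX : XN k N X) (hY : XN k N Y) : XN k N (X + Y) := fun γ hγ => by
  rw [SlashAction.add_slash, hX γ hγ, hY γ hγ]

lemma XN.smul (hX : XN k N X) (c : ℂ) : XN k N (c • X) := fun γ hγ => by
  rw [SL_smul_slash, hX γ hγ]

lemma XN.comm {m m' : ℕ} (hX : XN k (m * m') X) (h : m.Coprime m') {γ δ : SL(2, ℤ)}
    (hγ : γ ∈ CongruenceSubgroup.Gamma m) (hδ : δ ∈ CongruenceSubgroup.Gamma m') :
    (X ∣[k] δ) ∣[k] γ = (X ∣[k] γ) ∣[k] δ := by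
  have h1 : γ * δ = (γ * δ * γ⁻¹ * δ⁻¹) * (δ * γ) := by group
  have h2 : X ∣[k] (γ * δ) = X ∣[k] (δ * γ) := by
    rw [h1, SlashAction.slash_mul, hX _ (comm_mem h hγ hδ)]
  rw [← SlashAction.slash_mul, ← SlashAction.slash_mul, h2]

lemma T_pow_mem_Gamma {m n : ℕ} (h : m ∣ n) : ModularGroup.T ^ n ∈ CongruenceSubgroup.Gamma m := by
  rw [mem_Gamma_iff, T_pow_apply]
  simp
  exact Int.natCast_dvd_natCast.mpr h

lemma DD_comm_T {L : List ℕ} (m : ℕ) (hX : XN k N X) :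
    (DD k N L X) ∣[k] (ModularGroup.T ^ m) = DD k N L (X ∣[k] (ModularGroup.T ^ m)) := by
  refine (DD_slash_comm (P := XN k N) (fun X hX q _ j => hX.slash _) (fun X Y hX hY => hX.sub hY)
    (fun X Y hX hY => hX.add hY) (fun X hX c => hX.smul c) (fun X _ q _ j => ?_) hX).2
  rw [← SlashAction.slash_mul, ← SlashAction.slash_mul, ← pow_add, ← pow_add, add_comm]

lemma XN_DD {L : List ℕ} (hX : XN k N X) : XN k N (DD k N L X) := by
  refine (DD_slash_comm (P := XN k N) (δ := 1) (fun X hX q _ j => hX.slash _)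
    (fun X Y hX hY => hX.sub hY)
    (fun X Y hX hY => hX.add hY) (fun X hX c => hX.smul c) (fun X _ q _ j => ?_) hX).1
  rw [SlashAction.slash_one, SlashAction.slash_one]

lemma DD_comm_of_mem {L : List ℕ} {N' : ℕ} (hp : p.Prime) (hN : N = N' * p) (hco : N'.Coprime p)
    (hL : ∀ q ∈ L, q.Prime ∧ q ∣ N ∧ q ≠ p) {γ : SL(2, ℤ)}
    (hγ : γ ∈ CongruenceSubgroup.Gamma N') (hX : XN k N X) :
    (DD k N L X) ∣[k] γ = DD k N L (X ∣[k] γ) := by
  refine (DD_slash_comm (P := XN k N) (fun X hX q _ j => hX.slash _) (fun X Y hX hY => hX.sub hY)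
    (fun X Y hX hY => hX.add hY) (fun X hX c => hX.smul c) (fun X hX q hq j => ?_) hX).2
  obtain ⟨hq1, hq2, hq3⟩ := hL q hq
  subst hN
  refine XN.comm hX hco hγ (T_pow_mem_Gamma ?_)
  refine Dvd.dvd.mul_left ?_ j
  have h1 : q ∣ N' := by
    rcases hq1.dvd_mul.mp hq2 with h | h
    · exact h
    · exact absurd ((Nat.prime_dvd_prime_iff_eq hq1 hp).mp h) hq3
  obtain ⟨e, rfl⟩ := h1
  rw [mul_assoc, Nat.mul_div_cancel_left _ hq1.pos]
  exact dvd_mul_left _ _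

lemma EE_XN (hX : XN k N X) : XN k N (EE k N p X) := by
  rw [EE]
  have h0 : XN k N (0 : ℍ → ℂ) := by simpa using hX.smul 0
  exact (Finset.sum_induction _ (XN k N) (fun _ _ h h' => h.add h') h0 fun j _ => hX.slash _).smul _

/-- `E_p X` is `T^{N/p}`-invariant. -/
lemma EE_T (hpN : p ∣ N) (hX : XN k N X) :
    (EE k N p X) ∣[k] (ModularGroup.T ^ (N / p)) = EE k N p X := by
  rw [EE, SL_smul_slash, MFLib.sum_slash_SL]
  congr 1
  have h1 : ∀ j : Fin p, (X ∣[k] (ModularGroup.T ^ ((j : ℕ) * (N / p)))) ∣[k]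
      (ModularGroup.T ^ (N / p)) = X ∣[k] (ModularGroup.T ^ (((j : ℕ) + 1) * (N / p))) := by
    intro j
    rw [← SlashAction.slash_mul, ← pow_add]
    congr 2
    ring
  rw [Finset.sum_congr rfl fun j _ => h1 j,
    Fin.sum_univ_eq_sum_range (fun j => X ∣[k] (ModularGroup.T ^ ((j + 1) * (N / p)))),
    Fin.sum_univ_eq_sum_range (fun j => X ∣[k] (ModularGroup.T ^ (j * (N / p))))]
  have h2 := Finset.sum_range_succ' (fun j => X ∣[k] (ModularGroup.T ^ (j * (N / p)))) p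
  rw [Finset.sum_range_succ] at h2
  have h3 : X ∣[k] (ModularGroup.T ^ (p * (N / p))) = X ∣[k] (ModularGroup.T ^ (0 * (N / p))) := by
    rw [zero_mul, pow_zero, SlashAction.slash_one]
    exact hX _ (T_pow_mem_Gamma (by rw [Nat.mul_div_cancel' hpN]))
  rw [h3] at h2
  exact (add_right_cancel h2).symm

lemma slash_T_pow_mul {n : ℕ} (hX : X ∣[k] (ModularGroup.T ^ n) = X) (m : ℕ) :
    X ∣[k] (ModularGroup.T ^ (n * m)) = X := by
  induction m with
  | zero => rw [mul_zero, pow_zero, SlashAction.slash_one]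
  | succ m ih => rw [mul_add, mul_one, pow_add, SlashAction.slash_mul, ih, hX]

lemma slash_inv_of {γ : SL(2, ℤ)} (hX : X ∣[k] γ = X) : X ∣[k] γ⁻¹ = X := by
  conv_lhs => rw [← hX]
  rw [← SlashAction.slash_mul, mul_inv_cancel, SlashAction.slash_one]

/-- The lower unipotent matrix. -/
def lowU (x : ℤ) : SL(2, ℤ) := ⟨!![1, 0; x, 1], by simp [Matrix.det_fin_two_of]⟩

lemma coe_lowU (x : ℤ) : (lowU x : M2) = !![1, 0; x, 1] := rfl

lemma lowU_mem (x N : ℤ) : lowU x ∈ GammaUp N := by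
  rw [mem_GammaUp]
  simp [lowU]

lemma lowU_mem_Gamma {N : ℕ} {x : ℤ} (h : (N : ℤ) ∣ x) : lowU x ∈ CongruenceSubgroup.Gamma N := by
  rw [mem_Gamma_iff]
  simp [lowU, h]

/-- The element `w = L T^{-y} L`. -/
def wel (x : ℤ) (y : ℕ) : SL(2, ℤ) := lowU x * (ModularGroup.T ^ y)⁻¹ * lowU x

lemma coe_wel (x : ℤ) (y : ℕ) :
    (wel x y : M2) = !![1 - x * y, -y; x * (2 - x * y), 1 - x * y] := by
  have h1 : (((ModularGroup.T ^ y)⁻¹ : SL(2, ℤ)) : M2) = !![1, -(y : ℤ); 0, 1] := by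
    rw [Matrix.SpecialLinearGroup.coe_inv, T_pow_apply, Matrix.adjugate_fin_two_of]
    simp
  rw [wel, Matrix.SpecialLinearGroup.coe_mul, Matrix.SpecialLinearGroup.coe_mul, h1, coe_lowU]
  ext i j
  fin_cases i <;> fin_cases j <;> simp [Matrix.mul_apply, Fin.sum_univ_two] <;> ring

lemma XN_of_GammaUp (hF : ∀ γ ∈ GammaUp N, F ∣[k] γ = F) : XN k N F := fun γ hγ =>
  hF γ (mem_Gamma_iff.mp hγ).2.1

lemma T_pow_mul_mem_GammaUp {N' : ℕ} (n : ℕ) : ModularGroup.T ^ (n * N') ∈ GammaUp N' := by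
  rw [mem_GammaUp, T_pow_apply]
  simp

lemma T_inv_apply (m : ℕ) : (((ModularGroup.T ^ m)⁻¹ : SL(2, ℤ)) : M2) = !![1, -(m : ℤ); 0, 1] := by
  rw [Matrix.SpecialLinearGroup.coe_inv, T_pow_apply, Matrix.adjugate_fin_two_of]
  simp

/-- Case `p² ∣ N`: the operator `E_p` lowers the level. -/
lemma EE_inv (hp : p.Prime) (hN : N ≠ 0) (h2 : p * p ∣ N) (hF : ∀ γ ∈ GammaUp N, F ∣[k] γ = F) :
    ∀ γ ∈ GammaUp ((N / p : ℕ) : ℤ), (EE k N p F) ∣[k] γ = EE k N p F := by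
  intro γ hγ
  obtain ⟨e, rfl⟩ := h2
  have he : e ≠ 0 := by rintro rfl; simp at hN
  have hdiv : p * p * e / p = p * e := by
    rw [mul_assoc, Nat.mul_div_cancel_left _ hp.pos]
  rw [hdiv] at hγ
  rw [EE, SL_smul_slash, hdiv]
  congr 1
  refine sum_reps_slash (Γ' := GammaUp ((p * p * e : ℕ) : ℤ)) (Γ := GammaUp ((p * e : ℕ) : ℤ))
    (fun j : Fin p => ModularGroup.T ^ ((j : ℕ) * (p * e))) (fun j => T_pow_mul_mem_GammaUp _)
    ?_ ?_ hF hγ
  · intro i j hij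
    rw [mem_GammaUp, Matrix.SpecialLinearGroup.coe_mul, T_pow_apply, T_inv_apply] at hij
    simp [Matrix.mul_apply, Fin.sum_univ_two] at hij
    apply fin_eq_of_dvd
    obtain ⟨c, hc⟩ := hij
    have hpe : ((p : ℤ) * e) ≠ 0 := by
      have := hp.ne_zero
      positivity
    refine ⟨c, mul_right_cancel₀ hpe ?_⟩
    linear_combination hc
  · intro δ hδ
    rw [mem_GammaUp] at hδ
    obtain ⟨b, hb⟩ := hδ
    have hdet := δ.det_coe
    rw [Matrix.det_fin_two] at hdet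
    have ha : ¬ (p : ℤ) ∣ δ 0 0 := by
      rintro ⟨a', ha'⟩
      rw [hb, ha'] at hdet
      have : (p : ℤ) ∣ 1 := ⟨a' * δ 1 1 - e * b * δ 1 0, by push_cast at hdet; linear_combination -hdet⟩
      exact (Nat.prime_iff_prime_int.mp hp).not_isUnit (isUnit_of_dvd_one this)
    obtain ⟨j, c, hj⟩ := exists_fin_solve hp ha b
    refine ⟨j, ?_⟩
    rw [mem_GammaUp, Matrix.SpecialLinearGroup.coe_mul, T_inv_apply]
    simp [Matrix.mul_apply, Fin.sum_univ_two]
    rw [hb]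
    refine ⟨c, ?_⟩
    push_cast
    linear_combination ((p : ℤ) * e) * hj

/-- the trace-type operator in the case `p ‖ N` -/
def eps (k : ℤ) (N p : ℕ) (w : SL(2, ℤ)) (X : ℍ → ℂ) : ℍ → ℂ :=
  ((p : ℂ) + 1)⁻¹ • ((p : ℂ) • EE k N p X + X ∣[k] w)

lemma eps_eq (hp : p ≠ 0) (w : SL(2, ℤ)) :
    eps k N p w X = ((p : ℂ) + 1)⁻¹ • ∑ x : Option (Fin p),
      X ∣[k] (x.elim w (fun j => ModularGroup.T ^ ((j : ℕ) * (N / p)))) := by
  have hp' : (p : ℂ) ≠ 0 := by exact_mod_cast hp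
  rw [eps, EE, smul_smul, mul_inv_cancel₀ hp', one_smul, Fintype.sum_option,
    add_comm (∑ j : Fin p, X ∣[k] (ModularGroup.T ^ ((j : ℕ) * (N / p))))]
  rfl

lemma eps_inv {N' : ℕ} (hp : p.Prime) (hN' : N' ≠ 0) (hN : N = N' * p) (hco : N'.Coprime p)
    {w : SL(2, ℤ)} (hw1 : w ∈ CongruenceSubgroup.Gamma N') (hw2 : (p : ℤ) ∣ w 0 0)
    (hF : ∀ γ ∈ GammaUp N, F ∣[k] γ = F) :
    ∀ γ ∈ GammaUp (N' : ℤ), (eps k N p w F) ∣[k] γ = eps k N p w F := by
  intro γ hγ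
  have hdiv : N / p = N' := by rw [hN, Nat.mul_div_cancel _ hp.pos]
  have hpp := Nat.prime_iff_prime_int.mp hp
  have hco' : IsCoprime (N' : ℤ) (p : ℤ) := Nat.isCoprime_iff_coprime.mpr hco
  have hN'0 : (N' : ℤ) ≠ 0 := by exact_mod_cast hN'
  rw [mem_Gamma_iff] at hw1
  have hwdet := w.det_coe
  rw [Matrix.det_fin_two] at hwdet
  have hw3 : ¬ (p : ℤ) ∣ w 0 1 := by
    rintro ⟨b, hb⟩
    obtain ⟨a, ha⟩ := hw2
    rw [ha, hb] at hwdet
    have : (p : ℤ) ∣ 1 := ⟨a * w 1 1 - b * w 1 0, by linear_combination -hwdet⟩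
    exact hpp.not_isUnit (isUnit_of_dvd_one this)
  have hwinv : ((w⁻¹ : SL(2, ℤ)) : M2) = !![w 1 1, -w 0 1; -w 1 0, w 0 0] := by
    rw [Matrix.SpecialLinearGroup.coe_inv, Matrix.adjugate_fin_two]
  rw [eps_eq hp.ne_zero, SL_smul_slash, hdiv]
  congr 1
  refine sum_reps_slash (Γ' := GammaUp (N : ℤ)) (Γ := GammaUp (N' : ℤ))
    (fun x : Option (Fin p) => x.elim w (fun j => ModularGroup.T ^ ((j : ℕ) * N'))) ?_
    ?_ ?_ hF hγ
  · intro x
    cases x with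
    | none => exact hw1.2.1
    | some j => exact T_pow_mul_mem_GammaUp _
  · -- injectivity
    intro x y hxy
    cases x with
    | none =>
      cases y with
      | none => rfl
      | some j =>
        exfalso
        simp only [Option.elim] at hxy
        have hxy' := (GammaUp (N : ℤ)).inv_mem hxy
        rw [mul_inv_rev, inv_inv, mem_GammaUp, Matrix.SpecialLinearGroup.coe_mul, T_pow_apply,
          hwinv] at hxy'
        simp [Matrix.mul_apply, Fin.sum_univ_two] at hxy'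
        apply hw3
        have h1 : (p : ℤ) ∣ -w 0 1 + (j : ℕ) * N' * w 0 0 :=
          Dvd.dvd.trans ⟨(N' : ℤ), by rw [hN]; push_cast; ring⟩ hxy'
        have h2 : (p : ℤ) ∣ (j : ℕ) * N' * w 0 0 := Dvd.dvd.mul_left hw2 _
        have h3 := (dvd_add_left h2).mp h1
        exact (dvd_neg.mp h3)
    | some i =>
      cases y with
      | none =>
        exfalso
        simp only [Option.elim] at hxy
        rw [mem_GammaUp, Matrix.SpecialLinearGroup.coe_mul, T_pow_apply, hwinv] at hxy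
        simp [Matrix.mul_apply, Fin.sum_univ_two] at hxy
        apply hw3
        have h1 : (p : ℤ) ∣ -w 0 1 + (i : ℕ) * N' * w 0 0 :=
          Dvd.dvd.trans ⟨(N' : ℤ), by rw [hN]; push_cast; ring⟩ hxy
        have h2 : (p : ℤ) ∣ (i : ℕ) * N' * w 0 0 := Dvd.dvd.mul_left hw2 _
        have h3 := (dvd_add_left h2).mp h1
        exact (dvd_neg.mp h3)
      | some j =>
        simp only [Option.elim] at hxy
        rw [mem_GammaUp, Matrix.SpecialLinearGroup.coe_mul, T_pow_apply, T_inv_apply] at hxy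
        simp [Matrix.mul_apply, Fin.sum_univ_two] at hxy
        congr 1
        apply fin_eq_of_dvd
        obtain ⟨c, hc⟩ := hxy
        rw [hN] at hc
        push_cast at hc
        refine ⟨c, mul_right_cancel₀ hN'0 ?_⟩
        linear_combination hc
  · -- surjectivity
    intro δ hδ
    rw [mem_GammaUp] at hδ
    obtain ⟨b, hb⟩ := hδ
    by_cases ha : (p : ℤ) ∣ δ 0 0
    · refine ⟨none, ?_⟩
      simp only [Option.elim]
      rw [mem_GammaUp, Matrix.SpecialLinearGroup.coe_mul, hwinv]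
      simp only [Matrix.mul_apply, Fin.sum_univ_two, Matrix.of_apply, Matrix.cons_val_zero,
        Matrix.cons_val_one, Matrix.cons_val']
      rw [hN]
      push_cast
      refine hco'.mul_dvd ?_ ?_
      · exact dvd_add (Dvd.dvd.mul_left (dvd_neg.mpr hw1.2.1) _) (Dvd.dvd.mul_right ⟨b, hb⟩ _)
      · exact dvd_add (Dvd.dvd.mul_right ha _) (Dvd.dvd.mul_left hw2 _)
    · obtain ⟨j, c, hj⟩ := exists_fin_solve hp ha b
      refine ⟨some j, ?_⟩
      simp only [Option.elim]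
      rw [mem_GammaUp, Matrix.SpecialLinearGroup.coe_mul, T_inv_apply]
      simp [Matrix.mul_apply, Fin.sum_univ_two]
      rw [hb, hN]
      refine ⟨c, ?_⟩
      push_cast
      linear_combination (N' : ℤ) * hj

lemma DD_add (L : List ℕ) : DD k N L (f + g) = DD k N L f + DD k N L g := by
  induction L with
  | nil => rfl
  | cons p L ih => rw [DD_cons, DD_cons, DD_cons, ih, EE_add]; abel

lemma DD_zero (L : List ℕ) : DD k N L (0 : ℍ → ℂ) = 0 := by
  have := DD_smul (k := k) (N := N) (f := (0 : ℍ → ℂ)) L 0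
  simpa using this

lemma DD_sum {ι : Type*} (s : Finset ι) (G : ι → ℍ → ℂ) (L : List ℕ) :
    DD k N L (∑ i ∈ s, G i) = ∑ i ∈ s, DD k N L (G i) := by
  classical
  induction s using Finset.induction_on with
  | empty => simpa using DD_zero L
  | insert a s ha ih => rw [Finset.sum_insert ha, Finset.sum_insert ha, DD_add, ih]

lemma DD_EE {L : List ℕ} (hX : XN k N X) : DD k N L (EE k N p X) = EE k N p (DD k N L X) := by
  rw [EE, DD_smul, DD_sum, EE]
  congr 1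
  refine Finset.sum_congr rfl fun j _ => ?_
  rw [DD_comm_T _ hX]

lemma DD_eps {L : List ℕ} {N' : ℕ} (hp : p.Prime) (hN : N = N' * p) (hco : N'.Coprime p)
    (hL : ∀ q ∈ L, q.Prime ∧ q ∣ N ∧ q ≠ p) {w : SL(2, ℤ)}
    (hw : w ∈ CongruenceSubgroup.Gamma N') (hX : XN k N X) :
    DD k N L (eps k N p w X) = eps k N p w (DD k N L X) := by
  rw [eps, DD_smul, DD_add, DD_smul, DD_EE hX, ← DD_comm_of_mem hp hN hco hL hw hX, eps]

lemma HC.slash_smul_sum {ι : Type*} (s : Finset ι) (r : ι → SL(2, ℤ)) (c : ℂ) (hF : HC k F) :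
    HC k (c • ∑ i ∈ s, F ∣[k] (r i)) :=
  HC.smul _ (HC.sum fun _ _ => hF.slash_SL _)

lemma GammaUp_mono {a b : ℤ} (h : a ∣ b) : GammaUp b ≤ GammaUp a := fun _ hγ => h.trans hγ

/-- One step of the main lemma. -/
lemma main_step {L : List ℕ} (hp : p.Prime) (hpN : p ∣ N) (hN : N ≠ 0)
    (hL : ∀ q ∈ L, q.Prime ∧ q ∣ N ∧ q ≠ p) (hF : HC k F) (hinv : ∀ γ ∈ GammaUp (N : ℤ), F ∣[k] γ = F)
    (h0 : DD k N (p :: L) F = 0) :
    ∃ F₁ : ℍ → ℂ, HC k F₁ ∧ (∀ γ ∈ GammaUp ((N / p : ℕ) : ℤ), F₁ ∣[k] γ = F₁) ∧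
      DD k N L (F - F₁) = 0 := by
  have hXF := XN_of_GammaUp hinv
  by_cases h2 : p * p ∣ N
  · refine ⟨EE k N p F, hF.slash_smul_sum _ _ _, EE_inv hp hN h2 hinv, ?_⟩
    rw [DD_sub, DD_EE hXF]
    exact h0
  · obtain ⟨N', hN'⟩ := hpN
    rw [mul_comm] at hN'
    have hN'0 : N' ≠ 0 := by rintro rfl; simp at hN'; exact hN hN'
    have hpN' : ¬ p ∣ N' := by
      rintro ⟨e, rfl⟩
      exact h2 ⟨e, by rw [hN']; ring⟩
    have hco : N'.Coprime p := ((Nat.Prime.coprime_iff_not_dvd hp).mpr hpN').symm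
    have hdiv : N / p = N' := by rw [hN', Nat.mul_div_cancel _ hp.pos]
    obtain ⟨t, ht⟩ := exists_fin_solve hp (a := (N' : ℤ) * N') (by
      intro h
      rcases (Nat.prime_iff_prime_int.mp hp).dvd_mul.mp h with h | h <;>
        exact hpN' (Int.natCast_dvd_natCast.mp h)) 1
    set w := wel (N' : ℤ) (N' * t) with hw
    have hw1 : w ∈ CongruenceSubgroup.Gamma N' := by
      rw [hw, wel]
      refine Subgroup.mul_mem _ (Subgroup.mul_mem _ (lowU_mem_Gamma dvd_rfl)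
        (Subgroup.inv_mem _ (T_pow_mem_Gamma (dvd_mul_right _ _)))) (lowU_mem_Gamma dvd_rfl)
    have hw2 : (p : ℤ) ∣ w 0 0 := by
      rw [hw, coe_wel]
      simp only [Matrix.of_apply, Matrix.cons_val_zero, Matrix.cons_val']
      convert ht using 1
      push_cast
      ring
    refine ⟨eps k N p w F, ?_, ?_, ?_⟩
    · rw [eps_eq hp.ne_zero]
      exact hF.slash_smul_sum _ _ _
    · rw [hdiv]
      exact eps_inv hp hN'0 hN' hco hw1 hw2 hinv
    · rw [DD_sub, DD_eps hp hN' hco hL hw1 hXF]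
      set X := DD k N L F with hX
      have hXX : XN k N X := XN_DD hXF
      have hEX : EE k N p X = X := by
        rw [DD_cons, ← hX, sub_eq_zero] at h0
        exact h0.symm
      have hT : X ∣[k] (ModularGroup.T ^ N') = X := by
        have := EE_T (p := p) ⟨N', by rw [hN', mul_comm]⟩ hXX
        rwa [hEX, hdiv] at this
      have hlow : X ∣[k] (lowU (N' : ℤ)) = X := by
        rw [hX, DD_comm_of_mem hp hN' hco hL (lowU_mem_Gamma dvd_rfl) hXF,
          hinv _ (lowU_mem _ _)]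
      have hwX : X ∣[k] w = X := by
        rw [hw, wel, SlashAction.slash_mul, SlashAction.slash_mul, hlow,
          slash_inv_of (slash_T_pow_mul hT _), hlow]
      have hp1 : (p : ℂ) + 1 ≠ 0 := by exact_mod_cast (Nat.succ_ne_zero p)
      rw [eps, hEX, hwX]
      have h3 : (p : ℂ) • X + X = ((p : ℂ) + 1) • X := by rw [add_smul, one_smul]
      rw [h3, smul_smul, inv_mul_cancel₀ hp1, one_smul, sub_self]

/-- **Main Lemma**, in terms of `Γ⁰(N)`-invariant functions. -/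
theorem main_lemma_up (hN : N ≠ 0) (L : List ℕ) :
    ∀ (_ : ∀ q ∈ L, q.Prime ∧ q ∣ N) (_ : L.Nodup) (F : ℍ → ℂ) (_ : HC k F)
      (_ : ∀ γ ∈ GammaUp (N : ℤ), F ∣[k] γ = F) (_ : DD k N L F = 0),
      ∃ G : ℕ → ℍ → ℂ, (∀ p ∈ L, HC k (G p) ∧ ∀ γ ∈ GammaUp ((N / p : ℕ) : ℤ), G p ∣[k] γ = G p) ∧
        F = (L.map G).sum := by
  induction L with
  | nil =>
    intro _ _ F _ _ h0
    exact ⟨fun _ => 0, by simp, by simpa using h0⟩
  | cons p L ih =>
    intro hL hnd F hF hinv h0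
    rw [List.nodup_cons] at hnd
    obtain ⟨hp, hpN⟩ := hL p List.mem_cons_self
    have hL' : ∀ q ∈ L, q.Prime ∧ q ∣ N ∧ q ≠ p := fun q hq =>
      ⟨(hL q (List.mem_cons_of_mem _ hq)).1, (hL q (List.mem_cons_of_mem _ hq)).2,
        fun h => hnd.1 (h ▸ hq)⟩
    obtain ⟨F₁, h1, h2, h3⟩ := main_step hp hpN hN hL' hF hinv h0
    have hle : GammaUp (N : ℤ) ≤ GammaUp ((N / p : ℕ) : ℤ) :=
      GammaUp_mono (Int.natCast_dvd_natCast.mpr (Nat.div_dvd_of_dvd hpN))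
    obtain ⟨G, hG, hsum⟩ := ih (fun q hq => hL q (List.mem_cons_of_mem _ hq)) hnd.2 (F - F₁)
      (hF.sub h1) (fun γ hγ => by rw [slash_sub, hinv γ hγ, h2 γ (hle hγ)]) h3
    refine ⟨Function.update G p F₁, ?_, ?_⟩
    · intro q hq
      by_cases hqp : q = p
      · subst hqp
        rw [Function.update_self]
        exact ⟨h1, h2⟩
      · rw [Function.update_of_ne hqp]
        exact hG q ((List.mem_cons.mp hq).resolve_left hqp)
    · rw [List.map_cons, List.sum_cons, Function.update_self]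
      have h4 : L.map (Function.update G p F₁) = L.map G := by
        refine List.map_congr_left fun q hq => ?_
        rw [Function.update_of_ne]
        rintro rfl
        exact hnd.1 hq
      rw [h4, ← hsum]
      abel

/-- transfer to `Γ⁰(N)` -/
lemma GammaUp_of_Gamma0 (hN : N ≠ 0) (hf : IsCF (CongruenceSubgroup.Gamma0 N) k f)
    {γ : SL(2, ℤ)} (hγ : γ ∈ GammaUp (N : ℤ)) :
    (sl k !![1, 0; 0, (N : ℤ)] f) ∣[k] γ = sl k !![1, 0; 0, (N : ℤ)] f := by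
  obtain ⟨b, hb⟩ := hγ
  have hdet := γ.det_coe
  rw [isCF_iff] at hf
  have hdet' := hdet
  rw [Matrix.det_fin_two, hb] at hdet'
  have hB : (!![1, 0; 0, (N : ℤ)] : M2).det ≠ 0 := by simpa [Matrix.det_fin_two_of] using hN
  set M' : M2 := !![γ 0 0, b; N * γ 1 0, γ 1 1] with hM'
  have h1 : M'.det = 1 := by
    rw [hM', Matrix.det_fin_two_of]
    linear_combination hdet'
  have h2 : !![1, 0; 0, (N : ℤ)] * (γ : M2) = M' * !![1, 0; 0, (N : ℤ)] := by
    apply mat_ext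
    · simp [hM', Matrix.mul_apply, Fin.sum_univ_two]
    · simp [hM', Matrix.mul_apply, Fin.sum_univ_two, hb]; ring
    · simp [hM', Matrix.mul_apply, Fin.sum_univ_two]
    · simp [hM', Matrix.mul_apply, Fin.sum_univ_two]; ring
  rw [← sl_SL, ← sl_mul hB (by rw [hdet]; exact one_ne_zero), h2,
    sl_mul (by rw [h1]; exact one_ne_zero) hB, hf.2 M' h1 (by simp [hM'])]

/-- transfer from `Γ⁰(m)` -/
lemma Gamma0_of_GammaUp {m : ℕ} (hm : m ≠ 0) (hG : HC k g)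
    (hg : ∀ γ ∈ GammaUp (m : ℤ), g ∣[k] γ = g) :
    IsCF (CongruenceSubgroup.Gamma0 m) k (sl k !![(m : ℤ), 0; 0, 1] g) := by
  rw [isCF_iff]
  refine ⟨hG.sl _, fun M hM hc => ?_⟩
  obtain ⟨c, hc⟩ := hc
  have hB : (!![(m : ℤ), 0; 0, 1] : M2).det ≠ 0 := by simpa [Matrix.det_fin_two_of] using hm
  have hdet' := hM
  rw [Matrix.det_fin_two, hc] at hdet'
  have h1 : (!![M 0 0, m * M 0 1; c, M 1 1] : M2).det = 1 := by
    rw [Matrix.det_fin_two_of]
    linear_combination hdet'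
  set γ : SL(2, ℤ) := ⟨!![M 0 0, m * M 0 1; c, M 1 1], h1⟩ with hγ
  have h2 : !![(m : ℤ), 0; 0, 1] * M = (γ : M2) * !![(m : ℤ), 0; 0, 1] := by
    apply mat_ext
    · simp [hγ, Matrix.mul_apply, Fin.sum_univ_two]; ring
    · simp [hγ, Matrix.mul_apply, Fin.sum_univ_two]
    · simp [hγ, Matrix.mul_apply, Fin.sum_univ_two, hc]; ring
    · simp [hγ, Matrix.mul_apply, Fin.sum_univ_two]
  rw [← sl_mul hB (by rw [hM]; exact one_ne_zero), h2,
    sl_mul (by rw [γ.det_coe]; exact one_ne_zero) hB, sl_SL, hg γ (by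
      rw [mem_GammaUp]; simp [hγ])]

lemma EE_sl (hp : p ≠ 0) (hN : N ≠ 0) (hpN : p ∣ N) (f : ℍ → ℂ) :
    EE k N p (sl k !![1, 0; 0, (N : ℤ)] f) = sl k !![1, 0; 0, (N : ℤ)] (ep k p f) := by
  have hp' : (p : ℂ) ≠ 0 := by exact_mod_cast hp
  have hpZ : (p : ℤ) ≠ 0 := by exact_mod_cast hp
  have hB : (!![1, 0; 0, (N : ℤ)] : M2).det ≠ 0 := by simpa [Matrix.det_fin_two_of] using hN
  have hBpos : 0 < (!![1, 0; 0, (N : ℤ)] : M2).det := by
    have : 0 < N := Nat.pos_of_ne_zero hN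
    simpa [Matrix.det_fin_two_of] using this
  have hP : (!![(p : ℤ), 0; 0, 1] : M2).det ≠ 0 := by simpa [Matrix.det_fin_two_of] using hp
  obtain ⟨m, hm⟩ := hpN
  have hdiv : N / p = m := by rw [hm, Nat.mul_div_cancel_left _ (Nat.pos_of_ne_zero hp)]
  rw [EE, ep, heckeU_eq_sum hp, sl_sum, sl_smul hBpos, sl_sum, Finset.smul_sum, Finset.smul_sum]
  refine Finset.sum_congr rfl fun j _ => ?_
  have h1 : (sl k !![1, 0; 0, (N : ℤ)] f) ∣[k] (ModularGroup.T ^ ((j : ℕ) * (N / p))) =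
      sl k !![1, (j : ℤ) * m; 0, (N : ℤ)] f := by
    rw [← sl_SL, T_pow_apply, ← sl_mul hB (by simp [Matrix.det_fin_two_of])]
    congr 1
    rw [hdiv]
    apply mat_ext <;> simp [Matrix.mul_apply, Fin.sum_univ_two]
  have h3 : (!![1, (j : ℤ) * m; 0, (N : ℤ)] : M2).det ≠ 0 := by
    simpa [Matrix.det_fin_two_of] using hN
  have h2 : sl k !![1, 0; 0, (N : ℤ)] (sl k !![(p : ℤ), 0; 0, 1] (sl k (dl p (some j)) f)) =
      (p : ℂ) ^ (k - 2) • sl k !![1, (j : ℤ) * m; 0, (N : ℤ)] f := by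
    have hs := sl_scalar (k := k) (f := f) hpZ
    rw [← sl_mul (det_dl_ne hp _) hP, ← sl_mul (by
      rw [Matrix.det_mul]; exact mul_ne_zero (det_dl_ne hp _) hP) hB]
    have h4 : dl p (some j) * !![(p : ℤ), 0; 0, 1] * !![1, 0; 0, (N : ℤ)] =
        !![(p : ℤ), 0; 0, p] * !![1, (j : ℤ) * m; 0, (N : ℤ)] := by
      apply mat_ext <;> simp [dl, Matrix.mul_apply, Fin.sum_univ_two]
      rw [hm]; push_cast; ring
    have hpos2 : 0 < (!![1, (j : ℤ) * m; 0, (N : ℤ)] : M2).det := by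
      have : 0 < N := Nat.pos_of_ne_zero hN
      simpa [Matrix.det_fin_two_of] using this
    rw [h4, sl_mul (by simpa [Matrix.det_fin_two_of] using hp) h3, hs, sl_smul hpos2]
    norm_cast
  rw [h1, h2, smul_smul, ← zpow_add₀ hp', show 1 - k + (k - 2) = -1 by ring, zpow_neg_one]

lemma DD_sl (hN : N ≠ 0) (L : List ℕ) (hL : ∀ q ∈ L, q ≠ 0 ∧ q ∣ N) (f : ℍ → ℂ) :
    DD k N L (sl k !![1, 0; 0, (N : ℤ)] f) = sl k !![1, 0; 0, (N : ℤ)] (dep k L f) := by
  induction L with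
  | nil => rfl
  | cons p L ih =>
    have h1 := hL p List.mem_cons_self
    have h2 : dep k (p :: L) f = dep k L f - ep k p (dep k L f) := rfl
    rw [DD_cons, ih fun q hq => hL q (List.mem_cons_of_mem _ hq), EE_sl h1.1 hN h1.2, h2, sl_sub]

/-- **The main lemma** of Atkin–Lehner theory. -/
theorem main_lemma (hN : N ≠ 0) (s : Finset ℕ) (hs : ∀ p ∈ s, p.Prime ∧ p ∣ N)
    (hf : IsCF (CongruenceSubgroup.Gamma0 N) k f)
    (h : ∀ n, (∀ p ∈ s, ¬ p ∣ n) → qCoeff f n = 0) :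
    ∃ g : ℕ → ℍ → ℂ, (∀ p ∈ s, IsCF (CongruenceSubgroup.Gamma0 (N / p)) k (g p)) ∧
      f = ∑ p ∈ s, sl k !![(p : ℤ), 0; 0, 1] (g p) := by
  have hmem : ∀ q, q ∈ s.toList ↔ q ∈ s := fun q => Finset.mem_toList
  have hNC : (N : ℂ) ≠ 0 := by exact_mod_cast hN
  have hNZ : (N : ℤ) ≠ 0 := by exact_mod_cast hN
  have h0 : DD k N s.toList (sl k !![1, 0; 0, (N : ℤ)] f) = 0 := by
    rw [DD_sl hN _ (fun q hq => ⟨(hs q ((hmem q).mp hq)).1.ne_zero, (hs q ((hmem q).mp hq)).2⟩),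
      dep_eq_zero (QG_of_IsCF hf) _ (fun q hq => (hs q ((hmem q).mp hq)).1.ne_zero)
        (fun n hn => h n fun p hp => hn p ((hmem p).mpr hp)), sl_zero]
  obtain ⟨G, hG, hsum⟩ := main_lemma_up hN s.toList (fun q hq => hs q ((hmem q).mp hq))
    s.nodup_toList _ ((HC.of_isCF hf).sl _) (fun γ hγ => GammaUp_of_Gamma0 hN hf hγ) h0
  rw [Finset.sum_map_toList] at hsum
  refine ⟨fun p => (N : ℂ) ^ (2 - k) • sl k !![((N / p : ℕ) : ℤ), 0; 0, 1] (G p), ?_, ?_⟩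
  · intro p hp
    have hne : N / p ≠ 0 := by
      have := Nat.div_pos (Nat.le_of_dvd (Nat.pos_of_ne_zero hN) (hs p hp).2) (hs p hp).1.pos
      omega
    have hcf := Gamma0_of_GammaUp (k := k) hne (hG p ((hmem p).mpr hp)).1 (hG p ((hmem p).mpr hp)).2
    rw [isCF_iff] at hcf ⊢
    refine ⟨hcf.1.smul _, fun M hM hc => ?_⟩
    rw [sl_smul (by rw [hM]; exact one_pos), hcf.2 M hM hc]
  · have hA : (!![1, 0; 0, (N : ℤ)] : M2).det ≠ 0 := by simpa [Matrix.det_fin_two_of] using hN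
    have hB : (!![(N : ℤ), 0; 0, 1] : M2).det ≠ 0 := by simpa [Matrix.det_fin_two_of] using hN
    have h1 : sl k !![(N : ℤ), 0; 0, 1] (sl k !![1, 0; 0, (N : ℤ)] f) = (N : ℂ) ^ (k - 2) • f := by
      have hs := sl_scalar (k := k) (f := f) hNZ
      rw [← sl_mul hA hB]
      have : (!![1, 0; 0, (N : ℤ)] * !![(N : ℤ), 0; 0, 1] : M2) = !![(N : ℤ), 0; 0, N] := by
        apply mat_ext <;> simp [Matrix.mul_apply, Fin.sum_univ_two]
      rw [this, hs]
      norm_cast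
    have h2 : f = (N : ℂ) ^ (2 - k) • sl k !![(N : ℤ), 0; 0, 1] (sl k !![1, 0; 0, (N : ℤ)] f) := by
      rw [h1, smul_smul, ← zpow_add₀ hNC, show 2 - k + (k - 2) = 0 by ring, zpow_zero, one_smul]
    rw [hsum, sl_sum, Finset.smul_sum] at h2
    rw [h2]
    refine Finset.sum_congr rfl fun p hp => ?_
    have hp0 := (hs p hp).1.ne_zero
    have hne : N / p ≠ 0 := by
      have := Nat.div_pos (Nat.le_of_dvd (Nat.pos_of_ne_zero hN) (hs p hp).2) (hs p hp).1.pos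
      omega
    rw [sl_smul (by
      have := Nat.pos_of_ne_zero hp0
      simpa [Matrix.det_fin_two_of] using this), ← sl_mul (by
        rw [Matrix.det_fin_two_of, mul_one, mul_zero, sub_zero]; exact Int.natCast_ne_zero.mpr hne)
      (by simpa [Matrix.det_fin_two_of] using hp0)]
    congr 2
    apply mat_ext <;> simp [Matrix.mul_apply, Fin.sum_univ_two]
    have := Nat.div_mul_cancel (hs p hp).2
    exact_mod_cast this.symm

end

end Fermat.Agent.AL
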