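import Mathlib
import Fermat.Prelude.Def_ModularForm_HeckeOperator
import Fermat.Agent.MFLib.Cusp

/-!
# Slash action of integral matrices
-/

set_option autoImplicit false

open UpperHalfPlane ModularForm Complex Filter Topology Matrix.SpecialLinearGroup
open scoped MatrixGroups Manifold

namespace Fermat.Agent.AL

noncomputable section

/-- integral `2 × 2` matrices -/
abbrev M2 := Matrix (Fin 2) (Fin 2) ℤ

/-- The element of `GL (Fin 2) ℝ` attached to an integral matrix with nonzero determinant. -/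
def toGL (M : M2) : GL (Fin 2) ℝ :=
  if h : M.det = 0 then 1 else
    Matrix.GeneralLinearGroup.mkOfDetNeZero (M.map ((↑) : ℤ → ℝ))
      (by rw [← Int.cast_det]; exact_mod_cast h)

lemma coe_toGL {M : M2} (h : M.det ≠ 0) :
    ((toGL M : GL (Fin 2) ℝ) : Matrix (Fin 2) (Fin 2) ℝ) = M.map ((↑) : ℤ → ℝ) := by
  rw [toGL, dif_neg h]; rfl

lemma det_toGL {M : M2} (h : M.det ≠ 0) : ((toGL M).det : ℝ) = M.det := by
  rw [Matrix.GeneralLinearGroup.val_det_apply, coe_toGL h, ← Int.cast_det]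

lemma toGL_mul {M M' : M2} (h : M.det ≠ 0) (h' : M'.det ≠ 0) :
    toGL (M * M') = toGL M * toGL M' := by
  have h2 : (M * M').det ≠ 0 := by rw [Matrix.det_mul]; exact mul_ne_zero h h'
  ext i j
  rw [coe_toGL h2, Matrix.GeneralLinearGroup.coe_mul, coe_toGL h, coe_toGL h']
  simp [Matrix.mul_apply]

@[simp] lemma toGL_one : toGL 1 = 1 := by
  ext i j
  rw [coe_toGL (by simp)]
  fin_cases i <;> fin_cases j <;> simp

lemma toGL_SL (γ : SL(2, ℤ)) : toGL (γ : M2) = mapGL ℝ γ := by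
  ext i j
  rw [coe_toGL (by simp [γ.det_coe])]
  simp

lemma heckeMatrix_eq_toGL {p : ℕ} (hp : p ≠ 0) (j : ℕ) :
    heckeMatrix p j = toGL !![1, (j : ℤ); 0, (p : ℤ)] := by
  ext i j
  rw [coe_toGL (by simpa using hp), val_heckeMatrix hp]
  fin_cases i <;> fin_cases j <;> simp

lemma heckeDiagMatrix_eq_toGL {p : ℕ} (hp : p ≠ 0) :
    heckeDiagMatrix p = toGL !![(p : ℤ), 0; 0, 1] := by
  ext i j
  rw [coe_toGL (by simpa using hp), val_heckeDiagMatrix hp]
  fin_cases i <;> fin_cases j <;> simp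

/-- slash by an integral matrix -/
def sl (k : ℤ) (M : M2) (f : ℍ → ℂ) : ℍ → ℂ := f ∣[k] toGL M

variable {k : ℤ} {M M' : M2} {f g : ℍ → ℂ}

lemma sl_def (k : ℤ) (M : M2) (f : ℍ → ℂ) : sl k M f = f ∣[k] toGL M := rfl

lemma sl_mul (h : M.det ≠ 0) (h' : M'.det ≠ 0) : sl k (M * M') f = sl k M' (sl k M f) := by
  rw [sl, toGL_mul h h', SlashAction.slash_mul]; rfl

lemma sl_SL (γ : SL(2, ℤ)) : sl k (γ : M2) f = f ∣[k] γ := by
  rw [sl, toGL_SL]; rfl

@[simp] lemma sl_one : sl k 1 f = f := by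
  rw [sl, toGL_one, SlashAction.slash_one]

lemma sl_add : sl k M (f + g) = sl k M f + sl k M g := SlashAction.add_slash _ _ _ _

@[simp] lemma sl_zero : sl k M 0 = 0 := SlashAction.zero_slash _ _

lemma sl_neg : sl k M (-f) = - sl k M f := SlashAction.neg_slash _ _ _

lemma sl_sub : sl k M (f - g) = sl k M f - sl k M g := by
  rw [sub_eq_add_neg, sl_add, sl_neg, ← sub_eq_add_neg]

lemma sl_sum {ι : Type*} (s : Finset ι) (F : ι → ℍ → ℂ) :
    sl k M (∑ i ∈ s, F i) = ∑ i ∈ s, sl k M (F i) := by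
  classical
  induction s using Finset.induction_on with
  | empty => simp
  | insert a s ha ih => rw [Finset.sum_insert ha, Finset.sum_insert ha, sl_add, ih]

lemma sl_smul (h : 0 < M.det) (c : ℂ) : sl k M (c • f) = c • sl k M f := by
  rw [sl, ModularForm.smul_slash]
  have : σ (toGL M) = .refl ℝ ℂ := by
    rw [UpperHalfPlane.σ, if_pos]
    rw [det_toGL h.ne']
    exact_mod_cast h
  rw [this]; rfl

/-- slash by a scalar matrix -/
lemma sl_scalar {n : ℤ} (hn : n ≠ 0) : sl k !![n, 0; 0, n] f = (n : ℂ) ^ (k - 2) • f := by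
  have hdet : (!![n, 0; 0, n] : M2).det = n * n := by simp [Matrix.det_fin_two_of]
  have hdet0 : (!![n, 0; 0, n] : M2).det ≠ 0 := by rw [hdet]; exact mul_ne_zero hn hn
  have hpos : 0 < (!![n, 0; 0, n] : M2).det := by rw [hdet]; exact mul_self_pos.mpr hn
  have hnC : (n : ℂ) ≠ 0 := by exact_mod_cast hn
  funext τ
  rw [sl, ModularForm.slash_apply, UpperHalfPlane.σ, if_pos, Pi.smul_apply, smul_eq_mul,
    det_toGL hdet0, hdet]
  · have h1 : toGL (!![n, 0; 0, n] : M2) • τ = τ := by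
      ext
      rw [UpperHalfPlane.coe_smul_of_det_pos]
      · simp [UpperHalfPlane.num, UpperHalfPlane.denom, coe_toGL hdet0, hn]
      · rw [det_toGL hdet0]; exact_mod_cast hpos
    have h2 : denom (toGL (!![n, 0; 0, n] : M2)) τ = n := by
      simp [UpperHalfPlane.denom, coe_toGL hdet0]
    rw [h1, h2]
    simp only [ContinuousAlgEquiv.refl_apply]
    have h3 : ((|(((n * n : ℤ)) : ℝ)| : ℝ) : ℂ) = (n : ℂ) ^ (2 : ℤ) := by
      rw [abs_of_pos (by exact_mod_cast (by rw [← hdet]; exact hpos : 0 < n * n))]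
      push_cast
      rw [zpow_two]
    rw [h3, ← zpow_mul, mul_assoc, ← zpow_add₀ hnC, mul_comm]
    congr 2
    ring
  · rw [det_toGL hdet0]; exact_mod_cast hpos

/-- Cuspidal functions: holomorphic functions all of whose translates by `SL(2, ℤ)` vanish at
`i∞`. -/
structure HC (k : ℤ) (f : ℍ → ℂ) : Prop where
  holo : MDiff f
  zero : ∀ γ : SL(2, ℤ), IsZeroAtImInfty (f ∣[k] γ)

namespace HC

lemma hb (h : HC k f) : MFLib.HB k f where
  holo := h.holo
  bdd γ := by
    have := h.zero γ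
    exact this.boundedAtFilter

lemma of_isCF {Γ : Subgroup SL(2, ℤ)} (h : MFLib.IsCF Γ k f) : HC k f := ⟨h.holo, h.zero_cusps⟩

lemma add (hf : HC k f) (hg : HC k g) : HC k (f + g) where
  holo := hf.holo.add hg.holo
  zero γ := by
    rw [SlashAction.add_slash]
    exact (hf.zero γ).add (hg.zero γ)

lemma zero' : HC k 0 where
  holo := fun _ => mdifferentiableAt_const
  zero γ := by
    rw [SlashAction.zero_slash]
    exact Filter.zero_zeroAtFilter _

lemma smul (c : ℂ) (hf : HC k f) : HC k (c • f) where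
  holo := hf.holo.const_smul c
  zero γ := by
    rw [SL_smul_slash]
    exact (hf.zero γ).smul c

lemma neg (hf : HC k f) : HC k (-f) := by simpa using hf.smul (-1)

lemma sub (hf : HC k f) (hg : HC k g) : HC k (f - g) := by
  simpa [sub_eq_add_neg] using hf.add hg.neg

lemma sum {ι : Type*} {s : Finset ι} {F : ι → ℍ → ℂ} (h : ∀ i ∈ s, HC k (F i)) :
    HC k (∑ i ∈ s, F i) := by
  classical
  induction s using Finset.induction_on with
  | empty => simpa using zero'
  | insert i s hi ih =>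
    rw [Finset.sum_insert hi]
    exact (h i (Finset.mem_insert_self i s)).add (ih fun j hj => h j (Finset.mem_insert_of_mem hj))

lemma isZeroAt (h : HC k f) {c : OnePoint ℝ} (hc : IsCusp c 𝒮ℒ) : c.IsZeroAt f k := by
  rw [OnePoint.isZeroAt_iff_forall_SL2Z hc]
  exact fun γ _ => h.zero γ

lemma slash_SL (h : HC k f) (γ : SL(2, ℤ)) : HC k (f ∣[k] γ) where
  holo := MFLib.holo_slash h.holo k γ
  zero δ := by
    rw [← SlashAction.slash_mul]
    exact h.zero _

end HC

/-- the rational version of `toGL` -/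
def toGLQ (M : M2) : GL (Fin 2) ℚ :=
  if h : M.det = 0 then 1 else
    Matrix.GeneralLinearGroup.mkOfDetNeZero (M.map ((↑) : ℤ → ℚ))
      (by rw [← Int.cast_det]; exact_mod_cast h)

lemma toGL_eq_map (M : M2) :
    toGL M = Matrix.GeneralLinearGroup.map (Rat.castHom ℝ) (toGLQ M) := by
  by_cases h : M.det = 0
  · rw [toGL, toGLQ, dif_pos h, dif_pos h, map_one]
  · ext i j
    rw [coe_toGL h, toGLQ, dif_neg h]
    simp [Matrix.GeneralLinearGroup.mkOfDetNeZero]

lemma isCusp_toGL_smul {c : OnePoint ℝ} (hc : IsCusp c 𝒮ℒ) (M : M2) :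
    IsCusp (toGL M • c) 𝒮ℒ := by
  rw [toGL_eq_map]
  rw [isCusp_SL2Z_iff] at hc ⊢
  obtain ⟨c, rfl⟩ := hc
  exact ⟨toGLQ M • c, by rw [← Rat.coe_castHom, OnePoint.map_smul]⟩

lemma HC.sl (h : HC k f) (M : M2) : HC k (sl k M f) where
  holo := by
    rw [sl_def]
    exact h.holo.slash k (toGL M)
  zero γ := by
    rw [sl_def]
    have hc : IsCusp (mapGL ℝ γ • (OnePoint.infty : OnePoint ℝ)) 𝒮ℒ :=
      isCusp_SL2Z_iff'.mpr ⟨γ, rfl⟩
    have h1 : (mapGL ℝ γ • (OnePoint.infty : OnePoint ℝ)).IsZeroAt (f ∣[k] toGL M) k := by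
      rw [← OnePoint.IsZeroAt.smul_iff]
      exact h.isZeroAt (isCusp_toGL_smul hc M)
    exact (OnePoint.isZeroAt_iff rfl).mp h1

end

end Fermat.Agent.AL
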