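import Fermat.Agent.AL.Strong
import Fermat.Agent.AL.LinAlg
import Fermat.Agent.Eigen.Character
import Fermat.Prelude.Def_CuspForm_Newforms

/-!
# Multiplicity one
-/

set_option autoImplicit false

open UpperHalfPlane ModularForm Complex Filter Topology Matrix.SpecialLinearGroup
open ModularFormClass Fermat.Agent.MFLib
open scoped MatrixGroups Manifold

namespace Fermat.Agent.AL

noncomputable section

variable {k : ℤ} {f g h : ℍ → ℂ} {p N M d l : ℕ}

lemma isCoprime_of_not_dvd {n : ℕ} (hl : l.Prime) (h : ¬ l ∣ n) : IsCoprime (n : ℤ) (l : ℤ) :=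
  Nat.isCoprime_iff_coprime.mpr ((Nat.Prime.coprime_iff_not_dvd hl).mpr h).symm

/-- matrices in `Γ₀(M) diag(d,1)` -/
lemma sl_of_mem_V (hd : d ≠ 0) (hinv : ∀ A : M2, A.det = 1 → (M : ℤ) ∣ A 1 0 → sl k A f = f)
    {A : M2} (hA : A ∈ WW d d (d * M : ℕ) 1) : sl k A f = sl k !![(d : ℤ), 0; 0, 1] f := by
  obtain ⟨h1, ⟨a, ha⟩, ⟨c, hc⟩, -⟩ := hA
  have hdZ : (d : ℤ) ≠ 0 := by exact_mod_cast hd
  push_cast at hc
  have hdet : (!![a, A 0 1; M * c, A 1 1] : M2).det = 1 := by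
    rw [Matrix.det_fin_two, ha, hc] at h1
    rw [Matrix.det_fin_two_of]
    refine mul_left_cancel₀ hdZ ?_
    linear_combination h1
  have h2 : A = !![a, A 0 1; M * c, A 1 1] * !![(d : ℤ), 0; 0, 1] := by
    apply mat_ext <;> simp [Matrix.mul_apply, Fin.sum_univ_two]
    · rw [ha]; ring
    · rw [hc]; ring
  rw [h2, sl_mul (by rw [hdet]; exact one_ne_zero) (by simpa [Matrix.det_fin_two_of] using hd),
    hinv _ hdet (by simp)]

lemma diag_mem (d M : ℕ) : (!![(d : ℤ), 0; 0, 1] : M2) ∈ WW d d (d * M : ℕ) 1 := by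
  refine ⟨by simp [Matrix.det_fin_two_of], by simp, by simp, by simp⟩

/-- `V_d` commutes with `T_ℓ`. -/
theorem V_heckeT (hl : l.Prime) (hd : d ≠ 0) (hlN : ¬ l ∣ d * M)
    (hinv : ∀ A : M2, A.det = 1 → (M : ℤ) ∣ A 1 0 → sl k A f = f) :
    sl k !![(d : ℤ), 0; 0, 1] (heckeT k l f) = heckeT k l (sl k !![(d : ℤ), 0; 0, 1] f) := by
  refine sl_heckeT hl (W := WW d d (d * M : ℕ) 1)
    (stab_WW hl.ne_zero (by push_cast; exact dvd_mul_right _ _) (one_dvd _)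
      (isCoprime_of_not_dvd hl hlN))
    (fun A hA B hB => by rw [sl_of_mem_V hd hinv hA, sl_of_mem_V hd hinv hB]) (diag_mem d M) ?_
  rw [Matrix.det_fin_two_of, mul_one, mul_zero, sub_zero]
  intro hd'
  exact hlN (Dvd.dvd.mul_right (Int.natCast_dvd_natCast.mp hd') _)

/-- `T_ℓ` as a linear map on functions -/
def Tfun (l : ℕ) : Module.End ℂ (ℍ → ℂ) where
  toFun := heckeT 2 l
  map_add' := heckeT_add 2 l
  map_smul' := heckeT_smul 2 l

@[simp] lemma Tfun_apply (f : ℍ → ℂ) : Tfun l f = heckeT 2 l f := rfl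

/-- `V_d` as a linear map -/
def Vlin (d M : ℕ) (hd : 0 < d) : CuspForm (CongruenceSubgroup.Gamma0 M) 2 →ₗ[ℂ] (ℍ → ℂ) where
  toFun f := sl 2 !![(d : ℤ), 0; 0, 1] f
  map_add' f g := by
    rw [← sl_add]; rfl
  map_smul' c f := by
    simp only [RingHom.id_apply]
    rw [← sl_smul (by simpa [Matrix.det_fin_two_of] using hd)]; rfl

lemma inv_of_cuspForm (f : CuspForm (CongruenceSubgroup.Gamma0 M) k) :
    ∀ A : M2, A.det = 1 → (M : ℤ) ∣ A 1 0 → sl k A f = f := by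
  intro A hA hc
  have h1 := SlashInvariantFormClass.slash_action_eq f (mapGL ℝ ⟨A, hA⟩)
    ⟨⟨A, hA⟩, mem_Gamma0_iff.mpr hc, rfl⟩
  have h2 : toGL A = mapGL ℝ ⟨A, hA⟩ := toGL_SL ⟨A, hA⟩
  rw [sl_def, h2]
  exact h1

/-- Systems of eigenvalues in the old space come from lower level. -/
theorem exists_lower {s : Finset ℕ} (hN : N ≠ 0) (hs : ∀ p ∈ s, p.Prime ∧ p ∣ N)
    {g : ℕ → ℍ → ℂ} (hg : ∀ p ∈ s, IsCF (CongruenceSubgroup.Gamma0 (N / p)) 2 (g p))
    {A : Set ℕ} (hA : ∀ l ∈ A, l.Prime ∧ ¬ l ∣ N) {χ : ℕ → ℂ}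
    (hne : (∑ p ∈ s, sl 2 !![(p : ℤ), 0; 0, 1] (g p)) ≠ 0)
    (hχ : ∀ l ∈ A, heckeT 2 l (∑ p ∈ s, sl 2 !![(p : ℤ), 0; 0, 1] (g p)) =
      χ l • ∑ p ∈ s, sl 2 !![(p : ℤ), 0; 0, 1] (g p)) :
    ∃ p ∈ s, ∃ f : CuspForm (CongruenceSubgroup.Gamma0 (N / p)) 2, f ≠ 0 ∧
      ∀ l ∈ A, heckeT 2 l f = χ l • (f : ℍ → ℂ) := by
  classical
  have hne0 : ∀ p : s, NeZero (N / (p : ℕ)) := fun p => ⟨by
    have := Nat.div_pos (Nat.le_of_dvd (Nat.pos_of_ne_zero hN) (hs p p.2).2) (hs p p.2).1.pos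
    omega⟩
  have hfd : ∀ p : s, FiniteDimensional ℂ (CuspForm (CongruenceSubgroup.Gamma0 (N / (p : ℕ))) 2) :=
    fun p => haveI := hne0 p; Eigen.finiteDimensional_cuspForm _ _
  have hlN : ∀ l : A, ∀ p : s, ¬ (l : ℕ) ∣ N / (p : ℕ) := fun l p hd =>
    (hA l l.2).2 (hd.trans (Nat.div_dvd_of_dvd (hs p p.2).2))
  let T : A → Module.End ℂ (∀ p : s, CuspForm (CongruenceSubgroup.Gamma0 (N / (p : ℕ))) 2) :=
    fun l => LinearMap.pi fun p =>
      (CuspForm.heckeTLin 2 (hA l l.2).1 (hlN l p)) ∘ₗ LinearMap.proj p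
  have hT : ∀ l w p, T l w p = CuspForm.heckeTLin 2 (hA l l.2).1 (hlN l p) (w p) := fun _ _ _ => rfl
  let π : (∀ p : s, CuspForm (CongruenceSubgroup.Gamma0 (N / (p : ℕ))) 2) →ₗ[ℂ] (ℍ → ℂ) :=
    ∑ p : s, (Vlin p (N / (p : ℕ)) (hs p p.2).1.pos) ∘ₗ LinearMap.proj p
  have hπ : ∀ w, π w = ∑ p : s, sl 2 !![((p : ℕ) : ℤ), 0; 0, 1] (w p) := by
    intro w
    simp only [π, LinearMap.sum_apply, LinearMap.comp_apply, LinearMap.proj_apply]
    rfl
  let w : ∀ p : s, CuspForm (CongruenceSubgroup.Gamma0 (N / (p : ℕ))) 2 :=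
    fun p => haveI := hne0 p; (hg p p.2).toCuspForm
  have hw : π w = ∑ p ∈ s, sl 2 !![(p : ℤ), 0; 0, 1] (g p) := by
    rw [hπ, ← Finset.sum_coe_sort s]
    rfl
  obtain ⟨w₀, h0, h1⟩ := lift_eigen T (fun l : A => Tfun l) (by
      intro i j
      refine LinearMap.ext fun w => funext fun p => ?_
      have := CuspForm.heckeTLin_comm 2 (hA i i.2).1 (hlN i p) (hA j j.2).1 (hlN j p)
      exact congrArg (fun φ : Module.End ℂ _ => φ (w p)) this) π (by
      intro l w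
      rw [hπ, hπ, Tfun_apply, ← Tfun_apply, map_sum]
      refine Finset.sum_congr rfl fun p _ => ?_
      rw [hT, CuspForm.coe_heckeTLin_apply, Tfun_apply]
      have hdiv : (p : ℕ) * (N / (p : ℕ)) = N := Nat.mul_div_cancel' (hs p p.2).2
      exact V_heckeT (hA l l.2).1 (hs p p.2).1.ne_zero (by rw [hdiv]; exact (hA l l.2).2)
        (inv_of_cuspForm (w p))) (fun l => χ l) w (by rw [hw]; exact hne) (by
      intro l
      rw [hw, Tfun_apply]
      exact hχ l l.2)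
  obtain ⟨p, hp⟩ := Function.ne_iff.mp h0
  refine ⟨p, p.2, w₀ p, hp, fun l hl => ?_⟩
  have h2 := congrFun (h1 ⟨l, hl⟩) p
  rw [hT] at h2
  have h3 := congrArg (fun F : CuspForm (CongruenceSubgroup.Gamma0 (N / (p : ℕ))) 2 => (F : ℍ → ℂ)) h2
  exact h3

/-- An eigenvector of some Hecke operators away from the level yields a normalised eigenform. -/
theorem exists_normalized [NeZero M] {A : Set ℕ} (hA : ∀ l ∈ A, l.Prime ∧ ¬ l ∣ M) {χ : ℕ → ℂ}
    {f : CuspForm (CongruenceSubgroup.Gamma0 M) 2} (hf : f ≠ 0)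
    (h : ∀ l ∈ A, heckeT 2 l f = χ l • (f : ℍ → ℂ)) :
    ∃ g : CuspForm (CongruenceSubgroup.Gamma0 M) 2, g.IsNormalizedEigenform ∧
      ∀ l ∈ A, qCoeff g l = χ l := by
  have : FiniteDimensional ℂ (CuspForm (CongruenceSubgroup.Gamma0 M) 2) :=
    Eigen.finiteDimensional_cuspForm M 2
  let W : Submodule ℂ (CuspForm (CongruenceSubgroup.Gamma0 M) 2) :=
    { carrier := {x | ∀ (l : ℕ) (hl : l ∈ A), CuspForm.heckeTLin 2 (hA l hl).1 (hA l hl).2 x = χ l • x}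
      add_mem' := fun {x y} hx hy l hl => by rw [map_add, hx l hl, hy l hl, smul_add]
      zero_mem' := fun l hl => by rw [map_zero, smul_zero]
      smul_mem' := fun c x hx l hl => by rw [map_smul, hx l hl, smul_comm] }
  have hfW : f ∈ W := fun l hl => DFunLike.coe_injective (h l hl)
  have hWne : W ≠ ⊥ := by
    intro hbot
    rw [hbot, Submodule.mem_bot] at hfW
    exact hf hfW
  obtain ⟨y, hyW, hy0, hyT⟩ := Eigen.exists_common_eigenvector (CuspForm.heckeGenerators M 2 ∅)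
    (fun a ha b hb => CuspForm.commute_of_mem_heckeGenerators ha hb) _ W le_rfl hWne (by
      intro a ha x hx l hl
      have hc := CuspForm.commute_of_mem_heckeGenerators (S := ∅)
        (CuspForm.heckeTLin_mem_heckeGenerators (hA l hl).1 (hA l hl).2 (Set.notMem_empty l)) ha
      have := congrArg (fun φ : Module.End ℂ _ => φ x) hc
      simp only [Module.End.mul_apply] at this
      rw [this, hx l hl, map_smul])
  have hTy : ∀ (ℓ : ℕ) (hℓ : ℓ.Prime) (hℓN : ¬ ℓ ∣ M), ∃ c : ℂ, CuspForm.heckeTLin 2 hℓ hℓN y = c • y :=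
    fun ℓ hℓ hℓN => hyT _ (CuspForm.heckeTLin_mem_heckeGenerators hℓ hℓN (Set.notMem_empty _))
  have hUy : ∀ (q : ℕ) (_ : q.Prime) (hqN : q ∣ M), ∃ c : ℂ, CuspForm.heckeULin 2 hqN y = c • y :=
    fun q hq hqN => hyT _ (CuspForm.heckeULin_mem_heckeGenerators hq hqN (Set.notMem_empty _))
  have ha1 : qCoeff y 1 ≠ 0 := fun h =>
    hy0 (Eigen.eq_zero_of_eigen_of_qCoeff_one_eq_zero h hTy hUy)
  have hnorm : ((qCoeff y 1)⁻¹ • y).IsNormalizedEigenform := by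
    refine Eigen.isNormalizedEigenform_of_eigen ?_ ?_ ?_
    · rw [Eigen.qCoeff_smul, inv_mul_cancel₀ ha1]
    · intro ℓ hℓ hℓN
      obtain ⟨c, hc⟩ := hTy ℓ hℓ hℓN
      exact ⟨c, by rw [map_smul, hc, smul_comm]⟩
    · intro q hq hqN
      obtain ⟨c, hc⟩ := hUy q hq hqN
      exact ⟨c, by rw [map_smul, hc, smul_comm]⟩
  refine ⟨(qCoeff y 1)⁻¹ • y, hnorm, fun l hl => ?_⟩
  have h1 := Eigen.heckeTLin_eq_smul hnorm (hA l hl).1 (hA l hl).2
  rw [map_smul, hyW l hl, smul_comm] at h1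
  have hne : (qCoeff y 1)⁻¹ • y ≠ 0 := smul_ne_zero (inv_ne_zero ha1) hy0
  exact (smul_left_injective ℂ hne h1).symm

/-- vanishing of coefficients of eigenfunctions with `a₁ = 0` -/
lemma qCoeff_eq_zero_of_eigen (hf : QG f) {χ : ℕ → ℂ} (h1 : qCoeff f 1 = 0) (n : ℕ) (hn : n ≠ 0)
    (h : ∀ l : ℕ, l.Prime → l ∣ n → heckeT k l f = χ l • f) : qCoeff f n = 0 := by
  induction n using Nat.strong_induction_on with
  | _ n ih =>
    rcases Nat.lt_or_ge n 2 with hn2 | hn2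
    · interval_cases n
      · exact absurd rfl hn
      · exact h1
    · obtain ⟨l, hl, m, rfl⟩ := Nat.exists_prime_and_dvd (by omega : n ≠ 1)
      have hm0 : m ≠ 0 := by rintro rfl; simp at hn
      have hmlt : m < l * m := by
        have := hl.two_le
        have := Nat.pos_of_ne_zero hm0
        nlinarith
      have hm := ih m hmlt hm0 fun q hq hqm => h q hq (Dvd.dvd.mul_left hqm l)
      have e := qCoeff_heckeT (k := k) hf hl.ne_zero m
      rw [h l hl (dvd_mul_right l m), QG.qCoeff_smul hf, hm, mul_zero] at e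
      rw [show l * m = m * l by ring]
      by_cases hd : l ∣ m
      · rw [if_pos hd, ih (m / l) (lt_of_le_of_lt (Nat.div_le_self _ _) hmlt)
          (by
            have := Nat.div_pos (Nat.le_of_dvd (Nat.pos_of_ne_zero hm0) hd) hl.pos
            omega)
          (fun q hq hqm => h q hq (Dvd.dvd.mul_left (hqm.trans (Nat.div_dvd_of_dvd hd)) l)),
          mul_zero, add_zero] at e
        exact e.symm
      · rw [if_neg hd, add_zero] at e
        exact e.symm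

/-- An eigenfunction for `T_ℓ`, `ℓ ∤ N`, `ℓ ∉ S`, with `a₁ = 0` has vanishing coefficients prime
to `N`. -/
theorem coeff_eq_zero_of_eigen (hN : N ≠ 0) (hf : IsCF (CongruenceSubgroup.Gamma0 N) k f)
    {S : Set ℕ} (hS : S.Finite) {χ : ℕ → ℂ}
    (h : ∀ l : ℕ, l.Prime → ¬ l ∣ N → l ∉ S → heckeT k l f = χ l • f) (h1 : qCoeff f 1 = 0) :
    ∀ n, (∀ p ∈ N.primeFactors, ¬ p ∣ n) → qCoeff f n = 0 := by
  classical
  refine coeff_zero_of_coeff_zero hN hf N.primeFactors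
    (hS.toFinset.filter fun p => p.Prime ∧ ¬ p ∣ N) (fun p hp => Nat.prime_of_mem_primeFactors hp)
    (fun p hp => (Finset.mem_filter.mp hp).2) fun n hn => ?_
  rcases eq_or_ne n 0 with rfl | hn0
  · exact qCoeff_zero_of_isCF hN hf
  refine qCoeff_eq_zero_of_eigen (k := k) (χ := χ) (QG_of_IsCF hf) h1 n hn0 fun l hl hln => ?_
  have hlN : ¬ l ∣ N := fun hd => hn l (Finset.mem_union_left _
    (Nat.mem_primeFactors.mpr ⟨hl, hd, hN⟩)) hln
  refine h l hl hlN fun hlS => ?_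
  exact hn l (Finset.mem_union_right _ (Finset.mem_filter.mpr
    ⟨hS.mem_toFinset.mpr hlS, hl, hlN⟩)) hln

lemma heckeT_eq_of_normalized [NeZero N] {f : CuspForm (CongruenceSubgroup.Gamma0 N) 2}
    (hf : f.IsNormalizedEigenform) (hl : l.Prime) (hlN : ¬ l ∣ N) :
    heckeT 2 l (f : ℍ → ℂ) = qCoeff f l • (f : ℍ → ℂ) := by
  have h1 := Eigen.heckeTLin_eq_smul hf hl hlN
  exact congrArg (fun F : CuspForm (CongruenceSubgroup.Gamma0 N) 2 => (F : ℍ → ℂ)) h1

/-- Two normalised eigenforms (of possibly different levels dividing `N`) agreeing at almost all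
primes agree at all primes not dividing `N`. -/
theorem qCoeff_eq_of_almost_all {M M' : ℕ} (hN : N ≠ 0) (hM : M ∣ N) (hM' : M' ∣ N)
    {f : CuspForm (CongruenceSubgroup.Gamma0 M) 2} {g : CuspForm (CongruenceSubgroup.Gamma0 M') 2}
    (hf : f.IsNormalizedEigenform) (hg : g.IsNormalizedEigenform) {S : Set ℕ} (hS : S.Finite)
    (h : ∀ l : ℕ, l.Prime → ¬ l ∣ N → l ∉ S → qCoeff f l = qCoeff g l) :
    ∀ n, (∀ p ∈ N.primeFactors, ¬ p ∣ n) → qCoeff f n = qCoeff g n := by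
  have hM0 : NeZero M := ⟨fun h => hN (by rw [h] at hM; exact Nat.eq_zero_of_zero_dvd hM)⟩
  have hM'0 : NeZero M' := ⟨fun h => hN (by rw [h] at hM'; exact Nat.eq_zero_of_zero_dvd hM')⟩
  have hcf : IsCF (CongruenceSubgroup.Gamma0 N) 2 (f : ℍ → ℂ) := isCF_mono hM (IsCF.of_class f)
  have hcg : IsCF (CongruenceSubgroup.Gamma0 N) 2 (g : ℍ → ℂ) := isCF_mono hM' (IsCF.of_class g)
  intro n hn
  have h2 := coeff_eq_zero_of_eigen hN (isCF_sub hcf hcg) hS (χ := fun l => qCoeff f l)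
    (fun l hl hlN hlS => by
      rw [heckeT_sub, heckeT_eq_of_normalized hf hl (fun hd => hlN (hd.trans hM)),
        heckeT_eq_of_normalized hg hl (fun hd => hlN (hd.trans hM')), h l hl hlN hlS, smul_sub])
    (by rw [QG.qCoeff_sub (QG_of_IsCF hcf) (QG_of_IsCF hcg), hf.qCoeff_one, hg.qCoeff_one, sub_self])
    n hn
  rw [QG.qCoeff_sub (QG_of_IsCF hcf) (QG_of_IsCF hcg)] at h2
  exact sub_eq_zero.mp h2

/-- Strengthened newform property: the system of eigenvalues does not occur at lower level, even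
for almost all primes. -/
theorem newform_eq_zero [NeZero N] {f : CuspForm (CongruenceSubgroup.Gamma0 N) 2} (hf : f.IsNewform)
    (hM : M ∣ N) (hMN : M ≠ N) {S : Set ℕ} (hS : S.Finite) {h : ℍ → ℂ}
    (hh : IsCF (CongruenceSubgroup.Gamma0 M) 2 h)
    (hT : ∀ l : ℕ, l.Prime → ¬ l ∣ N → l ∉ S → heckeT 2 l h = qCoeff f l • h) : h = 0 := by
  by_contra hne
  have hN : N ≠ 0 := NeZero.ne N
  have hM0 : NeZero M := ⟨fun h => hN (by rw [h] at hM; exact Nat.eq_zero_of_zero_dvd hM)⟩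
  obtain ⟨g, hg, hgχ⟩ := exists_normalized (M := M) (A := {l | l.Prime ∧ ¬ l ∣ N ∧ l ∉ S})
    (fun l hl => ⟨hl.1, fun hd => hl.2.1 (hd.trans hM)⟩) (χ := fun l => qCoeff f l)
    (f := hh.toCuspForm) (fun h0 => hne (by
      have := congrArg (fun F : CuspForm (CongruenceSubgroup.Gamma0 M) 2 => (F : ℍ → ℂ)) h0
      exact this)) (fun l hl => hT l hl.1 hl.2.1 hl.2.2)
  refine hf.2 M hM hMN ⟨g, hg, fun l hl hlN => ?_⟩
  refine qCoeff_eq_of_almost_all hN hM dvd_rfl hg hf.1 hS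
    (fun l hl hlN hlS => hgχ l ⟨hl, hlN, hlS⟩) l fun p hp hpl => ?_
  have := (Nat.prime_dvd_prime_iff_eq (Nat.prime_of_mem_primeFactors hp) hl).mp hpl
  subst this
  exact hlN (Nat.dvd_of_mem_primeFactors hp)

/-- **Multiplicity one**: the eigenspace of a newform (away from a finite set) is a line. -/
theorem newform_eigenspace [NeZero N] {f : CuspForm (CongruenceSubgroup.Gamma0 N) 2}
    (hf : f.IsNewform) {S : Set ℕ} (hS : S.Finite) {h : ℍ → ℂ}
    (hh : IsCF (CongruenceSubgroup.Gamma0 N) 2 h)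
    (hT : ∀ l : ℕ, l.Prime → ¬ l ∣ N → l ∉ S → heckeT 2 l h = qCoeff f l • h) :
    h = qCoeff h 1 • (f : ℍ → ℂ) := by
  have hN : N ≠ 0 := NeZero.ne N
  have hcf : IsCF (CongruenceSubgroup.Gamma0 N) 2 (f : ℍ → ℂ) := IsCF.of_class f
  set F : ℍ → ℂ := h - qCoeff h 1 • (f : ℍ → ℂ) with hF
  have hFcf : IsCF (CongruenceSubgroup.Gamma0 N) 2 F := isCF_sub hh (isCF_smul _ hcf)
  have hFT : ∀ l : ℕ, l.Prime → ¬ l ∣ N → l ∉ S → heckeT 2 l F = qCoeff f l • F := by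
    intro l hl hlN hlS
    rw [hF, heckeT_sub, heckeT_smul, hT l hl hlN hlS, heckeT_eq_of_normalized hf.1 hl hlN,
      smul_sub, smul_comm]
  have hF1 : qCoeff F 1 = 0 := by
    rw [hF, QG.qCoeff_sub (QG_of_IsCF hh) ((QG_of_IsCF hcf).smul _), QG.qCoeff_smul (QG_of_IsCF hcf),
      hf.1.qCoeff_one, mul_one, sub_self]
  obtain ⟨g, hg, hsum⟩ := main_lemma hN N.primeFactors
    (fun p hp => ⟨Nat.prime_of_mem_primeFactors hp, Nat.dvd_of_mem_primeFactors hp⟩) hFcf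
    (coeff_eq_zero_of_eigen hN hFcf hS hFT hF1)
  have hF0 : F = 0 := by
    by_contra hne
    rw [hsum] at hne
    obtain ⟨p, hp, f', hf', hT'⟩ := exists_lower hN
      (fun p hp => ⟨Nat.prime_of_mem_primeFactors hp, Nat.dvd_of_mem_primeFactors hp⟩) hg
      (A := {l | l.Prime ∧ ¬ l ∣ N ∧ l ∉ S}) (fun l hl => ⟨hl.1, hl.2.1⟩) (χ := fun l => qCoeff f l)
      hne (fun l hl => by rw [← hsum]; exact hFT l hl.1 hl.2.1 hl.2.2)
    have hpp := Nat.prime_of_mem_primeFactors hp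
    have hpN := Nat.dvd_of_mem_primeFactors hp
    have hlt : N / p < N := Nat.div_lt_self (Nat.pos_of_ne_zero hN) hpp.one_lt
    have hne0 : NeZero (N / p) := ⟨by
      have := Nat.div_pos (Nat.le_of_dvd (Nat.pos_of_ne_zero hN) hpN) hpp.pos
      omega⟩
    have := newform_eq_zero hf (Nat.div_dvd_of_dvd hpN) hlt.ne hS (IsCF.of_class f')
      (fun l hl hlN hlS => hT' l ⟨hl, hlN, hlS⟩)
    exact hf' (DFunLike.coe_injective this)
  rw [hF, sub_eq_zero] at hF0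
  exact hF0

end

end Fermat.Agent.AL
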