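import Fermat.Agent.AL.Trace

/-!
# Consequences of Atkin–Lehner theory for newforms
-/

set_option autoImplicit false

open UpperHalfPlane ModularForm Complex Filter Topology Matrix.SpecialLinearGroup
open ModularFormClass Fermat.Agent.MFLib
open scoped MatrixGroups Manifold

namespace Fermat.Agent.AL

noncomputable section

variable {N M Q q l : ℕ} {A : M2}

section newform

variable [NeZero N] {f : CuspForm (CongruenceSubgroup.Gamma0 N) 2} (hf : f.IsNewform)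
include hf

/-- `W_Q f = ± f` -/
theorem newform_W (hQ : Q ∣ N) (hA : A ∈ WS N Q) :
    ∃ ε : ℂ, ε ^ 2 = 1 ∧ sl 2 A f = ε • (f : ℍ → ℂ) := by
  have hQ0 : Q ≠ 0 := fun h => NeZero.ne N (by rw [h] at hQ; exact Nat.eq_zero_of_zero_dvd hQ)
  have hcf : IsCF (CongruenceSubgroup.Gamma0 N) 2 (f : ℍ → ℂ) := IsCF.of_class f
  have h1 := newform_eigenspace hf (S := ∅) Set.finite_empty (isCF_W hQ hQ0 hA hcf)
    (fun l hl hlN _ => by
      rw [← W_heckeT hQ hQ0 hA hl hlN hcf, heckeT_eq_of_normalized hf.1 hl hlN,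
        sl_smul (det_WS_pos hQ0 hA)])
  refine ⟨_, ?_, h1⟩
  set ε := qCoeff (sl 2 A f) 1 with hε
  have h2 := W_W hQ hQ0 hA hA hcf
  rw [h1, sl_smul (det_WS_pos hQ0 hA), h1, smul_smul, sub_self, zpow_zero, one_smul] at h2
  have h3 := congrArg (fun F => qCoeff F 1) h2
  rw [QG.qCoeff_smul (QG_of_IsCF hcf), hf.1.qCoeff_one, mul_one] at h3
  rw [pow_two, h3]

/-- `U_q f = 0` if `q² ∣ N`. -/
theorem newform_heckeU_eq_zero (hq : q.Prime) (hqN : q ^ 2 ∣ N) : heckeU 2 q (f : ℍ → ℂ) = 0 := by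
  have hN : N ≠ 0 := NeZero.ne N
  obtain ⟨m, hm⟩ := hqN
  set M := q * m with hM
  have hN' : N = M * q := by rw [hm, hM]; ring
  have hMN : M ∣ N := ⟨q, hN'⟩
  have hne : M ≠ N := by
    intro h
    have := hq.one_lt
    have hM0 : M ≠ 0 := by rintro h0; rw [h0] at h; exact hN h.symm
    have h3 : M * q = M * 1 := by rw [← hN', ← h, mul_one]
    exact this.ne' (Nat.eq_of_mul_eq_mul_left (Nat.pos_of_ne_zero hM0) h3)
  have hcf : IsCF (CongruenceSubgroup.Gamma0 N) 2 (f : ℍ → ℂ) := IsCF.of_class f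
  refine newform_eq_zero hf hMN hne (S := ∅) Set.finite_empty
    (isCF_heckeU_low (k := 2) hq (M := M) (dvd_mul_right q m) (hN' ▸ hcf)) ?_
  intro l hl hlN _
  rw [← heckeU_heckeT_comm hN (hN' ▸ dvd_mul_left q M) hl hlN hcf,
    heckeT_eq_of_normalized hf.1 hl hlN, heckeU_smul]

theorem newform_qCoeff_eq_zero (hq : q.Prime) (hqN : q ^ 2 ∣ N) : qCoeff f q = 0 := by
  have hcf : IsCF (CongruenceSubgroup.Gamma0 N) 2 (f : ℍ → ℂ) := IsCF.of_class f
  have h1 := qCoeff_heckeU (k := 2) (QG_of_IsCF hcf) hq.ne_zero 1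
  rw [newform_heckeU_eq_zero hf hq hqN, one_mul] at h1
  rw [← h1, qCoeff_eq]
  have : qe (0 : ℍ → ℂ) = 0 := QG.zero.qe_eq_zero.mpr rfl
  rw [this]; simp

/-- trace to level `N/q` for `q ‖ N` -/
theorem newform_trace (hq : q.Prime) (hN : N = M * q) (hqM : ¬ q ∣ M) (hA : A ∈ WS N q) :
    (f : ℍ → ℂ) + heckeU 2 q (sl 2 A f) = 0 := by
  have hqN : q ∣ N := hN ▸ dvd_mul_left q M
  have hcf : IsCF (CongruenceSubgroup.Gamma0 N) 2 (f : ℍ → ℂ) := IsCF.of_class f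
  have hM0 : M ≠ 0 := by rintro rfl; exact hqM (dvd_zero _)
  have hne : M ≠ N := by
    intro h
    have := hq.one_lt
    have h3 : M * q = M * 1 := by rw [← hN, ← h, mul_one]
    exact this.ne' (Nat.eq_of_mul_eq_mul_left (Nat.pos_of_ne_zero hM0) h3)
  have h1 := isCF_tr (k := 2) hq hqM (A := A) (hN ▸ hA) (f := f) (hN ▸ hcf)
  rw [sub_self, zpow_zero, one_smul] at h1
  refine newform_eq_zero hf ⟨q, hN⟩ hne (S := ∅) Set.finite_empty h1 ?_
  intro l hl hlN _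
  have hcW := isCF_W hqN hq.ne_zero hA hcf
  rw [heckeT_add, ← heckeU_heckeT_comm (NeZero.ne N) hqN hl hlN hcW,
    ← W_heckeT hqN hq.ne_zero hA hl hlN hcf, heckeT_eq_of_normalized hf.1 hl hlN,
    sl_smul (det_WS_pos hq.ne_zero hA), heckeU_smul, smul_add]

/-- `W_q f = -a_q f` and `a_q² = 1` for `q ‖ N`. -/
theorem newform_W_eq (hq : q.Prime) (hqN : q ∣ N) (hq2 : ¬ q ^ 2 ∣ N) (hA : A ∈ WS N q) :
    sl 2 A f = (-qCoeff f q) • (f : ℍ → ℂ) ∧ qCoeff f q ^ 2 = 1 := by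
  obtain ⟨M, hM⟩ := hqN
  rw [mul_comm] at hM
  have hqN : q ∣ N := hM ▸ dvd_mul_left q M
  have hqM : ¬ q ∣ M := by
    rintro ⟨m, rfl⟩
    exact hq2 ⟨m, by rw [hM]; ring⟩
  obtain ⟨ε, hε, hW⟩ := newform_W hf hqN hA
  have h1 := newform_trace hf hq hM hqM hA
  have hU : heckeU 2 q (f : ℍ → ℂ) = qCoeff f q • (f : ℍ → ℂ) := by
    have h1 := Eigen.heckeULin_eq_smul hf.1 hq hqN
    exact congrArg (fun F : CuspForm (CongruenceSubgroup.Gamma0 N) 2 => (F : ℍ → ℂ)) h1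
  have hcf : IsCF (CongruenceSubgroup.Gamma0 N) 2 (f : ℍ → ℂ) := IsCF.of_class f
  rw [hW, heckeU_smul, hU] at h1
  have h2 : (1 + ε * qCoeff f q) • (f : ℍ → ℂ) = 0 := by
    rw [add_smul, one_smul, mul_smul]; exact h1
  have h3 := congrArg (fun F => qCoeff F 1) h2
  rw [QG.qCoeff_smul (QG_of_IsCF hcf), hf.1.qCoeff_one, mul_one] at h3
  have h0 : qCoeff 0 1 = 0 := by
    rw [qCoeff_eq]
    have : qe (0 : ℍ → ℂ) = 0 := QG.zero.qe_eq_zero.mpr rfl
    rw [this]; simp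
  rw [h0] at h3
  have h4 : ε = -qCoeff f q := by linear_combination ε * h3 - qCoeff f q * hε
  refine ⟨by rw [hW, h4], ?_⟩
  rw [h4] at hε
  linear_combination hε

end newform

/-- the prelude's statement on coefficients at bad primes -/
theorem newformBadPrimeCoeff (N : ℕ) [NeZero N] : CuspForm.NewformBadPrimeCoeff N := by
  intro f hf q hq hqN
  refine ⟨fun h2 => ?_, fun h2 => newform_qCoeff_eq_zero hf hq h2⟩
  obtain ⟨M, hM⟩ := hqN
  have hqN : q ∣ N := ⟨M, hM⟩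
  have hqM : ¬ q ∣ M := by
    rintro ⟨m, rfl⟩
    exact h2 ⟨m, by rw [hM]; ring⟩
  obtain ⟨A, hA⟩ := exists_WS hqN (by
    rw [hM, Nat.mul_div_cancel_left _ hq.pos]
    exact (Nat.Prime.coprime_iff_not_dvd hq).mpr hqM)
  exact (newform_W_eq hf hq hqN h2 hA).2

/-- Every normalised eigenform comes from a newform. -/
theorem exists_newform (N : ℕ) [NeZero N] (f : CuspForm (CongruenceSubgroup.Gamma0 N) 2)
    (hf : f.IsNormalizedEigenform) :
    ∃ (M : ℕ) (_ : M ∣ N) (g : CuspForm (CongruenceSubgroup.Gamma0 M) 2), g.IsNewform ∧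
      ∀ l : ℕ, l.Prime → ¬ l ∣ N → qCoeff g l = qCoeff f l := by
  have key : ∀ (n : ℕ), n ≠ 0 → ∀ f : CuspForm (CongruenceSubgroup.Gamma0 n) 2,
      f.IsNormalizedEigenform →
      ∃ (M : ℕ) (_ : M ∣ n) (g : CuspForm (CongruenceSubgroup.Gamma0 M) 2), g.IsNewform ∧
        ∀ l : ℕ, l.Prime → ¬ l ∣ n → qCoeff g l = qCoeff f l := by
    intro n
    induction n using Nat.strong_induction_on with
    | _ n ih =>
      intro hn f hf
      by_cases hnew : f.IsNewform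
      · exact ⟨n, dvd_rfl, f, hnew, fun _ _ _ => rfl⟩
      · simp only [CuspForm.IsNewform, not_and, not_forall, not_not] at hnew
        obtain ⟨M, hM, hMn, g, hg, hgf⟩ := hnew hf
        have hlt : M < n := lt_of_le_of_ne (Nat.le_of_dvd (Nat.pos_of_ne_zero hn) hM) hMn
        obtain ⟨M', hM', g', hg', hgg'⟩ := ih M hlt (fun h0 => hn (by
          rw [h0] at hM; exact Nat.eq_zero_of_zero_dvd hM)) g hg
        exact ⟨M', hM'.trans hM, g', hg', fun l hl hln => by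
          rw [hgg' l hl (fun h => hln (h.trans hM)), hgf l hl hln]⟩
  exact key N (NeZero.ne N) f hf

/-- Every system of eigenvalues away from a set of primes, occurring in level `N`, comes from a
newform. -/
theorem exists_newform_of_eigenvector (N : ℕ) [NeZero N] {S : Set ℕ} {χ : ℕ → ℂ}
    {f : CuspForm (CongruenceSubgroup.Gamma0 N) 2} (hf : f ≠ 0)
    (h : ∀ l : ℕ, l.Prime → ¬ l ∣ N → l ∉ S → heckeT 2 l f = χ l • (f : ℍ → ℂ)) :
    ∃ (M : ℕ) (_ : M ∣ N) (g : CuspForm (CongruenceSubgroup.Gamma0 M) 2), g.IsNewform ∧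
      ∀ l : ℕ, l.Prime → ¬ l ∣ N → l ∉ S → qCoeff g l = χ l := by
  obtain ⟨g, hg, hgχ⟩ := exists_normalized (M := N) (A := {l | l.Prime ∧ ¬ l ∣ N ∧ l ∉ S})
    (fun l hl => ⟨hl.1, hl.2.1⟩) hf (fun l hl => h l hl.1 hl.2.1 hl.2.2)
  obtain ⟨M, hM, g', hg', hgg'⟩ := exists_newform N g hg
  exact ⟨M, hM, g', hg', fun l hl hlN hlS => by rw [hgg' l hl hlN, hgχ l ⟨hl, hlN, hlS⟩]⟩

end

end Fermat.Agent.AL
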