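import Fermat.Agent.AL.Forms
import Fermat.Prelude.Thm_UpperHalfPlane_qCoeff_heckeT
import Fermat.Prelude.Thm_UpperHalfPlane_qCoeff_heckeU
import Fermat.Prelude.Thm_ModularForm_periodic_heckeU_comp_ofComplex
import Fermat.Prelude.Thm_ModularForm_periodic_heckeT_comp_ofComplex
import Fermat.Prelude.Thm_ModularForm_mdifferentiable_heckeU
import Fermat.Prelude.Thm_ModularForm_mdifferentiable_heckeT
import Fermat.Prelude.Thm_ModularForm_isBoundedAtImInfty_heckeU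
import Fermat.Prelude.Thm_ModularForm_isBoundedAtImInfty_heckeT

/-!
# `q`-coefficients of `U_p`, `V_p` and depletions
-/

set_option autoImplicit false

open UpperHalfPlane ModularForm Complex Filter Topology Matrix.SpecialLinearGroup
open ModularFormClass Fermat.Agent.MFLib
open scoped MatrixGroups Manifold

namespace Fermat.Agent.AL

noncomputable section

variable {k : ℤ} {M : M2} {f g : ℍ → ℂ} {p : ℕ}

lemma per1 (hf : QG f) : Function.Periodic (f ∘ ofComplex) 1 := by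
  have := hf.per
  simpa using this

lemma QG_of_per1 (h : Function.Periodic (f ∘ ofComplex) 1) (h2 : MDiff f)
    (h3 : IsBoundedAtImInfty f) : QG f where
  per := by simpa using h
  holo := h2
  bdd := h3

lemma qCoeff_eq (f : ℍ → ℂ) (n : ℕ) : qCoeff f n = (qe f).coeff n := rfl

lemma QG.heckeU (hf : QG f) (k : ℤ) (p : ℕ) : QG (heckeU k p f) :=
  QG_of_per1 (periodic_heckeU_comp_ofComplex (per1 hf) k p) (mdifferentiable_heckeU hf.holo k p)
    (isBoundedAtImInfty_heckeU hf.bdd k p)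

lemma QG.heckeT (hf : QG f) (k : ℤ) (p : ℕ) : QG (heckeT k p f) :=
  QG_of_per1 (periodic_heckeT_comp_ofComplex (per1 hf) k p) (mdifferentiable_heckeT hf.holo k p)
    (isBoundedAtImInfty_heckeT hf.bdd k p)

lemma sl_diag_eq (hp : p ≠ 0) : sl k !![(p : ℤ), 0; 0, 1] f = ModularForm.heckeT k p f - ModularForm.heckeU k p f := by
  rw [heckeT_eq_heckeU_add, heckeDiagMatrix_eq_toGL hp]
  simp [sl]

lemma QG.V (hf : QG f) (hp : p ≠ 0) (k : ℤ) : QG (sl k !![(p : ℤ), 0; 0, 1] f) := by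
  rw [sl_diag_eq hp]
  exact (QG.heckeT hf k p).sub (QG.heckeU hf k p)

lemma qCoeff_heckeU (hf : QG f) (hp : p ≠ 0) (n : ℕ) :
    qCoeff (ModularForm.heckeU k p f) n = qCoeff f (n * p) :=
  UpperHalfPlane.qCoeff_heckeU (per1 hf) hf.holo hf.bdd k hp n

lemma qCoeff_heckeT (hf : QG f) (hp : p ≠ 0) (n : ℕ) :
    qCoeff (ModularForm.heckeT k p f) n =
      qCoeff f (n * p) + if p ∣ n then (p : ℂ) ^ (k - 1) * qCoeff f (n / p) else 0 :=
  UpperHalfPlane.qCoeff_heckeT (per1 hf) hf.holo hf.bdd k hp n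

lemma QG.qCoeff_sub (hf : QG f) (hg : QG g) (n : ℕ) : qCoeff (f - g) n = qCoeff f n - qCoeff g n := by
  rw [qCoeff_eq, hf.qe_sub hg, map_sub]; rfl

lemma QG.qCoeff_add (hf : QG f) (hg : QG g) (n : ℕ) : qCoeff (f + g) n = qCoeff f n + qCoeff g n := by
  rw [qCoeff_eq, hf.qe_add hg, map_add]; rfl

lemma QG.qCoeff_smul (hf : QG f) (c : ℂ) (n : ℕ) : qCoeff (c • f) n = c * qCoeff f n := by
  rw [qCoeff_eq, hf.qe_smul]; simp [qCoeff_eq]

lemma qCoeff_V (hf : QG f) (hp : p ≠ 0) (n : ℕ) :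
    qCoeff (sl k !![(p : ℤ), 0; 0, 1] f) n = if p ∣ n then (p : ℂ) ^ (k - 1) * qCoeff f (n / p) else 0 := by
  rw [sl_diag_eq hp, QG.qCoeff_sub (QG.heckeT hf k p) (QG.heckeU hf k p), qCoeff_heckeT hf hp,
    qCoeff_heckeU hf hp]
  ring

lemma eq_of_qCoeff (hf : QG f) (hg : QG g) (h : ∀ n, qCoeff f n = qCoeff g n) : f = g := by
  rw [← hf.qe_inj hg]
  ext n
  exact h n

lemma QG_of_HC (hf : HC k f) (hT : f ∣[k] ModularGroup.T = f) : QG f where
  per := by
    have := MFLib.periodic_of_slash_T_pow (k := k) (f := f) (M := 1) (by simpa using hT)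
    simpa using this
  holo := hf.holo
  bdd := hf.hb.bdd_self

lemma T_mem_Gamma0 (N : ℕ) : ModularGroup.T ∈ CongruenceSubgroup.Gamma0 N := by
  rw [mem_Gamma0_iff, ModularGroup.T]
  simp

lemma QG_of_IsCF {N : ℕ} (hf : IsCF (CongruenceSubgroup.Gamma0 N) k f) : QG f :=
  hf.toIsMF.qg (T_mem_Gamma0 N)

/-- the projection to the coefficients divisible by `p` -/
def ep (k : ℤ) (p : ℕ) (f : ℍ → ℂ) : ℍ → ℂ :=
  ((p : ℂ) ^ (1 - k)) • sl k !![(p : ℤ), 0; 0, 1] (heckeU k p f)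

lemma QG.ep (hf : QG f) (hp : p ≠ 0) : QG (ep k p f) :=
  (QG.V (QG.heckeU hf k p) hp k).smul _

lemma qCoeff_ep (hf : QG f) (hp : p ≠ 0) (n : ℕ) :
    qCoeff (ep k p f) n = if p ∣ n then qCoeff f n else 0 := by
  have hp' : (p : ℂ) ≠ 0 := by exact_mod_cast hp
  rw [AL.ep, QG.qCoeff_smul (QG.V (QG.heckeU hf k p) hp k), qCoeff_V (QG.heckeU hf k p) hp]
  by_cases h : p ∣ n
  · rw [if_pos h, if_pos h, qCoeff_heckeU hf hp, Nat.div_mul_cancel h, ← mul_assoc,
      ← zpow_add₀ hp', show 1 - k + (k - 1) = 0 by ring, zpow_zero, one_mul]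
  · rw [if_neg h, if_neg h, mul_zero]

/-- the depletion at a list of primes -/
def dep (k : ℤ) (L : List ℕ) (f : ℍ → ℂ) : ℍ → ℂ :=
  L.foldr (fun p h => h - ep k p h) f

lemma QG.dep (hf : QG f) (L : List ℕ) (hL : ∀ p ∈ L, p ≠ 0) : QG (dep k L f) := by
  induction L with
  | nil => exact hf
  | cons p L ih =>
    have h1 := ih fun q hq => hL q (List.mem_cons_of_mem _ hq)
    exact h1.sub (QG.ep h1 (hL p List.mem_cons_self))

lemma qCoeff_dep (hf : QG f) (L : List ℕ) (hL : ∀ p ∈ L, p ≠ 0) (n : ℕ) :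
    qCoeff (dep k L f) n = if ∃ p ∈ L, p ∣ n then 0 else qCoeff f n := by
  induction L with
  | nil => simp [AL.dep]
  | cons p L ih =>
    have hL' : ∀ q ∈ L, q ≠ 0 := fun q hq => hL q (List.mem_cons_of_mem _ hq)
    have h1 := QG.dep (k := k) hf L hL'
    have hp : p ≠ 0 := hL p List.mem_cons_self
    have h2 : AL.dep k (p :: L) f = AL.dep k L f - AL.ep k p (AL.dep k L f) := rfl
    rw [h2, QG.qCoeff_sub h1 (QG.ep h1 hp), qCoeff_ep h1 hp, ih hL']
    by_cases hpn : p ∣ n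
    · rw [if_pos hpn, sub_self, if_pos ⟨p, List.mem_cons_self, hpn⟩]
    · rw [if_neg hpn, sub_zero]
      congr 1
      simp [hpn]

lemma dep_eq_zero (hf : QG f) (L : List ℕ) (hL : ∀ p ∈ L, p ≠ 0)
    (h : ∀ n, (∀ p ∈ L, ¬ p ∣ n) → qCoeff f n = 0) : dep k L f = 0 := by
  refine eq_of_qCoeff (QG.dep hf L hL) QG.zero fun n => ?_
  rw [qCoeff_dep hf L hL]
  have h0 : qCoeff 0 n = 0 := by
    rw [qCoeff_eq]
    have : qe (0 : ℍ → ℂ) = 0 := QG.zero.qe_eq_zero.mpr rfl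
    rw [this]; simp
  rw [h0]
  split_ifs with hn
  · rfl
  · push Not at hn
    exact h n hn

end

end Fermat.Agent.AL
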