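import Fermat.Agent.AL.Main
import Fermat.Prelude.Thm_CongruenceSubgroup_one_mem_strictPeriods_Gamma0

/-!
# Removing primes not dividing the level
-/

set_option autoImplicit false

open UpperHalfPlane ModularForm Complex Filter Topology Matrix.SpecialLinearGroup
open ModularFormClass Fermat.Agent.MFLib
open scoped MatrixGroups Manifold

namespace Fermat.Agent.AL

noncomputable section

variable {k : ℤ} {f g : ℍ → ℂ} {p N : ℕ}

lemma isCF_smul (c : ℂ) (hf : IsCF (CongruenceSubgroup.Gamma0 N) k f) :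
    IsCF (CongruenceSubgroup.Gamma0 N) k (c • f) := by
  rw [isCF_iff] at hf ⊢
  exact ⟨hf.1.smul c, fun M hM hc => by rw [sl_smul (by rw [hM]; exact one_pos), hf.2 M hM hc]⟩

lemma isCF_add (hf : IsCF (CongruenceSubgroup.Gamma0 N) k f) (hg : IsCF (CongruenceSubgroup.Gamma0 N) k g) :
    IsCF (CongruenceSubgroup.Gamma0 N) k (f + g) := by
  rw [isCF_iff] at hf hg ⊢
  exact ⟨hf.1.add hg.1, fun M hM hc => by rw [sl_add, hf.2 M hM hc, hg.2 M hM hc]⟩

lemma isCF_sub (hf : IsCF (CongruenceSubgroup.Gamma0 N) k f) (hg : IsCF (CongruenceSubgroup.Gamma0 N) k g) :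
    IsCF (CongruenceSubgroup.Gamma0 N) k (f - g) := by
  rw [isCF_iff] at hf hg ⊢
  exact ⟨hf.1.sub hg.1, fun M hM hc => by rw [sl_sub, hf.2 M hM hc, hg.2 M hM hc]⟩

lemma isCF_zero : IsCF (CongruenceSubgroup.Gamma0 N) k (0 : ℍ → ℂ) := by
  rw [isCF_iff]
  exact ⟨HC.zero', fun M _ _ => sl_zero⟩

lemma qCoeff_zero_of_isCF (hN : N ≠ 0) (hf : IsCF (CongruenceSubgroup.Gamma0 N) k f) :
    qCoeff f 0 = 0 := by
  have : NeZero N := ⟨hN⟩
  have := CuspFormClass.qExpansion_coeff_zero (hf.toCuspForm) one_pos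
    (CongruenceSubgroup.one_mem_strictPeriods_Gamma0 N)
  exact this

/-- A cusp form of level prime to `p` whose coefficients are supported on multiples of `p`
vanishes. -/
theorem eq_zero_of_support (hN : N ≠ 0) (hp : p.Prime) (hpN : ¬ p ∣ N)
    (hf : IsCF (CongruenceSubgroup.Gamma0 N) k f) (h : ∀ n, ¬ p ∣ n → qCoeff f n = 0) : f = 0 := by
  have hpC : (p : ℂ) ≠ 0 := by exact_mod_cast hp.ne_zero
  have hpZ : (p : ℤ) ≠ 0 := by exact_mod_cast hp.ne_zero
  have hpZpos : (0 : ℤ) < p := by exact_mod_cast hp.pos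
  have hqf := QG_of_IsCF hf
  have hep : ep k p f = f := by
    refine eq_of_qCoeff (QG.ep hqf hp.ne_zero) hqf fun n => ?_
    rw [qCoeff_ep hqf hp.ne_zero]
    split_ifs with hn
    · rfl
    · exact (h n hn).symm
  -- invariance under `[p, j; 0, p]`
  have hgT : ∀ j : ℤ, sl k !![1, j; 0, 1] (heckeU k p f) = heckeU k p f := by
    intro j
    have h1 := isCF_heckeU (p := p) (mul_ne_zero hp.ne_zero hN) (dvd_mul_right p N)
      (isCF_mono (dvd_mul_left N p) hf)
    rw [isCF_iff] at h1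
    exact h1.2 _ (by simp [Matrix.det_fin_two_of]) (by simp)
  have hDdet : (!![(p : ℤ), 0; 0, 1] : M2).det ≠ 0 := by
    simpa [Matrix.det_fin_two_of] using hp.ne_zero
  have hDpos : 0 < (!![(p : ℤ), 0; 0, 1] : M2).det := by
    simpa [Matrix.det_fin_two_of] using hp.pos
  have hP : ∀ j : ℤ, sl k !![(p : ℤ), j; 0, p] f = (p : ℂ) ^ (k - 2) • f := by
    intro j
    have hPpos : 0 < (!![(p : ℤ), j; 0, p] : M2).det := by
      rw [Matrix.det_fin_two_of, mul_zero, sub_zero]; positivity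
    have hs := sl_scalar (k := k) (f := sl k !![1, j; 0, 1] (heckeU k p f)) hpZ
    rw [← hep, ep, sl_smul hPpos, ← sl_mul hDdet hPpos.ne', smul_comm]
    congr 1
    have h1 : (!![(p : ℤ), 0; 0, 1] * !![(p : ℤ), j; 0, p] : M2) =
        !![1, j; 0, 1] * !![(p : ℤ), 0; 0, p] * !![(p : ℤ), 0; 0, 1] := by
      apply mat_ext <;> simp [Matrix.mul_apply, Fin.sum_univ_two]
      ring
    have hsc : (!![(p : ℤ), 0; 0, p] : M2).det ≠ 0 := by
      simpa [Matrix.det_fin_two_of] using hp.ne_zero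
    have hone : (!![1, j; 0, 1] : M2).det ≠ 0 := by simp [Matrix.det_fin_two_of]
    rw [h1, sl_mul (by rw [Matrix.det_mul]; exact mul_ne_zero hone hsc) hDdet, sl_mul hone hsc, hs,
      hgT, sl_smul hDpos]
    norm_cast
  rw [isCF_iff] at hf
  obtain ⟨hHC, hinv⟩ := hf
  -- find `j` with `N j + 1 = p e`
  obtain ⟨j, e, hje⟩ : ∃ j e : ℤ, N * j + 1 = p * e := by
    have hco : IsCoprime (N : ℤ) (p : ℤ) :=
      Nat.isCoprime_iff_coprime.mpr ((Nat.Prime.coprime_iff_not_dvd hp).mpr hpN).symm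
    obtain ⟨a, b, hab⟩ := hco
    exact ⟨-a, b, by linear_combination -hab⟩
  have hkey : sl k !![1, 0; 0, (p : ℤ) ^ 2] f = (p : ℂ) ^ (k - 2) • f := by
    -- `γ P_j = [1, 0; 0, p²] γ₂`, `γ₂ = [p, j; N, e]`
    have hA : (!![1, 0; 0, (p : ℤ) ^ 2] : M2).det ≠ 0 := by
      rw [Matrix.det_fin_two_of]; simpa using hp.ne_zero
    have hγ₂ : (!![(p : ℤ), j; N, e] : M2).det = 1 := by
      rw [Matrix.det_fin_two_of]; linear_combination -hje
    have hγ₂' : (!![e, -j; -(N : ℤ), p] : M2).det = 1 := by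
      rw [Matrix.det_fin_two_of]; linear_combination -hje
    have hγ : (!![1, 0; p * (N : ℤ), 1] : M2).det = 1 := by simp [Matrix.det_fin_two_of]
    have hPdet : (!![(p : ℤ), j; 0, p] : M2).det ≠ 0 := by
      rw [Matrix.det_fin_two_of, mul_zero, sub_zero]; positivity
    have h1 : (!![1, 0; p * (N : ℤ), 1] * !![(p : ℤ), j; 0, p] : M2) =
        !![1, 0; 0, (p : ℤ) ^ 2] * !![(p : ℤ), j; N, e] := by
      apply mat_ext <;> simp [Matrix.mul_apply, Fin.sum_univ_two]
      · ring
      · linear_combination (p : ℤ) * hje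
    have h2 : sl k !![(p : ℤ), j; N, e] (sl k !![1, 0; 0, (p : ℤ) ^ 2] f) =
        (p : ℂ) ^ (k - 2) • f := by
      rw [← sl_mul hA (by rw [hγ₂]; exact one_ne_zero), ← h1,
        sl_mul (by rw [hγ]; exact one_ne_zero) hPdet,
        hinv _ hγ (by simp), hP]
    have h3 : (!![(p : ℤ), j; N, e] * !![e, -j; -(N : ℤ), p] : M2) = 1 := by
      apply mat_ext <;> simp [Matrix.mul_apply, Fin.sum_univ_two]
      · linear_combination -hje
      · ring
      · ring
      · linear_combination -hje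
    have h4 := congrArg (sl k !![e, -j; -(N : ℤ), p]) h2
    rw [← sl_mul (by rw [hγ₂]; exact one_ne_zero) (by rw [hγ₂']; exact one_ne_zero), h3, sl_one,
      sl_smul (by rw [hγ₂']; exact one_pos), hinv _ hγ₂' (by simp)] at h4
    exact h4
  have hV : sl k !![((p ^ 2 : ℕ) : ℤ), 0; 0, 1] f = (p : ℂ) ^ (k - 2) • f := by
    have hA : (!![1, 0; 0, (p : ℤ) ^ 2] : M2).det ≠ 0 := by
      rw [Matrix.det_fin_two_of]; simpa using hp.ne_zero
    have hBpos : 0 < (!![((p ^ 2 : ℕ) : ℤ), 0; 0, 1] : M2).det := by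
      rw [Matrix.det_fin_two_of, mul_one, mul_zero, sub_zero]
      exact_mod_cast pow_pos hp.pos 2
    have h1 := congrArg (sl k !![((p ^ 2 : ℕ) : ℤ), 0; 0, 1]) hkey
    have hs := sl_scalar (k := k) (f := f) (n := (p : ℤ) ^ 2) (pow_ne_zero 2 hpZ)
    have h2 : (!![1, 0; 0, (p : ℤ) ^ 2] * !![((p ^ 2 : ℕ) : ℤ), 0; 0, 1] : M2) =
        !![(p : ℤ) ^ 2, 0; 0, (p : ℤ) ^ 2] := by
      apply mat_ext <;> simp [Matrix.mul_apply, Fin.sum_univ_two]
    rw [← sl_mul hA hBpos.ne', h2, hs, sl_smul hBpos] at h1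
    have h3 : (((p : ℤ) ^ 2 : ℤ) : ℂ) ^ (k - 2) = (p : ℂ) ^ (k - 2) * (p : ℂ) ^ (k - 2) := by
      push_cast
      rw [← zpow_add₀ hpC, ← zpow_natCast, ← zpow_mul]
      congr 1
      push_cast
      ring
    rw [h3, mul_smul] at h1
    exact (smul_right_injective _ (zpow_ne_zero (k - 2) hpC) h1).symm
  refine eq_of_qCoeff hqf QG.zero fun n => ?_
  have h0 : qCoeff 0 n = 0 := by
    rw [qCoeff_eq]
    have : qe (0 : ℍ → ℂ) = 0 := QG.zero.qe_eq_zero.mpr rfl
    rw [this]; simp
  rw [h0]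
  induction n using Nat.strong_induction_on with
  | _ n ih =>
    rcases Nat.eq_zero_or_pos n with rfl | hn
    · exact qCoeff_zero_of_isCF hN (isCF_iff.mpr ⟨hHC, hinv⟩)
    · have h1 := qCoeff_V hqf (pow_ne_zero 2 hp.ne_zero) (k := k) n
      rw [hV, QG.qCoeff_smul hqf] at h1
      have h2 : (p : ℂ) ^ (k - 2) * qCoeff f n = 0 := by
        rw [h1]
        split_ifs with hd
        · have hlt : n / p ^ 2 < n := Nat.div_lt_self hn (Nat.one_lt_pow (by norm_num) hp.one_lt)
          have hz : qCoeff 0 (n / p ^ 2) = 0 := by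
            rw [qCoeff_eq]
            have : qe (0 : ℍ → ℂ) = 0 := QG.zero.qe_eq_zero.mpr rfl
            rw [this]; simp
          rw [ih _ hlt hz, mul_zero]
        · rfl
      exact (mul_eq_zero.mp h2).resolve_left (zpow_ne_zero _ hpC)

/-- Depletions of forms are forms, whose level is only divisible by primes dividing the original
level or in the list. -/
lemma isCF_dep (hN : N ≠ 0) (hf : IsCF (CongruenceSubgroup.Gamma0 N) k f) (L : List ℕ)
    (hL : ∀ q ∈ L, q ≠ 0) :
    ∃ N₁, N₁ ≠ 0 ∧ (∀ p : ℕ, p.Prime → p ∣ N₁ → p ∣ N ∨ ∃ q ∈ L, p ∣ q) ∧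
      IsCF (CongruenceSubgroup.Gamma0 N₁) k (dep k L f) := by
  induction L with
  | nil => exact ⟨N, hN, fun p _ h => Or.inl h, hf⟩
  | cons q L ih =>
    obtain ⟨N₁, h1, h2, h3⟩ := ih fun q hq => hL q (List.mem_cons_of_mem _ hq)
    have hq : q ≠ 0 := hL q List.mem_cons_self
    refine ⟨q * (q * N₁), mul_ne_zero hq (mul_ne_zero hq h1), ?_, ?_⟩
    · intro p hp hd
      rcases hp.dvd_mul.mp hd with h | h
      · exact Or.inr ⟨q, List.mem_cons_self, h⟩
      rcases hp.dvd_mul.mp h with h | h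
      · exact Or.inr ⟨q, List.mem_cons_self, h⟩
      rcases h2 p hp h with h | ⟨r, hr, hpr⟩
      · exact Or.inl h
      · exact Or.inr ⟨r, List.mem_cons_of_mem _ hr, hpr⟩
    · have h4 : dep k (q :: L) f = dep k L f - ep k q (dep k L f) := rfl
      rw [h4]
      refine isCF_sub (isCF_mono ⟨q * q, by ring⟩ h3) (isCF_smul _ (isCF_V hq ?_))
      exact isCF_heckeU (mul_ne_zero hq h1) (dvd_mul_right q N₁) (isCF_mono (dvd_mul_left _ _) h3)

/-- If the coefficients `a_n` of a cusp form of level `N` vanish for `n` prime to a finite set of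
primes, then already for `n` prime to those of them dividing `N`. -/
theorem coeff_zero_of_coeff_zero (hN : N ≠ 0) (hf : IsCF (CongruenceSubgroup.Gamma0 N) k f)
    (s t : Finset ℕ) (hs : ∀ p ∈ s, p.Prime) (ht : ∀ p ∈ t, p.Prime ∧ ¬ p ∣ N)
    (h : ∀ n, (∀ p ∈ s ∪ t, ¬ p ∣ n) → qCoeff f n = 0) :
    ∀ n, (∀ p ∈ s, ¬ p ∣ n) → qCoeff f n = 0 := by
  classical
  induction t using Finset.induction_on with
  | empty => simpa using h
  | insert p t hpt ih =>
    obtain ⟨hp, hpN⟩ := ht p (Finset.mem_insert_self p t)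
    by_cases hps : p ∈ s
    · refine ih (fun q hq => ht q (Finset.mem_insert_of_mem hq)) ?_
      have : s ∪ insert p t = s ∪ t := by
        ext x
        simp only [Finset.mem_union, Finset.mem_insert]
        constructor
        · rintro (h | rfl | h)
          · exact Or.inl h
          · exact Or.inl hps
          · exact Or.inr h
        · tauto
      rwa [this] at h
    refine ih (fun q hq => ht q (Finset.mem_insert_of_mem hq)) ?_
    have hL : ∀ q ∈ (s ∪ t).toList, q.Prime := by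
      intro q hq
      rw [Finset.mem_toList, Finset.mem_union] at hq
      rcases hq with h | h
      · exact hs q h
      · exact (ht q (Finset.mem_insert_of_mem h)).1
    obtain ⟨N₁, hN₁, hdvd, hcf⟩ := isCF_dep hN hf (s ∪ t).toList (fun q hq => (hL q hq).ne_zero)
    have hpN₁ : ¬ p ∣ N₁ := by
      intro hd
      rcases hdvd p hp hd with h | ⟨q, hq, hpq⟩
      · exact hpN h
      · have : p = q := (Nat.prime_dvd_prime_iff_eq hp (hL q hq)).mp hpq
        subst this
        rw [Finset.mem_toList, Finset.mem_union] at hq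
        exact hq.elim hps hpt
    have hqf := QG_of_IsCF hf
    have hdep : dep k (s ∪ t).toList f = 0 := by
      refine eq_zero_of_support hN₁ hp hpN₁ hcf fun n hn => ?_
      rw [qCoeff_dep hqf _ (fun q hq => (hL q hq).ne_zero)]
      split_ifs with hex
      · rfl
      · push Not at hex
        refine h n fun q hq => ?_
        rw [Finset.mem_union, Finset.mem_insert] at hq
        rcases hq with hq | rfl | hq
        · exact hex q (by rw [Finset.mem_toList, Finset.mem_union]; exact Or.inl hq)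
        · exact hn
        · exact hex q (by rw [Finset.mem_toList, Finset.mem_union]; exact Or.inr hq)
    intro n hn
    have h1 := qCoeff_dep (k := k) hqf (s ∪ t).toList (fun q hq => (hL q hq).ne_zero) n
    rw [hdep, if_neg (by
      push Not
      intro q hq
      exact hn q (by rwa [Finset.mem_toList] at hq))] at h1
    rw [← h1, qCoeff_eq]
    have : qe (0 : ℍ → ℂ) = 0 := QG.zero.qe_eq_zero.mpr rfl
    rw [this]; simp

end

end Fermat.Agent.AL
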