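import Fermat.Agent.AL.WOp

/-!
# Traces
-/

set_option autoImplicit false

open UpperHalfPlane ModularForm Complex Filter Topology Matrix.SpecialLinearGroup
open ModularFormClass Fermat.Agent.MFLib
open scoped MatrixGroups Manifold

namespace Fermat.Agent.AL

noncomputable section

variable {k : ℤ} {f g h : ℍ → ℂ} {p N M Q l : ℕ}

/-- elements of `SL(2, ℤ)` from matrices -/
def mkSL (A : M2) (h : A.det = 1) : SL(2, ℤ) := ⟨A, h⟩

@[simp] lemma coe_mkSL (A : M2) (h : A.det = 1) : (mkSL A h : M2) = A := rfl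

/-- Representatives for `Γ₀(N) \ Γ₀(M)`. -/
structure IsReps (N M : ℕ) {ι : Type*} (r : ι → SL(2, ℤ)) : Prop where
  mem : ∀ i, r i ∈ CongruenceSubgroup.Gamma0 M
  inj : ∀ i j, r i * (r j)⁻¹ ∈ CongruenceSubgroup.Gamma0 N → i = j
  surj : ∀ γ ∈ CongruenceSubgroup.Gamma0 M, ∃ i, γ * (r i)⁻¹ ∈ CongruenceSubgroup.Gamma0 N

theorem isCF_sum_reps {ι : Type*} [Fintype ι] {r : ι → SL(2, ℤ)} (hr : IsReps N M r)
    (hf : IsCF (CongruenceSubgroup.Gamma0 N) k f) :
    IsCF (CongruenceSubgroup.Gamma0 M) k (∑ i, f ∣[k] (r i)) := by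
  have h1 : HC k (∑ i, f ∣[k] (r i)) := HC.sum fun i _ => (HC.of_isCF hf).slash_SL _
  exact ⟨⟨h1.hb, fun γ hγ => sum_reps_slash r hr.mem hr.inj hr.surj hf.slash hγ⟩, h1.zero⟩

/-- Traces commute with `T_ℓ`. -/
theorem sum_reps_heckeT {ι : Type*} [Fintype ι] {r : ι → SL(2, ℤ)} (hr : IsReps N M r)
    (hMN : M ∣ N) (hl : l.Prime) (hlN : ¬ l ∣ N) (hf : IsCF (CongruenceSubgroup.Gamma0 N) k f) :
    ∑ i, (heckeT k l f) ∣[k] (r i) = heckeT k l (∑ i, f ∣[k] (r i)) := by
  have hl0 := hl.ne_zero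
  have hlM : ¬ l ∣ M := fun h => hlN (h.trans hMN)
  have hcoN : IsCoprime (N : ℤ) (l : ℤ) := isCoprime_of_not_dvd hl hlN
  have hcoM : IsCoprime (M : ℤ) (l : ℤ) := isCoprime_of_not_dvd hl hlM
  rw [isCF_iff] at hf
  -- choose decompositions
  have hex : ∀ z : ι × Option (Fin l), ∃ z' : ι × Option (Fin l), ∃ γ : SL(2, ℤ),
      γ ∈ CongruenceSubgroup.Gamma0 N ∧
      dl l z.2 * (r z.1 : M2) = (γ : M2) * (r z'.1 : M2) * dl l z'.2 := by
    rintro ⟨i, x⟩
    obtain ⟨y, A, hA⟩ := exists_dl_mul hl (r i : M2) x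
    have hdet : A.det = 1 := by rw [det_eq_of_dl_mul hl0 hA]; exact (r i).det_coe
    have hAM : (M : ℤ) ∣ A 1 0 := (dvd_c hA hcoM).mpr (mem_Gamma0_iff.mp (hr.mem i))
    obtain ⟨i', hi'⟩ := hr.surj (mkSL A hdet) (mem_Gamma0_iff.mpr hAM)
    refine ⟨(i', y), _, hi', ?_⟩
    have h1 : ((mkSL A hdet * (r i')⁻¹ : SL(2, ℤ)) : M2) * (r i' : M2) = A := by
      rw [← Matrix.SpecialLinearGroup.coe_mul, inv_mul_cancel_right, coe_mkSL]
    rw [h1]
    exact hA
  choose Φ γ hγ hΦ using hex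
  have hinj : Function.Injective Φ := by
    intro z w hzw
    have h1 := hΦ z
    have h2 := hΦ w
    rw [hzw] at h1
    -- `δ_x r_i = γ B`, `δ_x' r_i' = γ' B`
    have h3 : dl l z.2 * ((r z.1 * (r w.1)⁻¹ : SL(2, ℤ)) : M2) =
        ((γ z * (γ w)⁻¹ : SL(2, ℤ)) : M2) * dl l w.2 := by
      have h4 : (((γ w)⁻¹ : SL(2, ℤ)) : M2) * (dl l w.2 * (r w.1 : M2)) =
          (r (Φ w).1 : M2) * dl l (Φ w).2 := by
        rw [h2, ← Matrix.mul_assoc, ← Matrix.mul_assoc, ← Matrix.SpecialLinearGroup.coe_mul,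
          inv_mul_cancel]
        simp
      rw [Matrix.SpecialLinearGroup.coe_mul, Matrix.SpecialLinearGroup.coe_mul, ← Matrix.mul_assoc,
        h1, Matrix.mul_assoc (γ z : M2), ← h4]
      simp only [Matrix.mul_assoc]
      rw [← Matrix.SpecialLinearGroup.coe_mul, mul_inv_cancel, Matrix.SpecialLinearGroup.coe_one,
        Matrix.mul_one]
    have h5 : (N : ℤ) ∣ (r z.1 * (r w.1)⁻¹ : SL(2, ℤ)) 1 0 := by
      refine (dvd_c h3 hcoN).mp ?_
      exact mem_Gamma0_iff.mp ((CongruenceSubgroup.Gamma0 N).mul_mem (hγ z)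
        ((CongruenceSubgroup.Gamma0 N).inv_mem (hγ w)))
    have h6 : z.1 = w.1 := hr.inj _ _ (mem_Gamma0_iff.mpr h5)
    have h7 : z.2 = w.2 := by
      rw [h6, mul_inv_cancel, Matrix.SpecialLinearGroup.coe_one, Matrix.mul_one] at h3
      refine dl_inj_aux hl (D := 1) ?_ (A := ((γ z * (γ w)⁻¹ : SL(2, ℤ)) : M2)) ?_
      · exact fun h => (Nat.prime_iff_prime_int.mp hl).not_isUnit (isUnit_of_dvd_one h)
      · rw [one_smul]; exact h3
    exact Prod.ext h6 h7
  have hbij : Function.Bijective Φ := Finite.injective_iff_bijective.mp hinj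
  have hL : ∑ i, (heckeT k l f) ∣[k] (r i) =
      ∑ z : ι × Option (Fin l), sl k (dl l z.2 * (r z.1 : M2)) f := by
    rw [Fintype.sum_prod_type]
    refine Finset.sum_congr rfl fun i _ => ?_
    rw [heckeT_eq_sum hl0, ← sl_SL, sl_sum]
    refine Finset.sum_congr rfl fun x _ => ?_
    rw [← sl_mul (det_dl_ne hl0 x) (by rw [(r i).det_coe]; exact one_ne_zero)]
  have hR : heckeT k l (∑ i, f ∣[k] (r i)) =
      ∑ z : ι × Option (Fin l), sl k ((r z.1 : M2) * dl l z.2) f := by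
    rw [Fintype.sum_prod_type_right, heckeT_eq_sum hl0]
    refine Finset.sum_congr rfl fun x _ => ?_
    rw [sl_sum]
    refine Finset.sum_congr rfl fun i _ => ?_
    rw [← sl_SL, ← sl_mul (by rw [(r i).det_coe]; exact one_ne_zero) (det_dl_ne hl0 x)]
  rw [hL, hR, ← (Equiv.ofBijective Φ hbij).sum_comp
    (fun z : ι × Option (Fin l) => sl k ((r z.1 : M2) * dl l z.2) f)]
  refine Finset.sum_congr rfl fun z _ => ?_
  have hd1 : (r (Φ z).1 : M2).det ≠ 0 := by rw [(r (Φ z).1).det_coe]; exact one_ne_zero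
  have hd2 : (γ z : M2).det ≠ 0 := by rw [(γ z).det_coe]; exact one_ne_zero
  rw [Equiv.ofBijective_apply, hΦ z, Matrix.mul_assoc, sl_mul hd2 (by
    rw [Matrix.det_mul]; exact mul_ne_zero hd1 (det_dl_ne hl0 _)),
    hf.2 _ (γ z).det_coe (mem_Gamma0_iff.mp (hγ z))]

/-- representatives in the case `q ∣ N / q` -/
lemma isReps_low {q : ℕ} (hq : q.Prime) (hM : M ≠ 0) (hqM : q ∣ M) :
    IsReps (M * q) M (fun j : Fin q => lowU ((j : ℕ) * M)) := by
  have hMZ : (M : ℤ) ≠ 0 := by exact_mod_cast hM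
  have hinvl : ∀ x : ℤ, (((lowU x)⁻¹ : SL(2, ℤ)) : M2) = !![1, 0; -x, 1] := by
    intro x
    rw [Matrix.SpecialLinearGroup.coe_inv, coe_lowU, Matrix.adjugate_fin_two_of]
    simp
  refine ⟨fun j => ?_, fun i j hij => ?_, fun γ hγ => ?_⟩
  · rw [mem_Gamma0_iff, coe_lowU]
    simp
  · rw [mem_Gamma0_iff, Matrix.SpecialLinearGroup.coe_mul, coe_lowU, hinvl] at hij
    simp [Matrix.mul_apply, Fin.sum_univ_two] at hij
    apply fin_eq_of_dvd
    obtain ⟨c, hc⟩ := hij
    exact ⟨c, mul_right_cancel₀ hMZ (by linear_combination hc)⟩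
  · obtain ⟨c, hc⟩ := mem_Gamma0_iff.mp hγ
    have hdet := γ.det_coe
    rw [Matrix.det_fin_two] at hdet
    have hd : ¬ (q : ℤ) ∣ γ 1 1 := by
      rintro ⟨d', hd'⟩
      obtain ⟨m, hm⟩ := Int.natCast_dvd_natCast.mpr hqM
      have : (q : ℤ) ∣ 1 := ⟨γ 0 0 * d' - γ 0 1 * (m * c), by
        rw [hc, hd', hm] at hdet; linear_combination -hdet⟩
      exact (Nat.prime_iff_prime_int.mp hq).not_isUnit (isUnit_of_dvd_one this)
    obtain ⟨j, e, hj⟩ := exists_fin_solve hq hd c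
    refine ⟨j, ?_⟩
    rw [mem_Gamma0_iff, Matrix.SpecialLinearGroup.coe_mul, hinvl]
    simp [Matrix.mul_apply, Fin.sum_univ_two]
    rw [hc]
    exact ⟨e, by linear_combination (M : ℤ) * hj⟩

/-- The representatives attached to an Atkin–Lehner matrix in the case `q ‖ N`. -/
lemma exists_reps_W {q : ℕ} (hq : q.Prime) (hqM : ¬ q ∣ M) {A : M2}
    (hA : A ∈ WS (M * q) q) :
    ∃ r : Option (Fin q) → SL(2, ℤ), IsReps (M * q) M r ∧ r none = 1 ∧
      ∀ j : Fin q, A * dl q (some j) = !![(q : ℤ), 0; 0, q] * (r (some j) : M2) := by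
  obtain ⟨h1, ⟨a, ha⟩, ⟨c, hc⟩, ⟨d, hd⟩⟩ := hA
  have hM : M ≠ 0 := by rintro rfl; exact hqM (dvd_zero _)
  have hMZ : (M : ℤ) ≠ 0 := by exact_mod_cast hM
  have hqZ : (q : ℤ) ≠ 0 := by exact_mod_cast hq.ne_zero
  have hpp := Nat.prime_iff_prime_int.mp hq
  have hqM' : ¬ (q : ℤ) ∣ M := fun h => hqM (Int.natCast_dvd_natCast.mp h)
  have hco : IsCoprime (M : ℤ) (q : ℤ) := isCoprime_of_not_dvd hq hqM
  rw [Matrix.det_fin_two, ha, hc, hd] at h1
  push_cast at hc h1
  have h2 : (q : ℤ) * a * d - M * c * A 0 1 = 1 := mul_left_cancel₀ hqZ (by linear_combination h1)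
  have hqc : ¬ (q : ℤ) ∣ c := by
    rintro ⟨c', hc'⟩
    have : (q : ℤ) ∣ 1 := ⟨a * d - M * c' * A 0 1, by rw [hc'] at h2; linear_combination -h2⟩
    exact hpp.not_isUnit (isUnit_of_dvd_one this)
  have hdet : ∀ j : Fin q, (!![a, a * j + A 0 1; M * c, M * c * j + q * d] : M2).det = 1 := by
    intro j
    rw [Matrix.det_fin_two_of]
    linear_combination h2
  refine ⟨fun x => x.elim 1 fun j => mkSL _ (hdet j), ⟨?_, ?_, ?_⟩, rfl, ?_⟩
  · intro x
    cases x with
    | none => exact Subgroup.one_mem _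
    | some j =>
      rw [mem_Gamma0_iff]
      simp only [Option.elim, coe_mkSL]
      simp
  · intro x y hxy
    have key : ∀ j : Fin q, ¬ ((M * q : ℕ) : ℤ) ∣ M * c := by
      intro j hd
      push_cast at hd
      exact hqc (by
        obtain ⟨e, he⟩ := hd
        exact ⟨e, mul_left_cancel₀ hMZ (by linear_combination he)⟩)
    cases x with
    | none =>
      cases y with
      | none => rfl
      | some j =>
        exfalso
        simp only [Option.elim, one_mul] at hxy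
        have h3 := (CongruenceSubgroup.Gamma0 (M * q)).inv_mem hxy
        rw [inv_inv, mem_Gamma0_iff] at h3
        exact key j (by simpa using h3)
    | some i =>
      cases y with
      | none =>
        exfalso
        simp only [Option.elim, inv_one, mul_one] at hxy
        rw [mem_Gamma0_iff] at hxy
        exact key i (by simpa using hxy)
      | some j =>
        simp only [Option.elim] at hxy
        rw [mem_Gamma0_iff, Matrix.SpecialLinearGroup.coe_mul, Matrix.SpecialLinearGroup.coe_inv,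
          Matrix.adjugate_fin_two] at hxy
        simp [Matrix.mul_apply, Fin.sum_univ_two] at hxy
        congr 1
        symm
        apply fin_eq_of_dvd
        obtain ⟨e, he⟩ := hxy
        have h3 : (q : ℤ) ∣ (M * c * c) * (((j : ℕ) : ℤ) - ((i : ℕ) : ℤ)) :=
          ⟨e, mul_left_cancel₀ hMZ (by linear_combination he)⟩
        rcases hpp.dvd_mul.mp h3 with h4 | h4
        · rcases hpp.dvd_mul.mp h4 with h5 | h5
          · rcases hpp.dvd_mul.mp h5 with h6 | h6
            · exact absurd h6 hqM'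
            · exact absurd h6 hqc
          · exact absurd h5 hqc
        · exact h4
  · intro γ hγ
    obtain ⟨u, hu⟩ := mem_Gamma0_iff.mp hγ
    by_cases hqu : (q : ℤ) ∣ u
    · refine ⟨none, ?_⟩
      simp only [Option.elim, inv_one, mul_one]
      rw [mem_Gamma0_iff, hu]
      obtain ⟨u', hu'⟩ := hqu
      exact ⟨u', by rw [hu']; push_cast; ring⟩
    · have h3 : ¬ (q : ℤ) ∣ c * (u * M) := by
        intro h
        rcases hpp.dvd_mul.mp h with h | h
        · exact hqc h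
        · rcases hpp.dvd_mul.mp h with h | h
          · exact hqu h
          · exact hqM' h
      obtain ⟨j, e, hj⟩ := exists_fin_solve hq h3 (γ 1 1 * c)
      refine ⟨some j, ?_⟩
      simp only [Option.elim]
      rw [mem_Gamma0_iff, Matrix.SpecialLinearGroup.coe_mul, Matrix.SpecialLinearGroup.coe_inv,
        Matrix.adjugate_fin_two]
      simp [Matrix.mul_apply, Fin.sum_univ_two]
      rw [hu]
      exact ⟨u * d - e, by linear_combination (-(M : ℤ)) * hj⟩
  · intro j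
    apply mat_ext <;> simp [dl, Matrix.mul_apply, Fin.sum_univ_two]
    · rw [ha]
    · rw [ha]; ring
    · rw [hc]; ring
    · rw [hc, hd]; ring

/-- The trace to level `N/q`, in the case `q ‖ N`, is `f + q^{2-k} U_q W_q f`. -/
theorem sum_reps_W_eq {q : ℕ} (hq : q.Prime) {A : M2}
    (hA : A ∈ WS (M * q) q) {r : Option (Fin q) → SL(2, ℤ)} (hr1 : r none = 1)
    (hr : ∀ j : Fin q, A * dl q (some j) = !![(q : ℤ), 0; 0, q] * (r (some j) : M2)) (f : ℍ → ℂ) :
    ∑ x, f ∣[k] (r x) = f + (q : ℂ) ^ (2 - k) • heckeU k q (sl k A f) := by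
  have hq0 := hq.ne_zero
  have hqC : (q : ℂ) ≠ 0 := by exact_mod_cast hq0
  have hsc : (!![(q : ℤ), 0; 0, q] : M2).det ≠ 0 := by
    simpa [Matrix.det_fin_two_of] using hq0
  rw [Fintype.sum_option, hr1, SlashAction.slash_one, heckeU_eq_sum hq0, Finset.smul_sum]
  congr 1
  refine Finset.sum_congr rfl fun j _ => ?_
  have h3 := sl_scalar (k := k) (f := f) (n := (q : ℤ)) (by exact_mod_cast hq0)
  have hd : ((r (some j) : SL(2, ℤ)) : M2).det ≠ 0 := by
    rw [(r (some j)).det_coe]; exact one_ne_zero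
  rw [← sl_mul (det_WS_ne hq0 hA) (det_dl_ne hq0 _), hr j, sl_mul hsc hd, h3,
    sl_smul (by rw [(r (some j)).det_coe]; exact one_pos), smul_smul, sl_SL]
  have h4 : (q : ℂ) ^ (2 - k) * (((q : ℤ)) : ℂ) ^ (k - 2) = 1 := by
    push_cast
    rw [← zpow_add₀ hqC, show 2 - k + (k - 2) = 0 by ring, zpow_zero]
  rw [h4, one_smul]

theorem isCF_tr {q : ℕ} (hq : q.Prime) (hqM : ¬ q ∣ M) {A : M2}
    (hA : A ∈ WS (M * q) q) (hf : IsCF (CongruenceSubgroup.Gamma0 (M * q)) k f) :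
    IsCF (CongruenceSubgroup.Gamma0 M) k (f + (q : ℂ) ^ (2 - k) • heckeU k q (sl k A f)) := by
  obtain ⟨r, hr, hr1, hr2⟩ := exists_reps_W hq hqM hA
  rw [← sum_reps_W_eq hq hA hr1 hr2 f]
  exact isCF_sum_reps hr hf

theorem isCF_tr_low {q : ℕ} (hq : q.Prime) (hM : M ≠ 0) (hqM : q ∣ M)
    (hf : IsCF (CongruenceSubgroup.Gamma0 (M * q)) k f) :
    IsCF (CongruenceSubgroup.Gamma0 M) k (∑ j : Fin q, f ∣[k] (lowU ((j : ℕ) * M))) :=
  isCF_sum_reps (isReps_low hq hM hqM) hf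

/-- `U_q` lowers the level if `q² ∣ N`. -/
theorem isCF_heckeU_low {q : ℕ} (hq : q.Prime) (hqM : q ∣ M)
    (hf : IsCF (CongruenceSubgroup.Gamma0 (M * q)) k f) :
    IsCF (CongruenceSubgroup.Gamma0 M) k (heckeU k q f) := by
  have hq0 := hq.ne_zero
  rw [isCF_iff] at hf ⊢
  refine ⟨?_, fun γ h1 h2 => ?_⟩
  · rw [heckeU_eq_sum hq0]
    exact HC.sum fun j _ => hf.1.sl _
  · have hdet : ¬ (q : ℤ) ∣ γ.det := by
      rw [h1]
      exact fun h => (Nat.prime_iff_prime_int.mp hq).not_isUnit (isUnit_of_dvd_one h)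
    have hγ0 : γ.det ≠ 0 := by rw [h1]; exact one_ne_zero
    choose σ A hA using fun x => exists_dl_mul_some hq hdet
      ((Int.natCast_dvd_natCast.mpr hqM).trans h2) x
    have hinj : Function.Injective σ := by
      intro x x' hxx
      have h1 := hA x
      have h2 := hA x'
      rw [← hxx] at h2
      exact Option.some_injective _ (dl_inj hq hdet hγ0 (det_eq_of_dl_mul hq0 h2) h1 h2)
    have hbij : Function.Bijective σ := Finite.injective_iff_bijective.mp hinj
    rw [heckeU_eq_sum hq0, sl_sum,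
      ← (Equiv.ofBijective σ hbij).sum_comp (fun y => sl k (dl q (some y)) f)]
    refine Finset.sum_congr rfl fun x _ => ?_
    obtain ⟨-, -, e3, -⟩ := entries (hA x)
    simp [dl] at e3
    have hdA := det_eq_of_dl_mul hq0 (hA x)
    rw [Equiv.ofBijective_apply, ← sl_mul (det_dl_ne hq0 _) hγ0, hA x,
      sl_mul (by rw [hdA]; exact hγ0) (det_dl_ne hq0 _), hf.2 _ (by rw [hdA, h1]) (by
        rw [← e3]
        push_cast
        rw [mul_comm]
        exact mul_dvd_mul_left _ h2)]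

lemma heckeU_heckeT_comm {q : ℕ} (hN : N ≠ 0) (hqN : q ∣ N) (hl : l.Prime) (hlN : ¬ l ∣ N)
    (hf : IsCF (CongruenceSubgroup.Gamma0 N) k f) :
    heckeU k q (heckeT k l f) = heckeT k l (heckeU k q f) := by
  have : NeZero N := ⟨hN⟩
  have h := CuspForm.heckeTLin_heckeULin_comm k hl hlN hqN
  have h2 := congrArg (fun φ : Module.End ℂ (CuspForm (CongruenceSubgroup.Gamma0 N) k) =>
    (φ hf.toCuspForm : ℍ → ℂ)) h
  exact h2.symm

end

end Fermat.Agent.AL
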