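import Fermat.Agent.AL.Bound

/-!
# Uniqueness of the level of a newform
-/

set_option autoImplicit false

open UpperHalfPlane ModularForm Complex Filter Topology Matrix.SpecialLinearGroup
open ModularFormClass Fermat.Agent.MFLib
open scoped MatrixGroups Manifold

namespace Fermat.Agent.AL

noncomputable section

variable {k : ℤ} {N M Q R p q b c : ℕ} {f g G : ℍ → ℂ} {A : M2}

lemma WS_mono {N' : ℕ} (h : N ∣ N') (hA : A ∈ WS N' Q) : A ∈ WS N Q :=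
  ⟨hA.1, hA.2.1, (Int.natCast_dvd_natCast.mpr h).trans hA.2.2.1, hA.2.2.2⟩

/-- `W_Q` commutes with the projection `e_q`, `q ∤ Q`. -/
lemma ep_W (hQ : Q ∣ N) (hN : N ≠ 0) (hq : q.Prime) (hqQ : ¬ q ∣ Q) (hA : A ∈ WS (q * (q * N)) Q)
    (hG : IsCF (CongruenceSubgroup.Gamma0 N) k G) :
    sl k A (ep k q G) = ep k q (sl k A G) := by
  have hQ0 : Q ≠ 0 := fun h => hN (by rw [h] at hQ; exact Nat.eq_zero_of_zero_dvd hQ)
  have hq0 := hq.ne_zero
  obtain ⟨h1, h2, ⟨γ, hγ⟩, h4⟩ := hA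
  push_cast at hγ
  set A' : M2 := !![A 0 0, q * A 0 1; q * N * γ, A 1 1] with hA'
  have hA'mem : A' ∈ WS (q * N) Q := by
    refine ⟨?_, ?_, ?_, ?_⟩
    · rw [hA', Matrix.det_fin_two_of]
      rw [Matrix.det_fin_two, hγ] at h1
      linear_combination h1
    · simpa [hA'] using h2
    · simp [hA']
    · simpa [hA'] using h4
  have hmul : !![(q : ℤ), 0; 0, 1] * A = A' * !![(q : ℤ), 0; 0, 1] := by
    apply mat_ext <;> simp [hA', Matrix.mul_apply, Fin.sum_univ_two]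
    · ring
    · rw [hγ]; ring
  have hD : (!![(q : ℤ), 0; 0, 1] : M2).det ≠ 0 := by simpa [Matrix.det_fin_two_of] using hq0
  have hA0 : A.det ≠ 0 := by rw [h1]; exact_mod_cast hQ0
  have hApos : 0 < A.det := by rw [h1]; exact_mod_cast Nat.pos_of_ne_zero hQ0
  have hG' := isCF_mono (dvd_mul_left N q) hG
  rw [ep, ep, sl_smul hApos, ← sl_mul hD hA0, hmul, sl_mul (det_WS_ne hQ0 hA'mem) hD,
    W_heckeU (hQ.trans (dvd_mul_left N q)) hQ0 hA'mem hq (dvd_mul_right q N) hqQ hG',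
    sl_WS_eq hQ hQ0 (isCF_iff.mp hG).2 (WS_mono (dvd_mul_left N q) hA'mem)
      (WS_mono (N := N) (N' := q * (q * N)) ⟨q * q, by ring⟩
        ⟨h1, h2, ⟨γ, by push_cast; exact hγ⟩, h4⟩)]

/-- the level of the depletion -/
def lv (N : ℕ) (L : List ℕ) : ℕ := L.foldr (fun q n => q * (q * n)) N

@[simp] lemma lv_nil : lv N [] = N := rfl
@[simp] lemma lv_cons (L : List ℕ) : lv N (q :: L) = q * (q * lv N L) := rfl

lemma lv_mul (x y : ℕ) (L : List ℕ) : lv (x * y) L = x * lv y L := by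
  induction L with
  | nil => rfl
  | cons q L ih => rw [lv_cons, lv_cons, ih]; ring

lemma lv_ne_zero (hN : N ≠ 0) {L : List ℕ} (hL : ∀ q ∈ L, q ≠ 0) : lv N L ≠ 0 := by
  induction L with
  | nil => exact hN
  | cons q L ih =>
    have h1 := ih fun q hq => hL q (List.mem_cons_of_mem _ hq)
    have h2 := hL q List.mem_cons_self
    rw [lv_cons]
    positivity

lemma dvd_lv (N : ℕ) (L : List ℕ) : N ∣ lv N L := by
  induction L with
  | nil => exact dvd_rfl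
  | cons q L ih => exact ih.trans ⟨q * q, by rw [lv_cons]; ring⟩

lemma not_dvd_lv (hp : p.Prime) (hN : ¬ p ∣ N) {L : List ℕ} (hL : ∀ q ∈ L, ¬ p ∣ q) :
    ¬ p ∣ lv N L := by
  induction L with
  | nil => exact hN
  | cons q L ih =>
    intro h
    rw [lv_cons] at h
    rcases hp.dvd_mul.mp h with h | h
    · exact hL q List.mem_cons_self h
    · rcases hp.dvd_mul.mp h with h | h
      · exact hL q List.mem_cons_self h
      · exact ih (fun q hq => hL q (List.mem_cons_of_mem _ hq)) h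

lemma isCF_dep_lv (hN : N ≠ 0) {L : List ℕ} (hL : ∀ q ∈ L, q ≠ 0)
    (hf : IsCF (CongruenceSubgroup.Gamma0 N) k f) :
    IsCF (CongruenceSubgroup.Gamma0 (lv N L)) k (dep k L f) := by
  induction L with
  | nil => exact hf
  | cons q L ih =>
    have hL' := fun q hq => hL q (List.mem_cons_of_mem _ hq)
    have hq : q ≠ 0 := hL q List.mem_cons_self
    have h3 := ih hL'
    have h4 : dep k (q :: L) f = dep k L f - ep k q (dep k L f) := rfl
    rw [h4, lv_cons]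
    refine isCF_sub (isCF_mono ⟨q * q, by ring⟩ h3) (isCF_smul _ (isCF_V hq ?_))
    exact isCF_heckeU (mul_ne_zero hq (lv_ne_zero hN hL')) (dvd_mul_right q _)
      (isCF_mono (dvd_mul_left _ _) h3)

lemma dep_W (hQ : Q ∣ N) (hN : N ≠ 0) {L : List ℕ} (hL : ∀ q ∈ L, q.Prime ∧ ¬ q ∣ Q)
    (hA : A ∈ WS (lv N L) Q) (hf : IsCF (CongruenceSubgroup.Gamma0 N) k f) :
    sl k A (dep k L f) = dep k L (sl k A f) := by
  induction L with
  | nil => rfl
  | cons q L ih =>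
    have hL' := fun q hq => hL q (List.mem_cons_of_mem _ hq)
    have h0 : ∀ q ∈ L, q ≠ 0 := fun q hq => (hL' q hq).1.ne_zero
    have hq := hL q List.mem_cons_self
    rw [lv_cons] at hA
    have h4 : ∀ g : ℍ → ℂ, dep k (q :: L) g = dep k L g - ep k q (dep k L g) := fun _ => rfl
    have h5 := ih hL' (WS_mono (N := lv N L) ⟨q * q, by ring⟩ hA)
    rw [h4, h4, sl_sub, ep_W (hQ.trans (dvd_lv N L)) (lv_ne_zero hN h0) hq.1 hq.2 hA
      (isCF_dep_lv hN h0 hf), h5]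

lemma dep_smul (L : List ℕ) (hL : ∀ q ∈ L, q ≠ 0) (x : ℂ) :
    dep k L (x • f) = x • dep k L f := by
  induction L with
  | nil => rfl
  | cons q L ih =>
    have h4 : ∀ g : ℍ → ℂ, dep k (q :: L) g = dep k L g - ep k q (dep k L g) := fun _ => rfl
    have hq := hL q List.mem_cons_self
    rw [h4, h4, ih fun q hq => hL q (List.mem_cons_of_mem _ hq), ep, ep, heckeU_smul,
      sl_smul (by simpa [Matrix.det_fin_two_of] using Nat.pos_of_ne_zero hq), smul_sub,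
      smul_comm x]

/-- `W` at level `p^c R` on a form of level `p^b R`, `b ≤ c`. -/
lemma W_low (hp : p.Prime) (hbc : b ≤ c) (hA : A ∈ WS (p ^ c * R) (p ^ c)) (G : ℍ → ℂ) :
    ∃ A' ∈ WS (p ^ b * R) (p ^ b),
      sl 2 A G = sl 2 !![((p ^ (c - b) : ℕ) : ℤ), 0; 0, 1] (sl 2 A' G) := by
  obtain ⟨h1, ⟨α, hα⟩, ⟨γ, hγ⟩, ⟨δ, hδ⟩⟩ := hA
  have hpc : ((p : ℤ) ^ c) ≠ 0 := pow_ne_zero _ (by exact_mod_cast hp.ne_zero)
  push_cast at h1 hα hγ hδ
  rw [Matrix.det_fin_two, hα, hγ, hδ] at h1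
  have h2 : (p : ℤ) ^ c * α * δ - R * γ * A 0 1 = 1 := mul_left_cancel₀ hpc (by linear_combination h1)
  have h3 : (p : ℤ) ^ c = (p : ℤ) ^ b * (p : ℤ) ^ (c - b) := by rw [← pow_add, Nat.add_sub_cancel' hbc]
  set A' : M2 := !![(p : ℤ) ^ b * α, A 0 1; (p : ℤ) ^ b * R * γ, (p : ℤ) ^ c * δ] with hA'
  have hdet : A'.det = (p : ℤ) ^ b := by
    rw [hA', Matrix.det_fin_two_of]
    linear_combination (p : ℤ) ^ b * h2
  refine ⟨A', ⟨?_, ?_, ?_, ?_⟩, ?_⟩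
  · rw [hdet]; push_cast; rfl
  · simp [hA']
  · simp [hA']
  · simp only [hA', Matrix.of_apply, Matrix.cons_val', Matrix.cons_val_one, Matrix.cons_val_zero]
    push_cast
    rw [h3, mul_assoc]
    exact dvd_mul_right _ _
  · have h4 : A = A' * !![((p ^ (c - b) : ℕ) : ℤ), 0; 0, 1] := by
      apply mat_ext <;> simp [hA', Matrix.mul_apply, Fin.sum_univ_two]
      · rw [hα, h3]; ring
      · rw [hγ, h3]; ring
      · exact hδ
    rw [h4, sl_mul (by rw [hdet]; exact pow_ne_zero _ (by exact_mod_cast hp.ne_zero)) (by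
      rw [Matrix.det_fin_two_of, mul_one, mul_zero, sub_zero]
      exact_mod_cast pow_ne_zero _ hp.ne_zero)]

/-- `W` and `V_p`. -/
lemma W_V' (hp : p.Prime) (hA : A ∈ WS (p ^ (c + 1) * R) (p ^ (c + 1))) (G : ℍ → ℂ) :
    ∃ A' ∈ WS (p ^ c * R) (p ^ c), sl 2 A (sl 2 !![(p : ℤ), 0; 0, 1] G) = sl 2 A' G := by
  obtain ⟨h1, ⟨α, hα⟩, ⟨γ, hγ⟩, ⟨δ, hδ⟩⟩ := hA
  have hpc : ((p : ℤ) ^ (c + 1)) ≠ 0 := pow_ne_zero _ (by exact_mod_cast hp.ne_zero)
  have hpZ : (p : ℤ) ≠ 0 := by exact_mod_cast hp.ne_zero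
  have hAdet : A.det ≠ 0 := by rw [h1]; push_cast; exact hpc
  push_cast at h1 hα hγ hδ
  rw [Matrix.det_fin_two, hα, hγ, hδ] at h1
  have h2 : (p : ℤ) ^ (c + 1) * α * δ - R * γ * A 0 1 = 1 :=
    mul_left_cancel₀ hpc (by linear_combination h1)
  set A' : M2 := !![(p : ℤ) ^ (c + 1) * α, A 0 1; (p : ℤ) ^ c * R * γ, (p : ℤ) ^ c * δ] with hA'
  have hdet : A'.det = (p : ℤ) ^ c := by
    rw [hA', Matrix.det_fin_two_of]
    linear_combination (p : ℤ) ^ c * h2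
  refine ⟨A', ⟨?_, ?_, ?_, ?_⟩, ?_⟩
  · rw [hdet]; push_cast; rfl
  · simp only [hA', Matrix.of_apply, Matrix.cons_val', Matrix.cons_val_zero]
    push_cast
    exact ⟨p * α, by ring⟩
  · simp [hA']
  · simp [hA']
  · have h4 : !![(p : ℤ), 0; 0, 1] * A = !![(p : ℤ), 0; 0, p] * A' := by
      apply mat_ext <;> simp [hA', Matrix.mul_apply, Fin.sum_univ_two]
      · exact Or.inl hα
      · rw [hγ]; ring
      · rw [hδ]; ring
    have hs := sl_scalar (k := 2) (f := G) hpZ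
    rw [sub_self, zpow_zero, one_smul] at hs
    rw [← sl_mul (by simpa [Matrix.det_fin_two_of] using hp.ne_zero) hAdet, h4,
      sl_mul (by simpa [Matrix.det_fin_two_of] using hp.ne_zero)
        (by rw [hdet]; exact pow_ne_zero _ hpZ), hs]

lemma qCoeff_V_one {d : ℕ} (hf : QG f) (hd : 1 < d) :
    qCoeff (sl 2 !![(d : ℤ), 0; 0, 1] f) 1 = 0 := by
  rw [qCoeff_V hf (by omega), if_neg]
  intro h
  have := Nat.le_of_dvd one_pos h
  omega

/-- The first coefficient of `W G`, for `G` of smaller level at `p`, vanishes. -/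
lemma qCoeff_W_one (hp : p.Prime) (hbc : b < c) (hA : A ∈ WS (p ^ c * R) (p ^ c))
    (hG : IsCF (CongruenceSubgroup.Gamma0 (p ^ b * R)) 2 G) : qCoeff (sl 2 A G) 1 = 0 := by
  obtain ⟨A', hA', h⟩ := W_low hp hbc.le hA G
  have h1 := isCF_W (dvd_mul_right (p ^ b) R) (pow_ne_zero b hp.ne_zero) hA' hG
  rw [h]
  exact qCoeff_V_one (QG_of_IsCF h1) (Nat.one_lt_pow (by omega) hp.one_lt)

/-- Data on the depletion of a newform. -/
lemma dep_newform_W {M M₀ a : ℕ} (hp : p.Prime) (hM : M = p ^ a * M₀) (hR0 : R ≠ 0)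
    (hM₀ : M₀ ∣ R) [NeZero M] {f : CuspForm (CongruenceSubgroup.Gamma0 M) 2} (hf : f.IsNewform)
    {L : List ℕ} (hL : ∀ q ∈ L, q.Prime ∧ ¬ q ∣ p ^ a) (hA : A ∈ WS (p ^ a * lv R L) (p ^ a)) :
    ∃ ε : ℂ, ε ^ 2 = 1 ∧ sl 2 A (dep 2 L f) = ε • dep 2 L f := by
  have hd : M ∣ p ^ a * R := hM ▸ mul_dvd_mul_left _ hM₀
  have h1 : A ∈ WS M (p ^ a) := WS_mono (hd.trans (mul_dvd_mul_left _ (dvd_lv R L))) hA
  obtain ⟨ε, hε, hW⟩ := newform_W hf (hM ▸ dvd_mul_right _ _) h1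
  refine ⟨ε, hε, ?_⟩
  rw [dep_W (N := p ^ a * R) (dvd_mul_right _ _) (mul_ne_zero (pow_ne_zero _ hp.ne_zero) hR0) hL
    (by rw [lv_mul]; exact hA) (isCF_mono hd (IsCF.of_class f)), hW,
    dep_smul L (fun q hq => (hL q hq).1.ne_zero)]

lemma isCF_dep_newform {M M₀ a : ℕ} (hp : p.Prime) (hM : M = p ^ a * M₀) (hR0 : R ≠ 0)
    (hM₀ : M₀ ∣ R) [NeZero M] (f : CuspForm (CongruenceSubgroup.Gamma0 M) 2)
    {L : List ℕ} (hL : ∀ q ∈ L, q.Prime) :
    IsCF (CongruenceSubgroup.Gamma0 (p ^ a * lv R L)) 2 (dep 2 L f) := by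
  rw [← lv_mul]
  exact isCF_dep_lv (mul_ne_zero (pow_ne_zero _ hp.ne_zero) hR0) (fun q hq => (hL q hq).ne_zero)
    (isCF_mono (hM ▸ mul_dvd_mul_left _ hM₀) (IsCF.of_class f))

lemma dvd_mul_iff_of_prime (hq : q.Prime) (hp : p.Prime) (hqp : q ≠ p) (n : ℕ) :
    q ∣ n * p ↔ q ∣ n := by
  rw [hq.dvd_mul]
  constructor
  · rintro (h | h)
    · exact h
    · exact absurd ((Nat.prime_dvd_prime_iff_eq hq hp).mp h) hqp
  · exact Or.inl

/-- `U_p` on depletions, when `U_p f = u f`. -/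
lemma heckeU_dep (hp : p.Prime) {L : List ℕ} (hL : ∀ q ∈ L, q.Prime ∧ q ≠ p) (hf : QG f) {u : ℂ}
    (h : heckeU 2 p f = u • f) : heckeU 2 p (dep 2 L f) = u • dep 2 L f := by
  have h0 : ∀ q ∈ L, q ≠ 0 := fun q hq => (hL q hq).1.ne_zero
  have hD := QG.dep (k := 2) hf L h0
  refine eq_of_qCoeff (QG.heckeU hD 2 p) (hD.smul _) fun n => ?_
  have h1 := congrArg (fun F => qCoeff F n) h
  rw [qCoeff_heckeU hf hp.ne_zero, QG.qCoeff_smul hf] at h1
  rw [qCoeff_heckeU hD hp.ne_zero, QG.qCoeff_smul hD, qCoeff_dep hf L h0, qCoeff_dep hf L h0]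
  by_cases hex : ∃ q ∈ L, q ∣ n
  · rw [if_pos hex, if_pos, mul_zero]
    obtain ⟨q, hq, hqn⟩ := hex
    exact ⟨q, hq, Dvd.dvd.mul_right hqn p⟩
  · rw [if_neg hex, if_neg]
    · exact h1
    · rintro ⟨q, hq, hqn⟩
      exact hex ⟨q, hq, (dvd_mul_iff_of_prime (hL q hq).1 hp (hL q hq).2 n).mp hqn⟩

/-- `U_p` on depletions, when `T_p f = a f`. -/
lemma heckeU_dep' (hp : p.Prime) {L : List ℕ} (hL : ∀ q ∈ L, q.Prime ∧ q ≠ p) (hf : QG f) {u : ℂ}
    (h : heckeT 2 p f = u • f) :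
    heckeU 2 p (dep 2 L f) = u • dep 2 L f - sl 2 !![(p : ℤ), 0; 0, 1] (dep 2 L f) := by
  have h0 : ∀ q ∈ L, q ≠ 0 := fun q hq => (hL q hq).1.ne_zero
  have hD := QG.dep (k := 2) hf L h0
  refine eq_of_qCoeff (QG.heckeU hD 2 p) ((hD.smul _).sub (QG.V hD hp.ne_zero 2)) fun n => ?_
  have h1 := congrArg (fun F => qCoeff F n) h
  rw [qCoeff_heckeT hf hp.ne_zero, QG.qCoeff_smul hf] at h1
  rw [qCoeff_heckeU hD hp.ne_zero, QG.qCoeff_sub (hD.smul _) (QG.V hD hp.ne_zero 2),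
    QG.qCoeff_smul hD, qCoeff_V hD hp.ne_zero, qCoeff_dep hf L h0, qCoeff_dep hf L h0,
    qCoeff_dep hf L h0]
  by_cases hex : ∃ q ∈ L, q ∣ n
  · rw [if_pos hex, if_pos, mul_zero]
    · obtain ⟨q, hq, hqn⟩ := hex
      split_ifs with h2 h3
      · ring
      · exfalso
        obtain ⟨m, rfl⟩ := h2
        apply h3
        refine ⟨q, hq, ?_⟩
        rw [Nat.mul_div_cancel_left _ hp.pos]
        rw [mul_comm] at hqn
        exact (dvd_mul_iff_of_prime (hL q hq).1 hp (hL q hq).2 m).mp hqn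
      · ring
    · obtain ⟨q, hq, hqn⟩ := hex
      exact ⟨q, hq, Dvd.dvd.mul_right hqn p⟩
  · rw [if_neg hex, if_neg]
    · split_ifs with h2 h3
      · exfalso
        obtain ⟨q, hq, hqn⟩ := h3
        exact hex ⟨q, hq, hqn.trans (Nat.div_dvd_of_dvd h2)⟩
      · rw [if_pos h2] at h1
        linear_combination h1
      · rw [if_neg h2] at h1
        linear_combination h1
    · rintro ⟨q, hq, hqn⟩
      exact hex ⟨q, hq, (dvd_mul_iff_of_prime (hL q hq).1 hp (hL q hq).2 n).mp hqn⟩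

lemma sq_eq_one_norm {ε : ℂ} (h : ε ^ 2 = 1) : ‖ε‖ = 1 := by
  have h1 := congrArg norm h
  rw [norm_pow, norm_one] at h1
  nlinarith [norm_nonneg ε]

end

end Fermat.Agent.AL
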