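import Fermat.Agent.AL.Mult

/-!
# Atkin–Lehner operators and traces
-/

set_option autoImplicit false

open UpperHalfPlane ModularForm Complex Filter Topology Matrix.SpecialLinearGroup
open ModularFormClass Fermat.Agent.MFLib
open scoped MatrixGroups Manifold

namespace Fermat.Agent.AL

noncomputable section

variable {k : ℤ} {f g h : ℍ → ℂ} {p N M Q l : ℕ}

/-- The Atkin–Lehner matrices of determinant `Q` and level `N`. -/
abbrev WS (N Q : ℕ) : Set M2 := WW Q Q N Q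

lemma exists_WS (hQ : Q ∣ N) (hco : Q.Coprime (N / Q)) : ∃ A, A ∈ WS N Q := by
  obtain ⟨m, rfl⟩ := hQ
  rcases Nat.eq_zero_or_pos Q with rfl | hQ
  · exact ⟨0, by simp [WS, WW]⟩
  rw [Nat.mul_div_cancel_left _ hQ] at hco
  obtain ⟨a, b, hab⟩ := Nat.isCoprime_iff_coprime.mpr hco
  refine ⟨!![(Q : ℤ), -b; (Q * m : ℕ), Q * a], ?_, ?_, ?_, ?_⟩
  · rw [Matrix.det_fin_two_of]
    push_cast
    linear_combination (Q : ℤ) * hab
  · simp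
  · simp
  · simp

section basic

variable {A B : M2}

lemma WS_mul_adj (hN : Q ∣ N) (hA : A ∈ WS N Q) (hB : B ∈ WS N Q) (hQ : Q ≠ 0) :
    ∃ γ : M2, γ.det = 1 ∧ (N : ℤ) ∣ γ 1 0 ∧ A = γ * B := by
  obtain ⟨h1, ⟨a, ha⟩, ⟨c, hc⟩, ⟨d, hd⟩⟩ := hA
  obtain ⟨h1', ⟨a', ha'⟩, ⟨c', hc'⟩, ⟨d', hd'⟩⟩ := hB
  obtain ⟨m, rfl⟩ := hN
  have hQZ : (Q : ℤ) ≠ 0 := by exact_mod_cast hQ
  rw [Matrix.det_fin_two, ha, hc, hd] at h1
  rw [Matrix.det_fin_two, ha', hc', hd'] at h1'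
  push_cast at hc hc' h1 h1'
  have h2 : (Q : ℤ) * a * d - m * c * A 0 1 = 1 := mul_left_cancel₀ hQZ (by linear_combination h1)
  have h2' : (Q : ℤ) * a' * d' - m * c' * B 0 1 = 1 :=
    mul_left_cancel₀ hQZ (by linear_combination h1')
  refine ⟨!![(Q : ℤ) * a * d' - m * c' * A 0 1, a' * A 0 1 - a * B 0 1;
    ((Q * m : ℕ) : ℤ) * (c * d' - d * c'), Q * a' * d - m * c * B 0 1], ?_, ?_, ?_⟩
  · rw [Matrix.det_fin_two_of]
    push_cast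
    linear_combination ((Q : ℤ) * a' * d' - m * c' * B 0 1) * h2 + h2'
  · simp
  · apply mat_ext <;> simp [Matrix.mul_apply, Fin.sum_univ_two]
    · rw [ha, ha', hc']
      linear_combination (-(Q : ℤ) * a) * h2'
    · rw [hd']
      linear_combination (-(A 0 1)) * h2'
    · rw [hc, ha', hc']
      linear_combination (-(Q : ℤ) * m * c) * h2'
    · rw [hd, hd']
      linear_combination (-(Q : ℤ) * d) * h2'

lemma det_WS_ne (hQ : Q ≠ 0) (hA : A ∈ WS N Q) : A.det ≠ 0 := by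
  rw [hA.1]; exact_mod_cast hQ

lemma det_WS_pos (hQ : Q ≠ 0) (hA : A ∈ WS N Q) : 0 < A.det := by
  rw [hA.1]; exact_mod_cast Nat.pos_of_ne_zero hQ

/-- independence of the choice of the matrix -/
lemma sl_WS_eq (hN : Q ∣ N) (hQ : Q ≠ 0)
    (hinv : ∀ A : M2, A.det = 1 → (N : ℤ) ∣ A 1 0 → sl k A f = f)
    (hA : A ∈ WS N Q) (hB : B ∈ WS N Q) : sl k A f = sl k B f := by
  obtain ⟨γ, h1, h2, rfl⟩ := WS_mul_adj hN hA hB hQ
  rw [sl_mul (by rw [h1]; exact one_ne_zero) (det_WS_ne hQ hB), hinv γ h1 h2]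

lemma WS_mul_mem (hN : Q ∣ N) (hA : A ∈ WS N Q) {γ : M2} (h1 : γ.det = 1) (h2 : (N : ℤ) ∣ γ 1 0) :
    A * γ ∈ WS N Q := by
  obtain ⟨hA1, hA2, hA3, hA4⟩ := hA
  have hQN : (Q : ℤ) ∣ N := Int.natCast_dvd_natCast.mpr hN
  refine ⟨by rw [Matrix.det_mul, hA1, h1, mul_one], ?_, ?_, ?_⟩
  · rw [Matrix.mul_apply, Fin.sum_univ_two]
    exact dvd_add (Dvd.dvd.mul_right hA2 _) (Dvd.dvd.mul_left (hQN.trans h2) _)
  · rw [Matrix.mul_apply, Fin.sum_univ_two]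
    exact dvd_add (Dvd.dvd.mul_right hA3 _) (Dvd.dvd.mul_left h2 _)
  · rw [Matrix.mul_apply, Fin.sum_univ_two]
    exact dvd_add (Dvd.dvd.mul_right (hQN.trans hA3) _) (Dvd.dvd.mul_right hA4 _)

/-- `W_Q` preserves level `N`. -/
theorem isCF_W (hN : Q ∣ N) (hQ : Q ≠ 0) (hA : A ∈ WS N Q)
    (hf : IsCF (CongruenceSubgroup.Gamma0 N) k f) :
    IsCF (CongruenceSubgroup.Gamma0 N) k (sl k A f) := by
  rw [isCF_iff] at hf ⊢
  refine ⟨hf.1.sl _, fun γ h1 h2 => ?_⟩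
  rw [← sl_mul (det_WS_ne hQ hA) (by rw [h1]; exact one_ne_zero)]
  exact sl_WS_eq hN hQ hf.2 (WS_mul_mem hN hA h1 h2) hA

lemma adj_mem_WS (hA : A ∈ WS N Q) : A.adjugate ∈ WS N Q := by
  obtain ⟨h1, h2, h3, h4⟩ := hA
  refine ⟨?_, ?_, ?_, ?_⟩
  · rw [Matrix.det_adjugate]; simpa using h1
  · rw [Matrix.adjugate_fin_two]; simpa using h4
  · rw [Matrix.adjugate_fin_two]; simpa using h3
  · rw [Matrix.adjugate_fin_two]; simpa using h2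

/-- `W_Q² = Q^{k-2}`. -/
theorem W_W (hN : Q ∣ N) (hQ : Q ≠ 0) (hA : A ∈ WS N Q) (hB : B ∈ WS N Q)
    (hf : IsCF (CongruenceSubgroup.Gamma0 N) k f) :
    sl k B (sl k A f) = (Q : ℂ) ^ (k - 2) • f := by
  have h1 := isCF_W hN hQ hA hf
  rw [isCF_iff] at h1
  rw [sl_WS_eq hN hQ h1.2 hB (adj_mem_WS hA),
    ← sl_mul (det_WS_ne hQ hA) (det_WS_ne hQ (adj_mem_WS hA)), Matrix.mul_adjugate, hA.1]
  have h2 : ((Q : ℤ) • (1 : M2)) = !![(Q : ℤ), 0; 0, Q] := by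
    apply mat_ext <;> simp
  rw [h2]
  have h3 := sl_scalar (k := k) (f := f) (n := (Q : ℤ)) (by exact_mod_cast hQ)
  rw [h3]
  norm_cast

/-- `W_Q` commutes with `T_ℓ`, `ℓ ∤ N`. -/
theorem W_heckeT (hN : Q ∣ N) (hQ : Q ≠ 0) (hA : A ∈ WS N Q) (hl : l.Prime) (hlN : ¬ l ∣ N)
    (hf : IsCF (CongruenceSubgroup.Gamma0 N) k f) :
    sl k A (heckeT k l f) = heckeT k l (sl k A f) := by
  rw [isCF_iff] at hf
  have hQN : (Q : ℤ) ∣ N := Int.natCast_dvd_natCast.mpr hN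
  refine sl_heckeT hl (stab_WW hl.ne_zero hQN hQN (isCoprime_of_not_dvd hl hlN))
    (fun A hA B hB => sl_WS_eq hN hQ hf.2 hA hB) hA ?_
  rw [hA.1]
  intro hd
  exact hlN ((Int.natCast_dvd_natCast.mp hd).trans hN)

/-- `W_Q` commutes with `U_p`, `p ∣ N`, `p ∤ Q`. -/
theorem W_heckeU (hN : Q ∣ N) (hQ : Q ≠ 0) (hA : A ∈ WS N Q) (hp : p.Prime) (hpN : p ∣ N)
    (hpQ : ¬ p ∣ Q) (hf : IsCF (CongruenceSubgroup.Gamma0 N) k f) :
    sl k A (heckeU k p f) = heckeU k p (sl k A f) := by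
  rw [isCF_iff] at hf
  have hQN : (Q : ℤ) ∣ N := Int.natCast_dvd_natCast.mpr hN
  refine sl_heckeU hp (stabU_WW hp.ne_zero hQN hQN)
    (fun A hA B hB => sl_WS_eq hN hQ hf.2 hA hB) hA ?_ ?_
  · rw [hA.1]
    exact fun hd => hpQ (Int.natCast_dvd_natCast.mp hd)
  · exact (Int.natCast_dvd_natCast.mpr hpN).trans hA.2.2.1

end basic

end

end Fermat.Agent.AL
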